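import Mathlib.Algebra.Module.Torsion.Basic
import Mathlib.Data.ZMod.Basic
import Mathlib.Data.Nat.Factorization.Induction
import Mathlib.GroupTheory.OrderOfElement
import Mathlib.SetTheory.Cardinal.NatCard
import Mathlib.Algebra.Field.ZMod
import Mathlib.RingTheory.Int.Basic

/-!
# A divisible abelian group with `#G[n] = n ^ 2` has `G[n] ≅ (ℤ/n)²`
-/

set_option autoImplicit false

namespace FLTA.EllTorsion

variable {G : Type*} [AddCommGroup G]

/-- A basis of the `n`-torsion. -/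
def HasBasis (G : Type*) [AddCommGroup G] (n : ℕ) : Prop :=
  ∃ P Q : G, n • P = 0 ∧ n • Q = 0 ∧
    ∀ i j : ℤ, i • P + j • Q = 0 → (n : ℤ) ∣ i ∧ (n : ℤ) ∣ j

lemma hasBasis_prime {p : ℕ} (hp : p.Prime)
    (hcard : Nat.card (Submodule.torsionBy ℤ G p) = p ^ 2) : HasBasis G p := by
  set M := Submodule.torsionBy ℤ G p
  have : Fact p.Prime := ⟨hp⟩
  have : Finite M := Nat.finite_of_card_ne_zero (hcard ▸ pow_ne_zero 2 hp.ne_zero)
  have hmem : ∀ x : G, x ∈ M ↔ p • x = 0 := fun x => by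
    rw [Submodule.mem_torsionBy_iff, natCast_zsmul]
  obtain ⟨P, hP⟩ : ∃ P : M, P ≠ 0 := by
    by_contra h
    push Not at h
    have : Nat.card M ≤ 1 := Finite.card_le_one_iff_subsingleton.mpr
      ⟨fun a b => (h a).trans (h b).symm⟩
    rw [hcard] at this
    have := Nat.pow_le_pow_left hp.two_le 2
    omega
  have hPord : addOrderOf (P : G) = p :=
    addOrderOf_eq_prime ((hmem P).mp P.2) (by simpa using hP)
  obtain ⟨Q, hQ⟩ : ∃ Q : M, (Q : G) ∉ AddSubgroup.zmultiples (P : G) := by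
    by_contra h
    push Not at h
    have hf : Nat.card (AddSubgroup.zmultiples (P : G)) = p := by
      rw [Nat.card_zmultiples, hPord]
    have : Finite (AddSubgroup.zmultiples (P : G)) :=
      Nat.finite_of_card_ne_zero (hf ▸ hp.ne_zero)
    have := Nat.card_le_card_of_injective
      (fun x : M => (⟨x, h x⟩ : AddSubgroup.zmultiples (P : G)))
      fun a b hab => Subtype.ext (congrArg (fun y : AddSubgroup.zmultiples (P : G) => (y : G)) hab)
    rw [hcard, hf, sq] at this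
    have := Nat.mul_le_mul_right p hp.two_le
    have := hp.two_le
    omega
  refine ⟨P, Q, (hmem P).mp P.2, (hmem Q).mp Q.2, fun i j hij => ?_⟩
  have hj : (p : ℤ) ∣ j := by
    by_contra hj
    obtain ⟨a, b, hab⟩ : IsCoprime (p : ℤ) j :=
      ((Nat.prime_iff_prime_int.mp hp).coprime_iff_not_dvd).mpr hj
    refine hQ (AddSubgroup.mem_zmultiples_iff.mpr ⟨-(b * i), ?_⟩)
    have hpQ : (p : ℤ) • (Q : G) = 0 := by rw [natCast_zsmul]; exact (hmem Q).mp Q.2
    calc -(b * i) • (P : G) = b • (j • (Q : G)) := by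
          rw [eq_neg_of_add_eq_zero_right hij, neg_smul, mul_smul, smul_neg]
      _ = b • (j • (Q : G)) + a • ((p : ℤ) • (Q : G)) := by rw [hpQ, smul_zero, add_zero]
      _ = (a * p + b * j) • (Q : G) := by rw [add_smul, mul_smul, mul_smul]; abel
      _ = Q := by rw [hab, one_smul]
  refine ⟨?_, hj⟩
  obtain ⟨t, rfl⟩ := hj
  rw [mul_comm, mul_smul, natCast_zsmul, (hmem Q).mp Q.2, smul_zero, add_zero] at hij
  rw [← hPord]
  exact addOrderOf_dvd_iff_zsmul_eq_zero.mpr hij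

lemma hasBasis_prime_pow {p : ℕ} (hp : p.Prime) (hdiv : ∀ Q : G, ∃ P : G, p • P = Q)
    (hcard : Nat.card (Submodule.torsionBy ℤ G p) = p ^ 2) :
    ∀ k : ℕ, HasBasis G (p ^ (k + 1))
  | 0 => by simpa using hasBasis_prime hp hcard
  | k + 1 => by
    obtain ⟨P, Q, hP, hQ, hli⟩ := hasBasis_prime_pow hp hdiv hcard k
    obtain ⟨P', rfl⟩ := hdiv P
    obtain ⟨Q', rfl⟩ := hdiv Q
    refine ⟨P', Q', by rw [pow_succ, mul_smul, hP], by rw [pow_succ, mul_smul, hQ],
      fun i j hij => ?_⟩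
    have h1 : i • (p • P') + j • (p • Q') = 0 := by
      rw [smul_comm i p, smul_comm j p, ← smul_add, hij, smul_zero]
    obtain ⟨hi, hj⟩ := hli i j h1
    obtain ⟨a, ha⟩ := hi
    obtain ⟨b, hb⟩ := hj
    have e : ∀ (c : ℤ) (x : G), (((p ^ (k + 1) : ℕ) : ℤ) * c) • x = (c * (p ^ k : ℕ)) • (p • x) :=
      fun c x => by
        rw [← natCast_zsmul x p, ← mul_smul]
        congr 1
        push_cast [pow_succ]
        ring
    rw [ha, hb, e, e] at hij
    obtain ⟨hi', hj'⟩ := hli _ _ hij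
    have cancel : ∀ c : ℤ, ((p ^ (k + 1) : ℕ) : ℤ) ∣ c * (p ^ k : ℕ) →
        ((p ^ (k + 1 + 1) : ℕ) : ℤ) ∣ ((p ^ (k + 1) : ℕ) : ℤ) * c := fun c hc => by
      push_cast [pow_succ] at hc ⊢
      rw [mul_comm c] at hc
      exact mul_dvd_mul_left _ ((mul_dvd_mul_iff_left (by
        exact pow_ne_zero k (Int.natCast_ne_zero.mpr hp.ne_zero))).mp hc)
    exact ⟨ha ▸ cancel a hi', hb ▸ cancel b hj'⟩

lemma hasBasis_mul {a b : ℕ} (hab : a.Coprime b) (ha : HasBasis G a) (hb : HasBasis G b) :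
    HasBasis G (a * b) := by
  obtain ⟨P, Q, hP, hQ, hli⟩ := ha
  obtain ⟨P', Q', hP', hQ', hli'⟩ := hb
  have hab' : IsCoprime (a : ℤ) b := by exact_mod_cast hab.isCoprime
  refine ⟨P + P', Q + Q', ?_, ?_, fun i j hij => ?_⟩
  · rw [smul_add, mul_comm, mul_smul, hP, smul_zero, zero_add, mul_comm, mul_smul, hP', smul_zero]
  · rw [smul_add, mul_comm, mul_smul, hQ, smul_zero, zero_add, mul_comm, mul_smul, hQ', smul_zero]
  · have key : ∀ (m : ℕ) (R R' S S' : G), m • R' = 0 → m • S' = 0 →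
        i • (R + R') + j • (S + S') = 0 → (i * m) • R + (j * m) • S = 0 := by
      intro m R R' S S' h1 h2 h
      have := congrArg ((m : ℤ) • ·) h
      simp only [smul_add, smul_zero] at this
      rw [smul_comm (m : ℤ) i R', smul_comm (m : ℤ) j S', natCast_zsmul R', natCast_zsmul S',
        h1, h2, smul_zero, smul_zero, add_zero, add_zero, smul_smul, smul_smul] at this
      rwa [mul_comm i, mul_comm j]
    obtain ⟨hi, hj⟩ := hli _ _ (key b P P' Q Q' hP' hQ' hij)
    obtain ⟨hi', hj'⟩ := hli' _ _ (key a P' P Q' Q hP hQ (by rwa [add_comm P', add_comm Q']))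
    push_cast
    exact ⟨hab'.mul_dvd (hab'.dvd_of_dvd_mul_right hi) (hab'.symm.dvd_of_dvd_mul_right hi'),
      hab'.mul_dvd (hab'.dvd_of_dvd_mul_right hj) (hab'.symm.dvd_of_dvd_mul_right hj')⟩

lemma hasBasis (n : ℕ) (hn : n ≠ 0)
    (hdiv : ∀ p : ℕ, p.Prime → p ∣ n → ∀ Q : G, ∃ P : G, p • P = Q)
    (hcard : ∀ p : ℕ, p.Prime → p ∣ n → Nat.card (Submodule.torsionBy ℤ G p) = p ^ 2) :
    HasBasis G n := by
  induction n using Nat.recOnPrimeCoprime with
  | zero => exact absurd rfl hn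
  | prime_pow p k hp =>
    cases k with
    | zero =>
      exact ⟨0, 0, smul_zero _, smul_zero _, fun i j _ => by simp⟩
    | succ k =>
      have hd : p ∣ p ^ (k + 1) := dvd_pow_self p k.succ_ne_zero
      exact hasBasis_prime_pow hp (hdiv p hp hd) (hcard p hp hd) k
  | coprime a b _ _ hab iha ihb =>
    exact hasBasis_mul hab
      (iha (fun h => hn (by simp [h])) (fun p hp hd => hdiv p hp (hd.mul_right b))
        fun p hp hd => hcard p hp (hd.mul_right b))
      (ihb (fun h => hn (by simp [h])) (fun p hp hd => hdiv p hp (hd.mul_left a))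
        fun p hp hd => hcard p hp (hd.mul_left a))

/-- `G[n] ≅ (ℤ/n)²`. -/
theorem nonempty_addEquiv_of_hasBasis {n : ℕ} (hn : n ≠ 0) (h : HasBasis G n)
    (hcard : Nat.card (Submodule.torsionBy ℤ G n) = n ^ 2) :
    Nonempty (Submodule.torsionBy ℤ G n ≃+ (Fin 2 → ZMod n)) := by
  have : NeZero n := ⟨hn⟩
  set M := Submodule.torsionBy ℤ G n
  obtain ⟨P, Q, hP, hQ, hli⟩ := h
  have hmem : ∀ x : G, n • x = 0 → x ∈ M := fun x hx => by
    rw [Submodule.mem_torsionBy_iff, natCast_zsmul, hx]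
  let P' : M := ⟨P, hmem P hP⟩
  let Q' : M := ⟨Q, hmem Q hQ⟩
  let lP : ZMod n →+ M := ZMod.lift n ⟨zmultiplesHom M P', Subtype.ext (by simp [P', hP])⟩
  let lQ : ZMod n →+ M := ZMod.lift n ⟨zmultiplesHom M Q', Subtype.ext (by simp [Q', hQ])⟩
  let f : (Fin 2 → ZMod n) →+ M :=
    lP.comp (Pi.evalAddMonoidHom (fun _ : Fin 2 => ZMod n) 0) +
      lQ.comp (Pi.evalAddMonoidHom (fun _ : Fin 2 => ZMod n) 1)
  have hinj : Function.Injective f := by
    rw [injective_iff_map_eq_zero]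
    intro v hv
    obtain ⟨i, hi⟩ := ZMod.intCast_surjective (v 0)
    obtain ⟨j, hj⟩ := ZMod.intCast_surjective (v 1)
    have := congrArg Subtype.val hv
    simp [f, lP, lQ, ← hi, ← hj, P', Q'] at this
    obtain ⟨hi', hj'⟩ := hli i j this
    ext k; fin_cases k
    · simpa [← hi] using (ZMod.intCast_zmod_eq_zero_iff_dvd i n).mpr hi'
    · simpa [← hj] using (ZMod.intCast_zmod_eq_zero_iff_dvd j n).mpr hj'
  have : Finite M := Nat.finite_of_card_ne_zero (hcard ▸ pow_ne_zero 2 hn)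
  have hbij : Function.Bijective f := hinj.bijective_of_nat_card_le (by
    rw [hcard, Nat.card_fun, Nat.card_fin, Nat.card_zmod])
  exact ⟨(AddEquiv.ofBijective f hbij).symm⟩

end FLTA.EllTorsion
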