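import Mathlib.AlgebraicGeometry.EllipticCurve.Affine.AddSubMap
import Mathlib.Tactic.LinearCombination
import Mathlib.Tactic.FieldSimp

/-!
# `addSubMap` computes `x (P + Q)` and `x (P - Q)`
-/

set_option autoImplicit false

namespace FLTA.EllTorsion

open WeierstrassCurve WeierstrassCurve.Affine MvPolynomial

universe u

lemma eval_addSubMap {R : Type u} [CommRing R] (W : WeierstrassCurve R) (v : Fin 3 → R) :
    (fun i => (W.addSubMap i).eval v) =
      ![v 0 ^ 2 - W.b₄ * v 0 * v 2 - W.b₆ * v 1 * v 2 - W.b₈ * v 2 ^ 2,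
        2 * v 1 * v 0 + W.b₂ * v 0 * v 2 + W.b₄ * v 1 * v 2 + W.b₆ * v 2 ^ 2,
        v 1 ^ 2 - 4 * v 0 * v 2] := by
  ext i; fin_cases i <;> simp [WeierstrassCurve.addSubMap]

variable {K : Type u} [Field K] [DecidableEq K] (W : WeierstrassCurve K)

/-- Numerator of `x (P + Q)`, with `d = x₁ - x₂` and `v = y₁ - y₂`. -/
def addNum (x₁ x₂ v : K) : K :=
  v ^ 2 + W.a₁ * v * (x₁ - x₂) - (W.a₂ + x₁ + x₂) * (x₁ - x₂) ^ 2

lemma addX_slope_mul {x₁ y₁ x₂ y₂ : K} (hx : x₁ ≠ x₂) :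
    W.toAffine.addX x₁ x₂ (W.toAffine.slope x₁ x₂ y₁ y₂) * (x₁ - x₂) ^ 2 =
      addNum W x₁ x₂ (y₁ - y₂) := by
  have hd : x₁ - x₂ ≠ 0 := sub_ne_zero.mpr hx
  rw [Affine.slope_of_X_ne hx, Affine.addX, addNum]
  field_simp
  ring

lemma addNum_add {x₁ y₁ x₂ y₂ : K} (h₁ : W.toAffine.Equation x₁ y₁)
    (h₂ : W.toAffine.Equation x₂ y₂) :
    addNum W x₁ x₂ (y₁ - y₂) + addNum W x₁ x₂ (y₁ - W.toAffine.negY x₂ y₂) =
      2 * (x₁ + x₂) * (x₁ * x₂) + W.b₂ * (x₁ * x₂) + W.b₄ * (x₁ + x₂) + W.b₆ := by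
  rw [Affine.equation_iff] at h₁ h₂
  simp only [addNum, Affine.negY, b₂, b₄, b₆]
  linear_combination 2 * h₁ + 2 * h₂

lemma addNum_mul {x₁ y₁ x₂ y₂ : K} (h₁ : W.toAffine.Equation x₁ y₁)
    (h₂ : W.toAffine.Equation x₂ y₂) :
    addNum W x₁ x₂ (y₁ - y₂) * addNum W x₁ x₂ (y₁ - W.toAffine.negY x₂ y₂) =
      (x₁ - x₂) ^ 2 * ((x₁ * x₂) ^ 2 - W.b₄ * (x₁ * x₂) - W.b₆ * (x₁ + x₂) - W.b₈) := by
  rw [Affine.equation_iff] at h₁ h₂
  simp only [addNum, Affine.negY, b₄, b₆, b₈]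
  grind

lemma dblNum {x y : K} (h : W.toAffine.Equation x y) :
    (3 * x ^ 2 + 2 * W.a₂ * x + W.a₄ - W.a₁ * y) ^ 2 +
      W.a₁ * (3 * x ^ 2 + 2 * W.a₂ * x + W.a₄ - W.a₁ * y) * (y - W.toAffine.negY x y) -
        (W.a₂ + 2 * x) * (y - W.toAffine.negY x y) ^ 2 =
      x ^ 4 - W.b₄ * x ^ 2 - 2 * W.b₆ * x - W.b₈ ∧
    (y - W.toAffine.negY x y) ^ 2 = 4 * x ^ 3 + W.b₂ * x ^ 2 + 2 * W.b₄ * x + W.b₆ := by
  rw [Affine.equation_iff] at h
  simp only [Affine.negY, b₂, b₄, b₆, b₈]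
  constructor
  · linear_combination (-(W.a₁ ^ 2) - 4 * W.a₂ - 8 * x) * h
  · linear_combination 4 * h

variable {W} [W.IsElliptic]

/-- `addSubMap` maps the symmetric square of `(x(P), x(Q))` to that of `(x(P+Q), x(P-Q))`. -/
theorem exists_addSubMap_sym2x (P Q : W.toAffine.Point) :
    ∃ c : K, c ≠ 0 ∧
      (fun i => (W.addSubMap i).eval (P.sym2x Q)) = c • (P + Q).sym2x (P - Q) := by
  cases P with
  | zero =>
    cases Q with
    | zero => exact ⟨1, one_ne_zero, by simp [← Point.zero_def, eval_addSubMap]⟩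
    | some x₂ y₂ h₂ =>
      refine ⟨1, one_ne_zero, ?_⟩
      rw [← Point.zero_def, zero_add, zero_sub, Point.sym2x_neg_right]
      simp [eval_addSubMap, sq, two_mul]
  | some x₁ y₁ h₁ =>
    cases Q with
    | zero =>
      refine ⟨1, one_ne_zero, ?_⟩
      rw [← Point.zero_def, add_zero, sub_zero]
      simp [eval_addSubMap, sq, two_mul]
    | some x₂ y₂ h₂ =>
      rw [Point.sym2x_some_some]
      by_cases hx : x₁ = x₂
      · subst hx
        have hsum : ((Point.some _ _ h₁ + Point.some _ _ h₂ : W.toAffine.Point).sym2x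
            (Point.some _ _ h₁ - Point.some _ _ h₂)) =
            (Point.some _ _ h₁ + Point.some _ _ h₁ : W.toAffine.Point).sym2x 0 := by
          rcases (Point.X_eq_iff (h₁ := h₂) (h₂ := h₁)).mp rfl with h | h
          · rw [h, sub_self]
          · rw [h, add_neg_cancel, sub_neg_eq_add, Point.sym2x_comm]
        rw [hsum]
        obtain ⟨hN, hp⟩ := dblNum W h₁.left
        have hev : (fun i => (W.addSubMap i).eval ![x₁ * x₁, x₁ + x₁, 1]) =
            ![x₁ ^ 4 - W.b₄ * x₁ ^ 2 - 2 * W.b₆ * x₁ - W.b₈,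
              4 * x₁ ^ 3 + W.b₂ * x₁ ^ 2 + 2 * W.b₄ * x₁ + W.b₆, 0] := by
          rw [eval_addSubMap]; ext i; fin_cases i <;> simp <;> ring
        have hne : (![x₁ * x₁, x₁ + x₁, 1] : Fin 3 → K) ≠ 0 := fun h0 => by
          simpa using congrFun h0 2
        have hne' := W.addSubMap_ne_zero hne
        rw [hev] at hne' ⊢
        by_cases hy : y₁ = W.toAffine.negY x₁ y₁
        · rw [Point.add_self_of_Y_eq hy, Point.sym2x_zero_zero]
          rw [sub_eq_zero.mpr hy, zero_pow two_ne_zero] at hp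
          rw [← hp] at hne' ⊢
          refine ⟨x₁ ^ 4 - W.b₄ * x₁ ^ 2 - 2 * W.b₆ * x₁ - W.b₈,
            fun h0 => hne' (by rw [h0]; ext i; fin_cases i <;> rfl), ?_⟩
          ext i; fin_cases i <;> simp
        · have hd : y₁ - W.toAffine.negY x₁ y₁ ≠ 0 := sub_ne_zero.mpr hy
          rw [Point.add_self_of_Y_ne hy, Point.sym2x_some_zero]
          refine ⟨(y₁ - W.toAffine.negY x₁ y₁) ^ 2, pow_ne_zero 2 hd, ?_⟩
          rw [← hN, ← hp, Affine.slope_of_Y_ne rfl hy, Affine.addX]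
          simp only [WeierstrassCurve.toAffine] at hd ⊢
          set p := y₁ - Affine.negY W x₁ y₁
          set N := 3 * x₁ ^ 2 + 2 * W.a₂ * x₁ + W.a₄ - W.a₁ * y₁
          simp only [Matrix.smul_cons, Matrix.smul_empty, smul_eq_mul]
          congr 1
          · field_simp
            ring
          · simp
      · refine ⟨(x₁ - x₂) ^ 2, pow_ne_zero 2 (sub_ne_zero.mpr hx), ?_⟩
        rw [show (Point.some _ _ h₁ - Point.some _ _ h₂ : W.toAffine.Point) =
            Point.some _ _ h₁ + -Point.some _ _ h₂ from sub_eq_add_neg _ _, Point.neg_some,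
          Point.add_of_X_ne hx, Point.add_of_X_ne hx,
          Point.sym2x_some_some, eval_addSubMap]
        have hp := addX_slope_mul W (y₁ := y₁) (y₂ := y₂) hx
        have hm := addX_slope_mul W (y₁ := y₁) (y₂ := W.toAffine.negY x₂ y₂) hx
        have hadd := addNum_add W h₁.left h₂.left
        have hmul := addNum_mul W h₁.left h₂.left
        rw [← hp, ← hm] at hadd hmul
        have hd : (x₁ - x₂) ^ 2 ≠ 0 := pow_ne_zero 2 (sub_ne_zero.mpr hx)
        generalize W.toAffine.addX x₁ x₂ (W.toAffine.slope x₁ x₂ y₁ y₂) = a at hadd hmul ⊢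
        generalize W.toAffine.addX x₁ x₂
          (W.toAffine.slope x₁ x₂ y₁ (W.toAffine.negY x₂ y₂)) = b at hadd hmul ⊢
        ext i; fin_cases i
        · simp
          refine mul_left_cancel₀ hd ?_
          linear_combination -hmul
        · simp
          linear_combination -hadd
        · simp; ring

end FLTA.EllTorsion
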