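import Fermat.Agent.EllTorsion.MulIdentities
import Fermat.Agent.EllTorsion.AddSub

/-!
# The multiplication formula `x (n P) = Φ n / ΨSq n`
-/

set_option autoImplicit false
set_option linter.unusedSectionVars false

namespace FLTA.EllTorsion

open WeierstrassCurve WeierstrassCurve.Affine

universe u

section Sym

variable {K : Type u} [Field K]

/-- Symmetric product of two binary vectors. -/
def symPair (u v : Fin 2 → K) : Fin 3 → K :=
  ![u 0 * v 0, u 0 * v 1 + u 1 * v 0, u 1 * v 1]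

lemma symPair_smul (c d : K) (u v : Fin 2 → K) :
    symPair (c • u) (d • v) = (c * d) • symPair u v := by
  ext i; fin_cases i <;> simp [symPair] <;> ring

lemma symPair_sub (u u' v : Fin 2 → K) :
    symPair (u - u') v = symPair u v - symPair u' v := by
  ext i; fin_cases i <;> simp [symPair] <;> ring

lemma eq_zero_of_symPair_eq_zero {u v : Fin 2 → K} (hv : v ≠ 0) (h : symPair u v = 0) :
    u = 0 := by
  have e0 : u 0 * v 0 = 0 := congrFun h 0
  have e1 : u 0 * v 1 + u 1 * v 0 = 0 := congrFun h 1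
  have e2 : u 1 * v 1 = 0 := congrFun h 2
  by_cases h0 : v 0 = 0
  · have h1 : v 1 ≠ 0 := fun h1 => hv (by ext i; fin_cases i <;> simp [h0, h1])
    rw [mul_eq_zero, or_iff_left h1] at e2
    rw [h0, mul_zero, add_zero, mul_eq_zero, or_iff_left h1] at e1
    ext i; fin_cases i <;> simp [e1, e2]
  · rw [mul_eq_zero, or_iff_left h0] at e0
    rw [e0, zero_mul, zero_add, mul_eq_zero, or_iff_left h0] at e1
    ext i; fin_cases i <;> simp [e0, e1]

lemma symPair_xRep {R : WeierstrassCurve.Affine K} (P Q : R.Point) :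
    symPair P.xRep Q.xRep = P.sym2x Q := rfl

end Sym

section Field

variable {K : Type u} [Field K] [DecidableEq K] {W : WeierstrassCurve K} [W.IsElliptic]

/-- The pair `(Φ n : ΨSq n)` at `x`. -/
noncomputable def mulVec (W : WeierstrassCurve K) (n : ℤ) (x : K) : Fin 2 → K :=
  ![(W.Φ n).eval x, (W.ΨSq n).eval x]

lemma eval_addSubMap_smul (c : K) (v : Fin 3 → K) :
    (fun i => (W.addSubMap i).eval (c • v)) = c ^ 2 • fun i => (W.addSubMap i).eval v := by
  rw [eval_addSubMap, eval_addSubMap]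
  ext i; fin_cases i <;> simp <;> ring

lemma symPair_mulVec (n : ℤ) (x : K) :
    symPair (mulVec W (n + 1) x) (mulVec W (n - 1) x) =
      fun i => (W.addSubMap i).eval (symPair (mulVec W n x) ![x, 1]) := by
  have hU := congrArg (Polynomial.eval x) (ΨSq_mul_ΨSq W n)
  have hT := congrArg (Polynomial.eval x) (Φ_mul_ΨSq_add W n)
  have hS := congrArg (Polynomial.eval x) (Φ_mul_Φ W n)
  simp only [Polynomial.eval_mul, Polynomial.eval_sub, Polynomial.eval_add, Polynomial.eval_pow,
    Polynomial.eval_X, Polynomial.eval_C, Polynomial.eval_ofNat] at hU hT hS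
  rw [eval_addSubMap]
  ext i; fin_cases i <;> simp [symPair, mulVec]
  · linear_combination hS
  · linear_combination hT
  · linear_combination hU

lemma exists_mulVec_eq_nat {x y : K} (h : W.toAffine.Nonsingular x y) (n : ℕ) :
    ∃ c : K, c ≠ 0 ∧
      mulVec W n x = c • ((n : ℤ) • (Point.some _ _ h : W.toAffine.Point)).xRep := by
  set P : W.toAffine.Point := Point.some _ _ h
  induction n using Nat.twoStepInduction with
  | zero => exact ⟨1, one_ne_zero, by simp [mulVec]⟩
  | one => exact ⟨1, one_ne_zero, by simp [mulVec, P]⟩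
  | more n ih1 ih2 =>
    obtain ⟨d, hd, hdv⟩ := ih1
    obtain ⟨c, hc, hcv⟩ := ih2
    obtain ⟨c', hc', hcv'⟩ := exists_addSubMap_sym2x (((n : ℤ) + 1) • P) P
    refine ⟨c ^ 2 * c' / d, div_ne_zero (mul_ne_zero (pow_ne_zero 2 hc) hc') hd, ?_⟩
    have key := symPair_mulVec (W := W) ((n : ℤ) + 1) x
    have hx : (![x, 1] : Fin 2 → K) = (1 : K) • P.xRep := by simp [P]
    rw [show ((n + 1 : ℕ) : ℤ) = (n : ℤ) + 1 by push_cast; ring] at hcv
    rw [hcv, hx, symPair_smul, mul_one, symPair_xRep, eval_addSubMap_smul, hcv', smul_smul,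
      ← symPair_xRep, show ((n : ℤ) + 1) • P + P = ((n : ℤ) + 1 + 1) • P by
        simp only [add_smul, one_smul],
      show ((n : ℤ) + 1) • P - P = (n : ℤ) • P by rw [add_smul, one_smul, add_sub_cancel_right],
      show (n : ℤ) + 1 - 1 = n by ring, hdv, show (n : ℤ) + 1 + 1 = ((n + 2 : ℕ) : ℤ) by
        push_cast; ring] at key
    have hne : d • ((n : ℤ) • P).xRep ≠ 0 := smul_ne_zero hd (Point.xRep_ne_zero _)
    have h2 : symPair (mulVec W ((n + 2 : ℕ) : ℤ) x -
        (c ^ 2 * c' / d) • (((n + 2 : ℕ) : ℤ) • P).xRep) (d • ((n : ℤ) • P).xRep) = 0 := by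
      rw [symPair_sub, key, symPair_smul, div_mul_cancel₀ _ hd, sub_self]
    exact sub_eq_zero.mp (eq_zero_of_symPair_eq_zero hne h2)

/-- **Multiplication formula**: `(Φ n (x) : ΨSq n (x))` represents `x (n P)`. -/
theorem exists_mulVec_eq {x y : K} (h : W.toAffine.Nonsingular x y) (n : ℤ) :
    ∃ c : K, c ≠ 0 ∧
      mulVec W n x = c • (n • (Point.some _ _ h : W.toAffine.Point)).xRep := by
  obtain ⟨j, rfl | rfl⟩ := n.eq_nat_or_neg
  · exact exists_mulVec_eq_nat h j
  · obtain ⟨c, hc, hcv⟩ := exists_mulVec_eq_nat h j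
    refine ⟨c, hc, ?_⟩
    rw [neg_smul, Point.xRep_neg, ← hcv, mulVec, mulVec, Φ_neg, ΨSq_neg]

/-- `n P = 0` iff `ΨSq n` vanishes at `x (P)`. -/
theorem zsmul_eq_zero_iff {x y : K} (h : W.toAffine.Nonsingular x y) (n : ℤ) :
    n • (Point.some _ _ h : W.toAffine.Point) = 0 ↔ (W.ΨSq n).eval x = 0 := by
  obtain ⟨c, hc, hv⟩ := exists_mulVec_eq h n
  have h1 : (W.ΨSq n).eval x = c * (n • (Point.some _ _ h : W.toAffine.Point)).xRep 1 := by
    simpa [mulVec] using congrFun hv 1
  rw [h1, mul_eq_zero, or_iff_right hc]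
  cases n • (Point.some _ _ h : W.toAffine.Point) with
  | zero => simp [← Point.zero_def]
  | some x' y' h' => simp

theorem nsmul_eq_zero_iff {x y : K} (h : W.toAffine.Nonsingular x y) (n : ℕ) :
    n • (Point.some _ _ h : W.toAffine.Point) = 0 ↔ (W.ΨSq n).eval x = 0 := by
  rw [← zsmul_eq_zero_iff h, natCast_zsmul]

/-- For odd `n`: `n P = 0` iff `preΨ' n` vanishes at `x (P)`. -/
theorem nsmul_eq_zero_iff_of_odd {x y : K} (h : W.toAffine.Nonsingular x y) {n : ℕ} (hn : Odd n) :
    n • (Point.some _ _ h : W.toAffine.Point) = 0 ↔ (W.preΨ' n).eval x = 0 := by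
  rw [nsmul_eq_zero_iff h, ΨSq_ofNat, if_neg (Nat.not_even_iff_odd.mpr hn), mul_one,
    Polynomial.eval_pow]
  exact pow_eq_zero_iff two_ne_zero

/-- If `n P` is affine then `x (n P) * ΨSq n (x) = Φ n (x)`. -/
theorem mul_ΨSq_eq_Φ {x y x' y' : K} (h : W.toAffine.Nonsingular x y)
    (h' : W.toAffine.Nonsingular x' y') {n : ℤ}
    (hn : n • (Point.some _ _ h : W.toAffine.Point) = Point.some _ _ h') :
    (W.ΨSq n).eval x ≠ 0 ∧ x' * (W.ΨSq n).eval x = (W.Φ n).eval x := by
  obtain ⟨c, hc, hv⟩ := exists_mulVec_eq h n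
  rw [hn] at hv
  have h0 : (W.Φ n).eval x = c * x' := by simpa [mulVec] using congrFun hv 0
  have h1 : (W.ΨSq n).eval x = c := by simpa [mulVec] using congrFun hv 1
  exact ⟨h1 ▸ hc, by rw [h0, h1, mul_comm]⟩

/-- `Φ n` and `ΨSq n` have no common zero at the `x`-coordinate of a point. -/
theorem mulVec_ne_zero {x y : K} (h : W.toAffine.Nonsingular x y) (n : ℤ) :
    mulVec W n x ≠ 0 := by
  obtain ⟨c, hc, hv⟩ := exists_mulVec_eq h n
  rw [hv]
  exact smul_ne_zero hc (Point.xRep_ne_zero _)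

end Field

end FLTA.EllTorsion
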