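import Mathlib.AlgebraicGeometry.EllipticCurve.DivisionPolynomial.Degree
import Mathlib.FieldTheory.IsAlgClosed.Basic
import Mathlib.Algebra.Polynomial.Derivative
import Mathlib.Data.Finite.Card
import Fermat.Agent.EllTorsion.MulFormula

/-!
# Counting the fibres of multiplication by `n`
-/

set_option autoImplicit false
set_option linter.unusedSectionVars false

namespace FLTA.EllTorsion

open Polynomial WeierstrassCurve WeierstrassCurve.Affine

variable {K : Type*} [Field K] (W : WeierstrassCurve K)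

lemma Ψ₂Sq_ne_zero_of_isElliptic [W.IsElliptic] : W.Ψ₂Sq ≠ 0 := by
  intro h
  have h4 : (4 : K) = 0 := by simpa [h] using (W.coeff_Ψ₂Sq).symm
  have h2 : (2 : K) = 0 := by
    have : (2 : K) * 2 = 0 := by linear_combination h4
    simpa using this
  have hc2 : W.b₂ = 0 := by
    have := congrArg (fun p : K[X] => p.coeff 2) h
    simpa [Ψ₂Sq, coeff_X] using this
  have hc0 : W.b₆ = 0 := by
    have := congrArg (fun p : K[X] => p.coeff 0) h
    simpa [Ψ₂Sq] using this
  apply W.isUnit_Δ.ne_zero
  rw [WeierstrassCurve.Δ, hc2, hc0]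
  linear_combination -(4 * W.b₄ ^ 3) * h2

/-- The Wronskian of `Φ n` and `ΨSq n`. -/
noncomputable def wronskian (n : ℤ) : K[X] :=
  derivative (W.Φ n) * W.ΨSq n - W.Φ n * derivative (W.ΨSq n)

lemma wronskian_ne_zero {n : ℤ} (hn1 : 2 ≤ n.natAbs) (hn : (n : K) ≠ 0) : wronskian W n ≠ 0 := by
  obtain ⟨m, hm⟩ : ∃ m, n.natAbs ^ 2 = m + 2 := ⟨n.natAbs ^ 2 - 2, by
    have : 2 ^ 2 ≤ n.natAbs ^ 2 := Nat.pow_le_pow_left hn1 2
    omega⟩
  have hΦd : (W.Φ n).natDegree ≤ m + 2 := hm ▸ W.natDegree_Φ_le n
  have hΨd : (W.ΨSq n).natDegree ≤ m + 1 := by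
    have := W.natDegree_ΨSq_le n; omega
  have hΦc : (W.Φ n).coeff (m + 2) = 1 := hm ▸ W.coeff_Φ n
  have hΨc : (W.ΨSq n).coeff (m + 1) = (n : K) ^ 2 := by
    have := W.coeff_ΨSq n; rwa [hm] at this
  intro h0
  have hc : (wronskian W n).coeff ((m + 1) + (m + 1)) = (n : K) ^ 2 := by
    rw [wronskian, coeff_sub, coeff_mul_add_eq_of_natDegree_le
      ((natDegree_derivative_le _).trans (by omega)) hΨd,
      show (m + 1) + (m + 1) = (m + 2) + m by ring, coeff_mul_add_eq_of_natDegree_le hΦd
      ((natDegree_derivative_le _).trans (by omega)), coeff_derivative, coeff_derivative,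
      hΦc, hΨc]
    push_cast
    ring
  rw [h0, coeff_zero] at hc
  exact pow_ne_zero 2 hn hc.symm

variable [DecidableEq K] [IsAlgClosed K]

lemma exists_point_x (x : K) [W.IsElliptic] :
    ∃ y, W.toAffine.Nonsingular x y := by
  obtain ⟨y, hy⟩ := IsAlgClosed.exists_root
    (Polynomial.X ^ 2 + C (W.a₁ * x + W.a₃) * Polynomial.X
      - C (x ^ 3 + W.a₂ * x ^ 2 + W.a₄ * x + W.a₆))
    (by
      have : (Polynomial.X ^ 2 + C (W.a₁ * x + W.a₃) * Polynomial.X
        - C (x ^ 3 + W.a₂ * x ^ 2 + W.a₄ * x + W.a₆) : K[X]).natDegree = 2 := by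
        compute_degree!
      intro h; rw [natDegree_eq_of_degree_eq_some h] at this; simp at this)
  refine ⟨y, W.toAffine.equation_iff_nonsingular.mp ?_⟩
  rw [Affine.equation_iff]
  simp [IsRoot] at hy
  linear_combination hy

variable {W}

/-- The polynomial whose roots are the `x`-coordinates of the preimages of `± (c, _)`. -/
noncomputable def fibrePoly (W : WeierstrassCurve K) (n : ℤ) (c : K) : K[X] :=
  W.Φ n - C c * W.ΨSq n

lemma natDegree_fibrePoly {n : ℤ} (hn : n ≠ 0) (c : K) :
    (fibrePoly W n c).natDegree = n.natAbs ^ 2 := by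
  have hpos : 0 < n.natAbs ^ 2 := pow_pos (Int.natAbs_pos.mpr hn) 2
  have h1 : (C c * W.ΨSq n).natDegree < (W.Φ n).natDegree := by
    rw [W.natDegree_Φ]
    have := (natDegree_C_mul_le c (W.ΨSq n)).trans (W.natDegree_ΨSq_le n)
    omega
  rw [fibrePoly, natDegree_sub_eq_left_of_natDegree_lt h1, W.natDegree_Φ]

lemma eval_fibrePoly_eq_zero_iff [W.IsElliptic] {n : ℤ} {c y₀ x y : K}
    (hQ : W.toAffine.Nonsingular c y₀) (h : W.toAffine.Nonsingular x y) :
    (fibrePoly W n c).eval x = 0 ↔
      n • (Point.some _ _ h : W.toAffine.Point) = Point.some _ _ hQ ∨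
        n • (Point.some _ _ h : W.toAffine.Point) = -Point.some _ _ hQ := by
  obtain ⟨d, hd, hv⟩ := exists_mulVec_eq h n
  have h0 : (W.Φ n).eval x = d * (n • (Point.some _ _ h : W.toAffine.Point)).xRep 0 := by
    simpa [mulVec] using congrFun hv 0
  have h1 : (W.ΨSq n).eval x = d * (n • (Point.some _ _ h : W.toAffine.Point)).xRep 1 := by
    simpa [mulVec] using congrFun hv 1
  rw [fibrePoly, eval_sub, eval_mul, eval_C, h0, h1]
  cases n • (Point.some _ _ h : W.toAffine.Point) with
  | zero => simp [← Point.zero_def, hd, eq_comm]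
  | some x' y' h' =>
    simp only [Point.xRep_some, Matrix.cons_val_zero, Matrix.cons_val_one, mul_one]
    rw [← Point.X_eq_iff, mul_comm c, ← mul_sub, mul_eq_zero, or_iff_right hd, sub_eq_zero]

/-- Multiplication by a nonzero integer is surjective. -/
theorem exists_zsmul_eq [W.IsElliptic] {n : ℤ} (hn : n ≠ 0) (Q : W.toAffine.Point) :
    ∃ P : W.toAffine.Point, n • P = Q := by
  cases Q with
  | zero => exact ⟨0, smul_zero _⟩
  | some c y₀ hQ =>
    obtain ⟨r, hr⟩ := IsAlgClosed.exists_root (fibrePoly W n c) (fun h => by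
      have h' := natDegree_eq_of_degree_eq_some h
      rw [natDegree_fibrePoly hn] at h'
      exact hn (Int.natAbs_eq_zero.mp (pow_eq_zero_iff two_ne_zero |>.mp h')))
    obtain ⟨y, hy⟩ := exists_point_x W r
    rcases (eval_fibrePoly_eq_zero_iff hQ hy).mp hr with h | h
    · exact ⟨_, h⟩
    · exact ⟨-Point.some _ _ hy, by rw [smul_neg, h, neg_neg]⟩

lemma exists_good_value [W.IsElliptic] {n : ℤ} (hn1 : 2 ≤ n.natAbs) (hn : (n : K) ≠ 0) :
    ∃ c : K, W.Ψ₂Sq.eval c ≠ 0 ∧ ∀ r, (fibrePoly W n c).eval r = 0 →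
      (derivative (fibrePoly W n c)).eval r ≠ 0 := by
  classical
  obtain ⟨c, hc⟩ := Infinite.exists_notMem_finset
    (W.Ψ₂Sq.roots.toFinset ∪ (wronskian W n).roots.toFinset.image
      fun r => (W.Φ n).eval r / (W.ΨSq n).eval r)
  simp only [Finset.mem_union, Finset.mem_image, Multiset.mem_toFinset,
    mem_roots (Ψ₂Sq_ne_zero_of_isElliptic W), mem_roots (wronskian_ne_zero W hn1 hn),
    IsRoot.def, not_or, not_exists, not_and] at hc
  refine ⟨c, hc.1, fun r hr hr' => ?_⟩
  simp only [fibrePoly, eval_sub, eval_mul, eval_C, derivative_sub, derivative_mul, derivative_C,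
    zero_mul, zero_add, sub_eq_zero] at hr hr'
  have hΨ : (W.ΨSq n).eval r ≠ 0 := by
    intro h0
    obtain ⟨y, hy⟩ := exists_point_x W r
    refine mulVec_ne_zero hy n ?_
    ext i; fin_cases i <;> simp [mulVec, h0, hr]
  refine hc.2 r ?_ (by rw [hr]; field_simp)
  rw [wronskian, eval_sub, eval_mul, eval_mul, hr, hr']
  ring

lemma natCard_ker [W.IsElliptic] {n : ℤ} (hn1 : 2 ≤ n.natAbs) (hn : (n : K) ≠ 0) :
    Nat.card {P : W.toAffine.Point // n • P = 0} = n.natAbs ^ 2 := by
  classical
  have hn0 : n ≠ 0 := by intro h; simp [h] at hn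
  obtain ⟨c, hc2, hsimple⟩ := exists_good_value (W := W) hn1 hn
  obtain ⟨y₀, hQ⟩ := exists_point_x W c
  set Q : W.toAffine.Point := Point.some _ _ hQ with hQdef
  have hQne : Q ≠ -Q := by
    intro h
    rw [hQdef, Point.neg_some, Point.some.injEq] at h
    apply hc2
    have hp := congrArg (fun t => t ^ 2) (sub_eq_zero.mpr h.2)
    simp only [(dblNum W hQ.left).2, zero_pow two_ne_zero] at hp
    simpa [Ψ₂Sq, mul_assoc] using hp
  set s := (fibrePoly W n c).roots.toFinset with hs
  have hne : fibrePoly W n c ≠ 0 := by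
    intro h0
    have := natDegree_fibrePoly (W := W) hn0 c
    rw [h0, natDegree_zero] at this
    exact hn0 (Int.natAbs_eq_zero.mp (by simpa using this.symm))
  have hnd : (fibrePoly W n c).roots.Nodup := by
    rw [Multiset.nodup_iff_count_le_one]
    intro r
    rw [count_roots]
    by_contra hlt
    have h1 : 1 < (fibrePoly W n c).rootMultiplicity r := by omega
    rw [one_lt_rootMultiplicity_iff_isRoot hne] at h1
    exact hsimple r h1.1 h1.2
  have hscard : s.card = n.natAbs ^ 2 := by
    rw [hs, Multiset.toFinset_card_of_nodup hnd, IsAlgClosed.card_roots_eq_natDegree,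
      natDegree_fibrePoly hn0]
  have hmem : ∀ r, r ∈ s ↔ (fibrePoly W n c).eval r = 0 := fun r => by
    rw [hs, Multiset.mem_toFinset, mem_roots hne, IsRoot.def]
  choose Y hY using fun r : K => exists_point_x W r
  let T : Finset W.toAffine.Point :=
    (s.image fun r => Point.some _ _ (hY r)) ∪ (s.image fun r => -Point.some _ _ (hY r))
  have hT : ∀ P, P ∈ T ↔ n • P = Q ∨ n • P = -Q := by
    intro P
    constructor
    · intro hP
      simp only [T, Finset.mem_union, Finset.mem_image] at hP
      rcases hP with ⟨r, hr, rfl⟩ | ⟨r, hr, rfl⟩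
      · exact (eval_fibrePoly_eq_zero_iff hQ (hY r)).mp ((hmem r).mp hr)
      · rw [smul_neg, neg_inj, neg_eq_iff_eq_neg]
        exact ((eval_fibrePoly_eq_zero_iff hQ (hY r)).mp ((hmem r).mp hr)).symm
    · intro hP
      cases P with
      | zero =>
        rw [← Point.zero_def, smul_zero] at hP
        rcases hP with h | h
        · exact absurd h.symm (Point.some_ne_zero hQ)
        · exact absurd (neg_eq_zero.mp h.symm) (Point.some_ne_zero hQ)
      | some x y hxy =>
        have hr : x ∈ s := (hmem x).mpr ((eval_fibrePoly_eq_zero_iff hQ hxy).mpr hP)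
        simp only [T, Finset.mem_union, Finset.mem_image]
        rcases (Point.X_eq_iff (h₁ := hxy) (h₂ := hY x)).mp rfl with h | h
        · exact Or.inl ⟨x, hr, h.symm⟩
        · exact Or.inr ⟨x, hr, h.symm⟩
  have hTcard : T.card = 2 * n.natAbs ^ 2 := by
    rw [Finset.card_union_of_disjoint, Finset.card_image_of_injective,
      Finset.card_image_of_injective, hscard, two_mul]
    · intro a b h
      have h' := neg_injective h
      simp only [Point.some.injEq] at h'
      exact h'.1
    · intro a b h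
      simp only [Point.some.injEq] at h
      exact h.1
    · rw [Finset.disjoint_left]
      intro P hP hP'
      simp only [Finset.mem_image] at hP hP'
      obtain ⟨r, hr, rfl⟩ := hP
      obtain ⟨r', hr', h⟩ := hP'
      have hrr : r' = r := by
        rw [Point.neg_some, Point.some.injEq] at h
        exact h.1
      subst hrr
      have h' := congrArg (n • ·) h
      simp only [smul_neg] at h'
      apply hQne
      rcases (eval_fibrePoly_eq_zero_iff hQ (hY r')).mp ((hmem r').mp hr) with e | e <;>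
        rw [e] at h'
      · exact h'.symm
      · rw [neg_neg] at h'; exact h'
  obtain ⟨P₀, hP₀⟩ := exists_zsmul_eq (W := W) hn0 Q
  have e1 : {P : W.toAffine.Point // n • P = 0} ≃ {P : W.toAffine.Point // n • P = Q} :=
    (Equiv.addRight P₀).subtypeEquiv fun P => by simp [smul_add, hP₀]
  have e2 : {P : W.toAffine.Point // n • P = Q} ≃ {P : W.toAffine.Point // n • P = -Q} :=
    (Equiv.neg _).subtypeEquiv fun P => by simp
  have hunion : Nat.card {P : W.toAffine.Point // n • P = Q ∨ n • P = -Q} = T.card := by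
    rw [← Nat.card_eq_finsetCard]
    exact Nat.card_congr (Equiv.subtypeEquivRight fun P => (hT P).symm)
  have hsub : ∀ p : W.toAffine.Point → Prop, (∀ P, p P → P ∈ T) →
      Finite {P : W.toAffine.Point // p P} := fun p hp =>
    Finite.of_injective (fun P => (⟨P.1, hp P.1 P.2⟩ : T)) fun a b h =>
      Subtype.ext (congrArg (fun t : T => t.1) h)
  have : Finite {P : W.toAffine.Point // n • P = Q} := hsub _ fun P h => (hT P).mpr (Or.inl h)
  have : Finite {P : W.toAffine.Point // n • P = -Q} := hsub _ fun P h => (hT P).mpr (Or.inr h)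
  have hsum : Nat.card {P : W.toAffine.Point // n • P = Q ∨ n • P = -Q} =
      Nat.card {P : W.toAffine.Point // n • P = Q} +
        Nat.card {P : W.toAffine.Point // n • P = -Q} := by
    rw [← Nat.card_sum]
    exact Nat.card_congr (subtypeOrEquiv _ _ (by
      rw [Pi.disjoint_iff]
      intro P
      rw [Prop.disjoint_iff]
      exact fun ⟨a, b⟩ => hQne (a.symm.trans b)))
  rw [hunion, hTcard, ← Nat.card_congr e2, ← Nat.card_congr e1] at hsum
  omega

end FLTA.EllTorsion
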