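import Mathlib.AlgebraicGeometry.EllipticCurve.Affine.Point
import Mathlib.Algebra.Module.Torsion.Basic
import Mathlib.Algebra.Module.ZMod
import Mathlib.FieldTheory.IsAlgClosed.Basic
import Fermat.Prelude.Def_FLTPrelim_GaloisRep
import Fermat.Agent.EllTorsion.CardCount
import Fermat.Agent.EllTorsion.CardBasis

/-!
# The `n`-torsion of an elliptic curve over an algebraically closed field
-/

set_option autoImplicit false

open scoped WeierstrassCurve.Affine
open WeierstrassCurve

namespace FLTA.EllTorsion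

variable {F K : Type*} [Field F] [Field K] [DecidableEq K] [IsAlgClosed K]

/-- `#E[n] = n ^ 2` over an algebraically closed field in which `n` is invertible. -/
theorem natCard_torsionBy (W : WeierstrassCurve K) [W.IsElliptic] {n : ℕ} (hn : (n : K) ≠ 0) :
    Nat.card (Submodule.torsionBy ℤ W.toAffine.Point n) = n ^ 2 := by
  obtain rfl | hn1 : n = 1 ∨ 2 ≤ n := by
    have : n ≠ 0 := by rintro rfl; simp at hn
    omega
  · rw [one_pow, Nat.card_eq_one_iff_unique]
    refine ⟨⟨fun a b => ?_⟩, ⟨0⟩⟩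
    have h : ∀ c : Submodule.torsionBy ℤ W.toAffine.Point ((1 : ℕ) : ℤ), (c : W.toAffine.Point) = 0 :=
      fun c => by
        have hc := (Submodule.mem_torsionBy_iff _ _).mp c.2
        rwa [natCast_zsmul, one_nsmul] at hc
    exact Subtype.ext ((h a).trans (h b).symm)
  · have h := natCard_ker (W := W) (n := (n : ℤ)) (by simpa using hn1) (by simpa using hn)
    rw [Int.natAbs_natCast] at h
    rw [← h]
    exact Nat.card_congr (Equiv.subtypeEquivRight fun P => Submodule.mem_torsionBy_iff _ _)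

/-- `#E[n] = n ^ 2` for a base-changed curve. -/
theorem natCard_torsionBy_baseChange [Algebra F K] (W : WeierstrassCurve F) [W.IsElliptic]
    {n : ℕ} (hn : (n : K) ≠ 0) :
    Nat.card (Submodule.torsionBy ℤ (W⁄K).Point n) = n ^ 2 :=
  have : (W.map (algebraMap F K)).IsElliptic := inferInstance
  natCard_torsionBy (W.map (algebraMap F K)) hn

/-- `#E[n] = n ^ 2` on `ℚ̄`-points, for an integral Weierstrass model with nonzero discriminant. -/
theorem natCard_torsionBy_intModel (W : WeierstrassCurve ℤ) (hΔ : W.Δ ≠ 0) {n : ℕ} (hn : n ≠ 0) :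
    Nat.card (Submodule.torsionBy ℤ
      ((W.map (Int.castRingHom ℚ))⁄(AlgebraicClosure ℚ)).Point n) = n ^ 2 := by
  have : (W.map (Int.castRingHom ℚ)).IsElliptic :=
    ⟨by rw [WeierstrassCurve.map_Δ, isUnit_iff_ne_zero]; simpa using hΔ⟩
  exact natCard_torsionBy_baseChange (W.map (Int.castRingHom ℚ)) (Nat.cast_ne_zero.mpr hn)

/-- `E[n]` is finite. -/
theorem finite_torsionBy (W : WeierstrassCurve K) [W.IsElliptic] {n : ℕ} (hn : (n : K) ≠ 0) :
    Finite (Submodule.torsionBy ℤ W.toAffine.Point n) := by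
  refine Nat.finite_of_card_ne_zero ?_
  rw [natCard_torsionBy W hn]
  exact pow_ne_zero 2 (by rintro rfl; simp at hn)

/-- Multiplication by an invertible `n` is surjective. -/
theorem exists_nsmul_eq (W : WeierstrassCurve K) [W.IsElliptic] {n : ℕ} (hn : (n : K) ≠ 0)
    (Q : W.toAffine.Point) : ∃ P : W.toAffine.Point, n • P = Q := by
  obtain ⟨P, hP⟩ := exists_zsmul_eq (W := W) (n := (n : ℤ))
    (by rintro h; simp [Int.natCast_eq_zero.mp h] at hn) Q
  exact ⟨P, by rwa [natCast_zsmul] at hP⟩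

/-- `E[n] ≅ (ℤ/n)²`. -/
theorem nonempty_torsionBy_addEquiv (W : WeierstrassCurve K) [W.IsElliptic] {n : ℕ}
    (hn : (n : K) ≠ 0) :
    Nonempty (Submodule.torsionBy ℤ W.toAffine.Point n ≃+ (Fin 2 → ZMod n)) := by
  have hn0 : n ≠ 0 := by rintro rfl; simp at hn
  have hp : ∀ p : ℕ, p ∣ n → (p : K) ≠ 0 := fun p ⟨c, hc⟩ h => hn (by rw [hc]; simp [h])
  exact nonempty_addEquiv_of_hasBasis hn0
    (hasBasis n hn0 (fun p _ hd Q => exists_nsmul_eq W (hp p hd) Q)
      fun p _ hd => natCard_torsionBy W (hp p hd))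
    (natCard_torsionBy W hn)

end FLTA.EllTorsion
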