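import Fermat.Prelude.Def_GaloisRep_Residual
import Fermat.Agent.EllTorsion.Card

/-!
# The Galois action on `E[n]` factors through a finite level
-/

set_option autoImplicit false

open scoped WeierstrassCurve.Affine
open WeierstrassCurve

namespace FLTA.EllTorsion

theorem galoisFactorsThroughFiniteLevel (W : WeierstrassCurve ℚ) [W.IsElliptic] {n : ℕ}
    (hn : n ≠ 0) :
    GaloisFactorsThroughFiniteLevel
      (WeierstrassCurve.Affine.Point.galoisRepModuleEnd (K := AlgebraicClosure ℚ) ℚ W n) := by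
  set M := Submodule.torsionBy ℤ (W⁄(AlgebraicClosure ℚ)).Point n
  have : Finite M := Nat.finite_of_card_ne_zero (by
    rw [natCard_torsionBy_baseChange W (Nat.cast_ne_zero.mpr hn)]
    exact pow_ne_zero 2 hn)
  let cx : M → AlgebraicClosure ℚ := fun P => (P : (W⁄(AlgebraicClosure ℚ)).Point).xRep 0
  let cy : M → AlgebraicClosure ℚ := fun P => match (P : (W⁄(AlgebraicClosure ℚ)).Point) with
    | .zero => 0
    | .some _ y _ => y
  let L : IntermediateField ℚ (AlgebraicClosure ℚ) :=
    IntermediateField.adjoin ℚ (Set.range cx ∪ Set.range cy)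
  have := ((Set.finite_range cx).union (Set.finite_range cy)).to_subtype
  refine ⟨L, IntermediateField.finiteDimensional_adjoin
    fun x _ => ((AlgebraicClosure.isAlgebraic ℚ).isAlgebraic x).isIntegral, fun σ hσ => ?_⟩
  refine LinearMap.ext fun P => Subtype.ext ?_
  have hx : σ (cx P) = cx P :=
    hσ _ (IntermediateField.subset_adjoin ℚ _ (Or.inl ⟨P, rfl⟩))
  have hy : σ (cy P) = cy P :=
    hσ _ (IntermediateField.subset_adjoin ℚ _ (Or.inr ⟨P, rfl⟩))
  obtain ⟨P, hP⟩ := P
  change σ • P = P
  cases P with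
  | zero => rfl
  | some x y h =>
    simp only [cx, cy, WeierstrassCurve.Affine.Point.xRep_some, Matrix.cons_val_zero] at hx hy
    rw [WeierstrassCurve.Affine.Point.algEquiv_smul_def, WeierstrassCurve.Affine.Point.map_some,
      WeierstrassCurve.Affine.Point.some.injEq]
    exact ⟨hx, hy⟩

theorem galoisFactorsThroughFiniteLevel_intModel (W : WeierstrassCurve ℤ) (hΔ : W.Δ ≠ 0) {n : ℕ}
    (hn : n ≠ 0) :
    GaloisFactorsThroughFiniteLevel
      (WeierstrassCurve.Affine.Point.galoisRepModuleEnd (K := AlgebraicClosure ℚ) ℚ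
        (W.map (Int.castRingHom ℚ)) n) := by
  have : (W.map (Int.castRingHom ℚ)).IsElliptic :=
    ⟨by rw [WeierstrassCurve.map_Δ, isUnit_iff_ne_zero]; simpa using hΔ⟩
  exact galoisFactorsThroughFiniteLevel _ hn

end FLTA.EllTorsion
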