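import Fermat.Agent.EllTorsion.FrobQuadraticForm
import Fermat.Prelude.Def_FLTPrelim_Modularity
import Mathlib.Algebra.CharP.Frobenius
import Mathlib.FieldTheory.Finite.Basic

set_option autoImplicit false

/-!
# The Frobenius endomorphism satisfies `φ ^ 2 - a φ + ℓ = 0` on points (up to two-torsion)
-/

open scoped WeierstrassCurve.Affine
open WeierstrassCurve WeierstrassCurve.Affine

namespace FLTA.EllTorsion.Frob

variable (Wz : WeierstrassCurve ℤ) (ℓ : ℕ) [Fact ℓ.Prime] (k : Type*) [Field k] [CharP k ℓ]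
  [DecidableEq k]

/-- The `ℓ`-power Frobenius on the points over `k` of an integral model. -/
noncomputable def frobHom : (Wz⁄k).Point →+ (Wz⁄k).Point :=
  WeierstrassCurve.Affine.Point.map (frobenius k ℓ).toIntAlgHom

theorem frobHom_some {x y : k} (h : (Wz⁄k).Nonsingular x y) :
    ∃ h', frobHom Wz ℓ k (Point.some _ _ h) = Point.some (x ^ ℓ) (y ^ ℓ) h' :=
  ⟨_, WeierstrassCurve.Affine.Point.map_some _ h⟩

omit [DecidableEq k] in
theorem isElliptic_of_good (hgood : Wz.IsGoodPrimeFor ℓ) : (Wz⁄k).IsElliptic := by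
  refine ⟨?_⟩
  show IsUnit (Wz.map (algebraMap ℤ k)).Δ
  rw [WeierstrassCurve.map_Δ, isUnit_iff_ne_zero]
  exact fun h => hgood ((CharP.intCast_eq_zero_iff k ℓ _).mp h)

omit [DecidableEq k] in
theorem baseChange_map_int (σ : k →+* k) : (Wz⁄k).map σ = (Wz⁄k) := by
  show (Wz.map (algebraMap ℤ k)).map σ = Wz.map (algebraMap ℤ k)
  rw [WeierstrassCurve.map_map, RingHom.ext_int (σ.comp (algebraMap ℤ k)) (algebraMap ℤ k)]

/-- The power-map data of the Frobenius. -/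
noncomputable def powData {e : ℕ} (hℓ : ℓ = 2 * e + 1) (he : 0 < e) :
    PowData (Wz⁄k) ℓ e where
  σ := frobenius k ℓ
  apply_eq _ := rfl
  map_eq := baseChange_map_int Wz k _
  Φ := frobHom Wz ℓ k
  isPointMap _ _ h := frobHom_some Wz ℓ k h
  two_ne_zero := by
    intro h
    have h2 : ((2 : ℕ) : k) = 0 := h
    have := (CharP.cast_eq_zero_iff k ℓ 2).mp h2
    have := Nat.le_of_dvd two_pos this
    omega
  odd_eq := hℓ
  pos := he
  cast_eq_zero := CharP.cast_eq_zero k ℓ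

/-- The power-map data of the square of the Frobenius. -/
noncomputable def powData₂ {e : ℕ} (hℓ : ℓ = 2 * e + 1) (he : 0 < e) :
    PowData (Wz⁄k) (ℓ ^ 2) (2 * e * e + 2 * e) where
  σ := (frobenius k ℓ).comp (frobenius k ℓ)
  apply_eq x := by
    show (x ^ ℓ) ^ ℓ = x ^ ℓ ^ 2
    rw [← pow_mul, sq]
  map_eq := baseChange_map_int Wz k _
  Φ := (frobHom Wz ℓ k).comp (frobHom Wz ℓ k)
  isPointMap x y h := by
    obtain ⟨h', e'⟩ := frobHom_some Wz ℓ k h
    obtain ⟨h'', e''⟩ := frobHom_some Wz ℓ k h'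
    exact ⟨h'', by rw [AddMonoidHom.comp_apply, e', e'']; rfl⟩
  two_ne_zero := (powData Wz ℓ k hℓ he).two_ne_zero
  odd_eq := by subst hℓ; ring
  pos := by positivity
  cast_eq_zero := by rw [Nat.cast_pow, CharP.cast_eq_zero k ℓ, zero_pow two_ne_zero]

theorem mem_range_of_pow_eq {x : k} (hx : x ^ ℓ = x) : ∃ z : ZMod ℓ, ZMod.castHom dvd_rfl k z = x := by
  classical
  haveI : NeZero ℓ := ⟨(Fact.out : ℓ.Prime).ne_zero⟩
  set s := (Finset.univ : Finset (ZMod ℓ)).image (ZMod.castHom (dvd_refl ℓ) k)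
  set t := (Polynomial.X ^ ℓ - Polynomial.X : Polynomial k).roots.toFinset
  have hne : (Polynomial.X ^ ℓ - Polynomial.X : Polynomial k) ≠ 0 :=
    (Polynomial.monic_X_pow_sub (by
      rw [Polynomial.degree_X]; exact_mod_cast (Fact.out : ℓ.Prime).one_lt)).ne_zero
  have hsub : s ⊆ t := by
    intro z hz
    obtain ⟨w, -, rfl⟩ := Finset.mem_image.mp hz
    rw [Multiset.mem_toFinset, Polynomial.mem_roots hne]
    rw [Polynomial.IsRoot.def, Polynomial.eval_sub, Polynomial.eval_pow, Polynomial.eval_X,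
      ← map_pow, ZMod.pow_card, sub_self]
  have hcard : t.card ≤ s.card := by
    rw [Finset.card_image_of_injective _ (ZMod.castHom (dvd_refl ℓ) k).injective, Finset.card_univ,
      ZMod.card]
    refine (Multiset.toFinset_card_le _).trans ((Polynomial.card_roots' _).trans ?_)
    exact ((Polynomial.natDegree_sub_le _ _).trans (by
      rw [Polynomial.natDegree_X_pow]
      exact max_le le_rfl (Polynomial.natDegree_X_le.trans (Fact.out : ℓ.Prime).one_le)))
  have hxt : x ∈ t := by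
    rw [Multiset.mem_toFinset, Polynomial.mem_roots hne]
    simp [hx]
  rw [← Finset.eq_of_subset_of_card_le hsub hcard] at hxt
  obtain ⟨z, -, hz⟩ := Finset.mem_image.mp hxt
  exact ⟨z, hz⟩

theorem card_reductionMod_eq :
    (Wz.reductionMod ℓ).card = Nat.card {P : (Wz⁄k).Point // frobHom Wz ℓ k P = P} := by
  let ι : ZMod ℓ →ₐ[ℤ] k := (ZMod.castHom (dvd_refl ℓ) k).toIntAlgHom
  let m : (Wz⁄(ZMod ℓ)).Point →+ (Wz⁄k).Point := WeierstrassCurve.Affine.Point.map ι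
  have hfix : ∀ Q, frobHom Wz ℓ k (m Q) = m Q := by
    rintro (_ | ⟨x, y, h⟩)
    · exact (congrArg (frobHom Wz ℓ k) (map_zero m)).trans
        ((map_zero _).trans (map_zero m).symm)
    · have e : ∀ z : ZMod ℓ, ι z ^ ℓ = ι z := fun z => by rw [← map_pow, ZMod.pow_card]
      have hm : m (Point.some x y h) = _ := WeierstrassCurve.Affine.Point.map_some ι h
      rw [hm]
      obtain ⟨h', e'⟩ := frobHom_some Wz ℓ k
        ((Wz.toAffine.baseChange_nonsingular ι.injective ..).mpr h)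
      rw [e', Point.some.injEq]
      exact ⟨e x, e y⟩
  refine Nat.card_congr (Equiv.ofBijective
    (fun Q : (Wz⁄(ZMod ℓ)).Point => (⟨m Q, hfix Q⟩ : {P // frobHom Wz ℓ k P = P})) ⟨?_, ?_⟩)
  · exact fun Q R h => WeierstrassCurve.Affine.Point.map_injective ι (congrArg Subtype.val h)
  · rintro ⟨P, hP⟩
    rcases P with _ | ⟨x, y, h⟩
    · exact ⟨0, Subtype.ext (map_zero m)⟩
    obtain ⟨h', e'⟩ := frobHom_some Wz ℓ k h
    rw [e', Point.some.injEq] at hP
    obtain ⟨x₀, rfl⟩ := mem_range_of_pow_eq ℓ k hP.1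
    obtain ⟨y₀, rfl⟩ := mem_range_of_pow_eq ℓ k hP.2
    exact ⟨Point.some x₀ y₀ ((Wz.toAffine.baseChange_nonsingular ι.injective ..).mp h),
      Subtype.ext (WeierstrassCurve.Affine.Point.map_some ι _)⟩

variable [IsAlgClosed k]

/-- `2 (φ² P - a_ℓ φ P + ℓ P) = 0` on the good reduction at an odd prime `ℓ`. -/
theorem two_zsmul_frobenius_quadratic (hℓ2 : ℓ ≠ 2) (hgood : Wz.IsGoodPrimeFor ℓ)
    (P : (Wz⁄k).Point) :
    (2 : ℤ) • (frobHom Wz ℓ k (frobHom Wz ℓ k P) - (Wz.apOfModel ℓ) • frobHom Wz ℓ k P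
      + (ℓ : ℤ) • P) = 0 := by
  have hℓ : ℓ.Prime := Fact.out
  obtain ⟨e, he⟩ := hℓ.eq_two_or_odd'.resolve_left hℓ2
  have hepos : 0 < e := by have := hℓ.two_le; omega
  haveI := isElliptic_of_good Wz ℓ k hgood
  set D := powData Wz ℓ k he hepos with hD
  have hN : (D.fixCount : ℤ) = (Wz.reductionMod ℓ).card := by
    rw [card_reductionMod_eq Wz ℓ k, ← D.ncard_fixed.2, ← Nat.card_coe_set_eq]
    rfl
  have ha : Wz.apOfModel ℓ = (ℓ : ℤ) + 1 - D.fixCount := by
    rw [hN, WeierstrassCurve.apOfModel, WeierstrassCurve.traceOfFrobenius, Nat.card_zmod]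
  rw [ha]
  exact two_zsmul_quadratic D (powData₂ Wz ℓ k he hepos) rfl P

/-- On points of odd order, `φ² P - a_ℓ φ P + ℓ P = 0`. -/
theorem frobenius_quadratic_of_odd (hℓ2 : ℓ ≠ 2) (hgood : Wz.IsGoodPrimeFor ℓ)
    {n : ℕ} (hn : Odd n) {P : (Wz⁄k).Point} (hP : n • P = 0) :
    frobHom Wz ℓ k (frobHom Wz ℓ k P) - (Wz.apOfModel ℓ) • frobHom Wz ℓ k P
      + (ℓ : ℤ) • P = 0 := by
  set V := frobHom Wz ℓ k (frobHom Wz ℓ k P) - (Wz.apOfModel ℓ) • frobHom Wz ℓ k P
      + (ℓ : ℤ) • P with hV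
  have h2 : (2 : ℤ) • V = 0 := two_zsmul_frobenius_quadratic Wz ℓ k hℓ2 hgood P
  have hn' : (n : ℤ) • V = 0 := by
    have e : (n : ℤ) • P = 0 := by rw [natCast_zsmul]; exact hP
    rw [hV, smul_add, smul_sub, ← map_zsmul, ← map_zsmul, e, smul_comm (n : ℤ) (Wz.apOfModel ℓ),
      ← map_zsmul, e, smul_comm (n : ℤ) (ℓ : ℤ), e]
    simp
  obtain ⟨m, rfl⟩ := hn
  calc V = ((2 * m + 1 : ℕ) : ℤ) • V - (m : ℤ) • ((2 : ℤ) • V) := by
        rw [smul_smul, ← sub_smul]
        conv_lhs => rw [← one_smul ℤ V]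
        congr 1
        push_cast; ring
    _ = 0 := by rw [hn', h2, smul_zero, sub_zero]

end FLTA.EllTorsion.Frob
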