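import Fermat.Agent.EllReduction.Api
import Fermat.Agent.EllTorsion.FrobAnnihilate
import Fermat.Prelude.Def_EllipticCurve_FrobeniusTrace

/-!
# Frobenius commutes with reduction at a good prime
-/

set_option autoImplicit false

open scoped WeierstrassCurve.Affine
open WeierstrassCurve WeierstrassCurve.Affine
open FLTA.EllReduction

namespace FLTA.EllTorsion.FrobReduce

open scoped Classical

-- use the algebra structure of the prelude definitions
attribute [local instance 10000] AlgebraicClosure.instAlgebra

local notation "Qbar" => AlgebraicClosure ℚ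

/-- Transport of points along an equality of curves. -/
def pointCast {F : Type*} [CommRing F] {W₁ W₂ : WeierstrassCurve F} (h : W₁ = W₂) :
    W₁.toAffine.Point → W₂.toAffine.Point := fun P => h ▸ P

lemma pointCast_add {F : Type*} [Field F] [DecidableEq F] {W₁ W₂ : WeierstrassCurve F} (h : W₁ = W₂)
    (P Q : W₁.toAffine.Point) : pointCast h (P + Q) = pointCast h P + pointCast h Q := by
  subst h; rfl

lemma pointCast_zero {F : Type*} [CommRing F] {W₁ W₂ : WeierstrassCurve F} (h : W₁ = W₂) :
    pointCast h (0 : W₁.toAffine.Point) = 0 := by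
  subst h; rfl

lemma pointCast_injective {F : Type*} [CommRing F] {W₁ W₂ : WeierstrassCurve F} (h : W₁ = W₂) :
    Function.Injective (pointCast h) := by
  subst h; exact fun _ _ e => e

lemma pointCast_some {F : Type*} [CommRing F] {W₁ W₂ : WeierstrassCurve F} (h : W₁ = W₂)
    {x y : F} (hn : W₁.toAffine.Nonsingular x y) :
    pointCast h (Point.some x y hn) = Point.some x y (h ▸ hn) := by
  subst h; rfl

lemma some_congr {F : Type*} [CommRing F] {W₁ : WeierstrassCurve.Affine F} {x y x' y' : F}
    {h : W₁.Nonsingular x y} {h' : W₁.Nonsingular x' y'} (hx : x = x') (hy : y = y') :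
    Point.some x y h = Point.some x' y' h' := by
  subst hx hy; rfl

variable (W : WeierstrassCurve ℤ) (A : ValuationSubring Qbar)

lemma reducedCurve_eq_baseChange :
    reducedCurve (geomCurve_integralAt W A) = W⁄(IsLocalRing.ResidueField A) := by
  rw [reducedCurve_geom]
  exact congrArg W.map (RingHom.ext_int _ _)

variable {W A} {l : ℕ} (hl : l.Prime) (hA : A.LiesOverPrime l) (hgood : ¬ (l : ℤ) ∣ W.Δ)

include hl hA hgood in
lemma inE0_geom (P : GeomPoint W) : InE0 A (geomCurve W) P :=
  (inZeroComponentAt_iff W A P).mp (mem_E0Z_of_good hl hA hgood P)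

/-- Reduction on all geometric points at a good prime. -/
noncomputable def goodRed : GeomPoint W →+ (W⁄(IsLocalRing.ResidueField A)).Point where
  toFun P := pointCast (reducedCurve_eq_baseChange W A) (redPoint (geomCurve_integralAt W A) P)
  map_zero' := pointCast_zero _
  map_add' P Q := by
    rw [(inE0_add_and_redPoint_add (geomCurve_integralAt W A)
      (inE0_geom hl hA hgood P) (inE0_geom hl hA hgood Q)).2]
    exact pointCast_add _ _ _

lemma goodRed_apply (P : GeomPoint W) :
    goodRed hl hA hgood P
      = pointCast (reducedCurve_eq_baseChange W A) (redPoint (geomCurve_integralAt W A) P) := rfl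

lemma mem_E1Z_of_goodRed_eq_zero {P : GeomPoint W} (h : goodRed hl hA hgood P = 0) :
    P ∈ E1Z W A := by
  rw [goodRed_apply] at h
  refine (redPoint_eq_zero_iff (geomCurve_integralAt W A) (inE0_geom hl hA hgood P)).mp
    (pointCast_injective (reducedCurve_eq_baseChange W A) ?_)
  exact h.trans (pointCast_zero _).symm

/-- Reduction turns a Frobenius element into the `l`-power map. -/
theorem goodRed_smul [Fact l.Prime] [CharP (IsLocalRing.ResidueField A) l]
    {σ : Qbar ≃ₐ[ℚ] Qbar} (hσ : A.IsFrobeniusAt σ l) (P : GeomPoint W) :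
    goodRed hl hA hgood (σ • P)
      = Frob.frobHom W l (IsLocalRing.ResidueField A) (goodRed hl hA hgood P) := by
  obtain ⟨hd, hF⟩ := hσ
  have hmem : ∀ x : Qbar, σ x ∈ A ↔ x ∈ A := fun x => by
    constructor
    · intro h
      have h' := (((⟨σ, hd⟩ : A.decompositionSubgroup ℚ)⁻¹ • (⟨σ x, h⟩ : A) : A)).2
      have e : (((⟨σ, hd⟩ : A.decompositionSubgroup ℚ)⁻¹ • (⟨σ x, h⟩ : A) : A) : Qbar) = x := by
        show σ.symm (σ x) = x
        exact σ.symm_apply_apply x
      rwa [e] at h'
    · intro h
      exact ((⟨σ, hd⟩ : A.decompositionSubgroup ℚ) • (⟨x, h⟩ : A) : A).2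
  have hres : ∀ {x : Qbar} (hx : x ∈ A) (hx' : σ x ∈ A), res hx' = res hx ^ l :=
    fun hx _ => hF (res hx)
  have hW := geomCurve_integralAt W A
  cases P with
  | zero =>
    exact ((goodRed hl hA hgood).map_zero).trans
      (((Frob.frobHom W l _).map_zero).symm.trans
        (congrArg _ ((goodRed hl hA hgood).map_zero).symm))
  | some x y h =>
    have hP0 := inE0_geom hl hA hgood (.some x y h)
    have hP1 := inE0_geom hl hA hgood (σ • (.some x y h : GeomPoint W))
    rw [Affine.Point.algEquiv_smul_def, Point.map_some] at hP1 ⊢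
    by_cases hx : x ∈ A
    · have hx' : σ x ∈ A := (hmem x).2 hx
      have hy := y_mem_of_x_mem hW h.1 hx
      have hy' : σ y ∈ A := (hmem y).2 hy
      have n := (inE0_some_iff hW h hx hy).mp hP0
      have n' := (inE0_some_iff hW _ hx' hy').mp hP1
      rw [goodRed_apply, goodRed_apply]
      obtain ⟨h', e⟩ := Frob.frobHom_some W l (IsLocalRing.ResidueField A)
        (x := res hx) (y := res hy) ((reducedCurve_eq_baseChange W A) ▸ n)
      refine (((congrArg (pointCast _) (redPoint_some hW hx' hy' n')).trans
        (pointCast_some _ n')).trans ?_)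
      refine Eq.trans ?_ (((congrArg (fun Q => Frob.frobHom W l (IsLocalRing.ResidueField A) Q)
        ((congrArg (pointCast (reducedCurve_eq_baseChange W A))
          (redPoint_some hW (h := h) hx hy n)).trans (pointCast_some _ n))).trans e).symm)
      exact some_congr (hres hx hx') (hres hy hy')
    · have hx' : σ x ∉ A := fun hh => hx ((hmem x).1 hh)
      rw [goodRed_apply, goodRed_apply]
      refine (((congrArg (pointCast _) (redPoint_of_inE1 hW (P := .some _ _ _) hx')).trans
        (pointCast_zero _)).trans ?_)
      exact (((congrArg (fun Q => Frob.frobHom W l (IsLocalRing.ResidueField A) Q)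
        ((congrArg (pointCast (reducedCurve_eq_baseChange W A))
          (redPoint_of_inE1 hW (P := .some x y h) hx)).trans (pointCast_zero _))).trans
        (Frob.frobHom W l (IsLocalRing.ResidueField A)).map_zero).symm)

end FLTA.EllTorsion.FrobReduce
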