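import Fermat.Prelude.Def_EllipticCurve_FrobeniusTrace
import Fermat.Prelude.Def_FLTPrelim_Modularity
import Fermat.Agent.EllReduction.Api
import Fermat.Agent.EllTorsion.FrobReduce
import Fermat.Agent.Galois.Places

/-!
# The quadratic relation of Frobenius on torsion points
-/

set_option autoImplicit false

open scoped WeierstrassCurve.Affine
open WeierstrassCurve
open scoped Classical

namespace FLTA.EllTorsion

/-- At a good odd prime `l`, Frobenius satisfies `X² - a_l X + l` on torsion of odd order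
prime to `l`. -/
theorem frobenius_quadratic (W : WeierstrassCurve ℤ) (hΔ : W.Δ ≠ 0) {l : ℕ} (hl : l.Prime)
    (hl2 : l ≠ 2) (hgood : W.IsGoodPrimeFor l) {A : ValuationSubring (AlgebraicClosure ℚ)}
    (hA : A.LiesOverPrime l) {σ : AlgebraicClosure ℚ ≃ₐ[ℚ] AlgebraicClosure ℚ}
    (hσ : A.IsFrobeniusAt σ l) {n : ℕ} (hn : Odd n) (hln : ¬ l ∣ n)
    (P : FLTA.EllReduction.GeomPoint W) (hP : n • P = 0) :
    σ • σ • P - W.apOfModel l • (σ • P) + l • P = 0 := by
  have : Fact l.Prime := ⟨hl⟩
  have : CharP (IsLocalRing.ResidueField A) l := FLTA.Galois.charP_residueField hl hA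
  have : IsAlgClosed (IsLocalRing.ResidueField A) := FLTA.Galois.isAlgClosed_residueField A
  set r := FrobReduce.goodRed hl hA hgood with hr
  have key : r (σ • σ • P - W.apOfModel l • (σ • P) + l • P) = 0 := by
    have e1 : r (σ • P) = Frob.frobHom W l _ (r P) := FrobReduce.goodRed_smul hl hA hgood hσ P
    have e2 : r (σ • σ • P) = Frob.frobHom W l _ (r (σ • P)) :=
      FrobReduce.goodRed_smul hl hA hgood hσ (σ • P)
    rw [map_add, map_sub, map_zsmul, map_nsmul, e2, e1, ← natCast_zsmul]
    refine Frob.frobenius_quadratic_of_odd W l _ hl2 hgood hn (P := FrobReduce.goodRed hl hA hgood P) ?_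
    exact ((FrobReduce.goodRed hl hA hgood).map_nsmul n P).symm.trans
      ((congrArg _ hP).trans (FrobReduce.goodRed hl hA hgood).map_zero)
  refine FLTA.EllReduction.eq_zero_of_mem_E1Z hl hA hln
    (FrobReduce.mem_E1Z_of_goodRed_eq_zero hl hA hgood key) ?_
  have h1 : n • (σ • P) = 0 := by
    rw [show n • (σ • P) = σ • (n • P) from
      ((Affine.Point.map (W' := W.map (Int.castRingHom ℚ)) σ.toAlgHom).map_nsmul n P).symm, hP]
    rfl
  have h2 : n • (σ • σ • P) = 0 := by
    rw [show n • (σ • σ • P) = σ • (n • (σ • P)) from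
      ((Affine.Point.map (W' := W.map (Int.castRingHom ℚ)) σ.toAlgHom).map_nsmul n (σ • P)).symm, h1]
    rfl
  have h3 : n • (W.apOfModel l • (σ • P)) = 0 := by
    rw [smul_comm n (W.apOfModel l), h1]; exact zsmul_zero _
  have h4 : n • (l • P) = 0 := by rw [smul_comm n l, hP]; exact nsmul_zero _
  rw [nsmul_add, nsmul_sub, h2, h3, h4, sub_zero, add_zero]

end FLTA.EllTorsion
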