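import Fermat.Agent.EllTorsion.WeilPairing

set_option autoImplicit false
set_option linter.unusedSectionVars false

/-!
# The Weil pairing commutes with field automorphisms fixing the curve
-/

open Polynomial
open scoped Polynomial.Bivariate
open WeierstrassCurve WeierstrassCurve.Affine

namespace FLTA.Elliptic.Weil

universe v

variable {K : Type v} [Field K] [DecidableEq K] {W : WeierstrassCurve.Affine K}

local notation "A" => CoordinateRing W

/-- A field endomorphism fixing the curve, acting on the coordinate ring. -/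
noncomputable def semiA (σ : K →+* K) (hW : W.map σ = W) : A →+* A :=
  AdjoinRoot.lift ((AdjoinRoot.of W.polynomial).comp (mapRingHom σ))
    (AdjoinRoot.root W.polynomial) <| by
    rw [← eval₂_map, ← Affine.map_polynomial, hW, AdjoinRoot.eval₂_root]

theorem semiA_of (σ : K →+* K) (hW : W.map σ = W) (r : K[X]) :
    semiA σ hW (CoordinateRing.mk W (C r)) = CoordinateRing.mk W (C (r.map σ)) := by
  show semiA σ hW (AdjoinRoot.of W.polynomial r) = AdjoinRoot.of W.polynomial (r.map σ)
  rw [semiA, AdjoinRoot.lift_of]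
  rfl

theorem semiA_yA (σ : K →+* K) (hW : W.map σ = W) : semiA σ hW (yA W) = yA W := by
  show semiA σ hW (AdjoinRoot.root W.polynomial) = AdjoinRoot.root W.polynomial
  rw [semiA, AdjoinRoot.lift_root]

theorem semiA_smul (σ : K →+* K) (hW : W.map σ = W) (c : K) (a : A) :
    semiA σ hW (c • a) = σ c • semiA σ hW a := by
  rw [smul_def, smul_def, map_mul,
    show cA W c = CoordinateRing.mk W (C (C c)) from rfl, semiA_of, map_C]
  rfl

theorem semiA_mem_Lspace (σ : K →+* K) (hW : W.map σ = W) {n : ℕ} {a : A}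
    (ha : a ∈ Lspace W n) : semiA σ hW a ∈ Lspace W n := by
  obtain ⟨p, q, rfl⟩ := exists_repr a
  rw [mem_Lspace, wdeg_repr] at ha
  rw [map_add, map_mul, semiA_of, semiA_of, semiA_yA, mem_Lspace, wdeg_repr,
    degree_map, degree_map]
  exact ha

theorem semiA_semiA (σ τ : K →+* K) (hσ : W.map σ = W) (hτ : W.map τ = W)
    (h : ∀ x, σ (τ x) = x) (a : A) : semiA σ hσ (semiA τ hτ a) = a := by
  obtain ⟨p, q, rfl⟩ := exists_repr a
  have hc : σ.comp τ = RingHom.id K := RingHom.ext h
  simp only [map_add, map_mul, semiA_of, semiA_yA, Polynomial.map_map, hc, Polynomial.map_id]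

/-- A semilinear map of `L(n ∞)`. -/
noncomputable def semiL (σ : K →+* K) (hW : W.map σ = W) (n : ℕ) (a : Lspace W n) : Lspace W n :=
  ⟨semiA σ hW a, semiA_mem_Lspace σ hW a.2⟩

/-- The map induced on points. -/
def IsPointMap (σ : K →+* K) (Φ : W.Point →+ W.Point) : Prop :=
  ∀ (x y : K) (h : W.Nonsingular x y),
    ∃ h' : W.Nonsingular (σ x) (σ y), Φ (Point.some _ _ h) = Point.some _ _ h'

theorem IsPointMap.ev_semiA {σ : K →+* K} {Φ : W.Point →+ W.Point} (hΦ : IsPointMap σ Φ)
    (hW : W.map σ = W) (P : W.Point) (a : A) : ev (Φ P) (semiA σ hW a) = σ (ev P a) := by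
  rcases P with _ | ⟨x, y, h⟩
  · exact (congrArg (fun Q => ev Q (semiA σ hW a)) (map_zero Φ)).trans (map_zero σ).symm
  obtain ⟨h', e⟩ := hΦ x y h
  rw [e, ev_some, ev_some]
  obtain ⟨p, q, rfl⟩ := exists_repr a
  simp only [map_add, map_mul, semiA_of, semiA_yA, evalAt_mk_C, evalAt_yA,
    eval_map, Polynomial.eval₂_at_apply]

theorem map_eq_self_symm (σ : K ≃+* K) (hW : W.map (σ : K →+* K) = W) :
    W.map (σ.symm : K →+* K) = W := by
  conv_lhs => rw [← hW]
  ext <;> simp [WeierstrassCurve.map]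

variable [IsAlgClosed K] [W.IsElliptic] {p : ℕ} [Fact p.Prime]

local notation "T" => Submodule.torsionBy ℤ W.Point (p : ℤ)

theorem weilPairing_map (hp2 : p ≠ 2) (σ : K ≃+* K) (hW : W.map (σ : K →+* K) = W)
    {Φ : W.Point →+ W.Point} (hΦ : IsPointMap (σ : K →+* K) Φ) (hΦ' : Function.Bijective Φ)
    {U V U' V' : T} (hU : (U' : W.Point) = Φ U) (hV : (V' : W.Point) = Φ V) :
    weilPairing hp2 U' V' = σ (weilPairing hp2 U V) := by
  have hW' := map_eq_self_symm σ hW
  set s := semiL (σ : K →+* K) hW p with hs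
  set t := semiL (σ.symm : K →+* K) hW' p with ht
  have hst : ∀ a, s (t a) = a := fun a =>
    Subtype.ext (semiA_semiA _ _ hW hW' (fun x => σ.apply_symm_apply x) _)
  have hts : ∀ a, t (s a) = a := fun a =>
    Subtype.ext (semiA_semiA _ _ hW' hW (fun x => σ.symm_apply_apply x) _)
  have hsadd : ∀ a b, s (a + b) = s a + s b := fun a b => Subtype.ext (map_add _ _ _)
  have htadd : ∀ a b, t (a + b) = t a + t b := fun a b => Subtype.ext (map_add _ _ _)
  have hssmul : ∀ (c : K) a, s (c • a) = σ c • s a := fun c a =>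
    Subtype.ext (semiA_smul _ _ c _)
  have htsmul : ∀ (c : K) a, t (c • a) = σ.symm c • t a := fun c a =>
    Subtype.ext (semiA_smul _ _ c _)
  -- conjugate lifts
  have key : ∀ (U₁ : W.Point) (L : Module.End K (Lspace W p)), IsTwist U₁ L →
      ∃ L' : Module.End K (Lspace W p), IsTwist (Φ U₁) L' ∧ ∀ a, L' a = s (L (t a)) := by
    intro U₁ L hL
    let L' : Module.End K (Lspace W p) :=
      { toFun := fun a => s (L (t a))
        map_add' := fun a b => by rw [htadd, map_add, hsadd]
        map_smul' := fun c a => by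
          rw [htsmul, map_smul, hssmul, RingHom.id_apply, σ.apply_symm_apply] }
    refine ⟨L', ⟨⟨fun a b hab => ?_, fun b => ?_⟩, fun a => ?_⟩, fun a => rfl⟩
    · exact (Function.LeftInverse.injective hst (hL.1.1 (Function.LeftInverse.injective hts hab)))
    · obtain ⟨a, ha⟩ := hL.1.2 (t b)
      exact ⟨s a, by show s (L (t (s a))) = b; rw [hts, ha, hst]⟩
    · have h1 : t (oneL W p) = oneL W p := Subtype.ext (map_one _)
      have hsurj := hΦ'.2
      have hinj' : Function.Injective (Function.surjInv hsurj) := Function.injective_surjInv _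
      filter_upwards [hinj'.tendsto_cofinite.eventually (hL.2 (t a))] with P hP
      obtain ⟨Q, rfl⟩ := hsurj P
      rw [show Function.surjInv hsurj (Φ Q) = Q from
        hΦ'.1 (Function.surjInv_eq hsurj (Φ Q))] at hP
      show ev (Φ Q) (semiA _ hW (L (t a) : A)) = ev (Φ Q) (semiA _ hW (L (t (oneL W p)) : A)) * _
      rw [h1, hΦ.ev_semiA hW, hΦ.ev_semiA hW, hP, map_mul, ← map_sub, ← hΦ.ev_semiA hW (Q - U₁)]
      congr 2
      exact congrArg Subtype.val (hst a)
  obtain ⟨L, hL⟩ := exists_isTwist (nsmul_coe_torsion U)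
  obtain ⟨M, hM⟩ := exists_isTwist (nsmul_coe_torsion V)
  obtain ⟨L', hL', hL'a⟩ := key _ L hL
  obtain ⟨M', hM', hM'a⟩ := key _ M hM
  refine weilPairing_eq hp2 (hU ▸ hL') (hV ▸ hM') (LinearMap.ext fun a => ?_)
  rw [Module.End.mul_apply, LinearMap.smul_apply, Module.End.mul_apply, hL'a, hM'a, hts, hM'a,
    hL'a, hts, ← hssmul]
  exact congrArg s (LinearMap.congr_fun (weilPairing_spec hp2 hL hM) (t a))

end FLTA.Elliptic.Weil
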