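import Fermat.Prelude.Def_FreyPackage_DetCyclotomic
import Fermat.Prelude.Def_GaloisRep_Residual
import Fermat.Agent.EllTorsion.WeilGalois
import Mathlib.LinearAlgebra.FreeModule.Finite.Basic
import Mathlib.LinearAlgebra.Matrix.Charpoly.Coeff

set_option autoImplicit false

/-!
# The determinant of the torsion representation is the cyclotomic character
-/

universe r s v

open WeierstrassCurve WeierstrassCurve.Affine.Point
open scoped WeierstrassCurve.Affine

namespace FLTA.Elliptic.Weil

variable {R : Type r} {S : Type s} {K : Type v} [CommRing R] [CommRing S] [Field K]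
  [DecidableEq K] [Algebra R S] [Algebra R K] [Algebra S K] [IsScalarTower R S K] [IsAlgClosed K]

omit [DecidableEq K] [IsAlgClosed K] in
/-- The base change of an elliptic curve is elliptic (local to this namespace). -/
theorem isElliptic_baseChange (W' : WeierstrassCurve.Affine R) [WeierstrassCurve.IsElliptic W'] :
    (W'⁄K).IsElliptic :=
  inferInstanceAs (WeierstrassCurve.IsElliptic (WeierstrassCurve.map W' (algebraMap R K)))

omit [IsAlgClosed K] in
theorem baseChange_map_eq (W' : WeierstrassCurve.Affine R) (σ : K ≃ₐ[S] K) :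
    (W'⁄K).map ((σ : K ≃+* K) : K →+* K) = (W'⁄K) := by
  have h : ∀ r : R, σ (algebraMap R K r) = algebraMap R K r := fun r => by
    rw [IsScalarTower.algebraMap_apply R S K, σ.commutes]
  ext <;> simp [WeierstrassCurve.map, WeierstrassCurve.baseChange, h]

omit [IsAlgClosed K] in
theorem isPointMap_map (W' : WeierstrassCurve.Affine R) (σ : K ≃ₐ[S] K) :
    IsPointMap (W := (W'⁄K)) ((σ : K ≃+* K) : K →+* K) (Affine.Point.map σ.toAlgHom) :=
  fun _ _ h => ⟨_, Affine.Point.map_some σ.toAlgHom h⟩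

omit [IsAlgClosed K] in
theorem map_bijective (W' : WeierstrassCurve.Affine R) (σ : K ≃ₐ[S] K) :
    Function.Bijective (Affine.Point.map (W' := W') σ.toAlgHom) :=
  ⟨Affine.Point.map_injective _, fun P => ⟨σ.symm • P, smul_inv_smul σ P⟩⟩

/-- The determinant of the action of `σ` on `E[p]` is the cyclotomic character, `p` odd. -/
theorem det_galoisRep_eq (W' : WeierstrassCurve.Affine R) [(W'⁄K).IsElliptic]
    (p : ℕ) [Fact p.Prime] [NeZero p] (hp2 : p ≠ 2) (hn : Nat.card (rootsOfUnity p K) = p)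
    (hcard : Nat.card (Submodule.torsionBy ℤ (W'⁄K).Point p) = p ^ 2) (σ : K ≃ₐ[S] K) :
    LinearMap.det (galoisRepModuleEnd S W' p σ) =
      ((modularCyclotomicCharacter K hn (σ : K ≃+* K) : (ZMod p)ˣ) : ZMod p) := by
  have hp : p.Prime := Fact.out
  set M := Submodule.torsionBy ℤ (W'⁄K).Point p
  have : Finite M := Nat.finite_of_card_ne_zero (hcard ▸ pow_ne_zero 2 hp.ne_zero)
  have : Module.Finite (ZMod p) M := Module.Finite.of_finite
  have hrank : Module.finrank (ZMod p) M = 2 := by
    have h := Module.natCard_eq_pow_finrank (K := ZMod p) (V := M)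
    rw [hcard, Nat.card_zmod] at h
    exact (Nat.pow_right_injective hp.two_le h).symm
  let b : Module.Basis (Fin 2) (ZMod p) M := Module.finBasisOfFinrankEq (ZMod p) M hrank
  have hrepr : ∀ X : M, X = (b.repr X 0).val • b 0 + (b.repr X 1).val • b 1 := fun X => by
    conv_lhs => rw [← b.sum_repr X, Fin.sum_univ_two]
    congr 1 <;> rw [← Nat.cast_smul_eq_nsmul (ZMod p), ZMod.natCast_zmod_val]
  set f := galoisRepModuleEnd S W' p σ
  set ζ := weilPairing hp2 (b 0) (b 1)
  have hζ : IsPrimitiveRoot ζ p :=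
    weilPairing_isPrimitiveRoot hp2 hcard (b 0) (b 1) fun X => ⟨_, _, hrepr X⟩
  set a := (b.repr (f (b 0)) 0).val
  set c := (b.repr (f (b 0)) 1).val
  set a' := (b.repr (f (b 1)) 0).val
  set c' := (b.repr (f (b 1)) 1).val
  -- the pairing of the images
  have hσ : weilPairing hp2 (f (b 0)) (f (b 1)) = σ ζ :=
    weilPairing_map hp2 (σ : K ≃+* K) (baseChange_map_eq W' σ) (isPointMap_map W' σ)
      (map_bijective W' σ) rfl rfl
  have hexp : weilPairing hp2 (f (b 0)) (f (b 1)) * ζ ^ (a' * c) = ζ ^ (c' * a) := by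
    rw [show f (b 0) = a • b 0 + c • b 1 from hrepr _,
      show f (b 1) = a' • b 0 + c' • b 1 from hrepr _, weilPairing_add_left, weilPairing_add_right,
      weilPairing_add_right]
    rw [weilPairing_nsmul_left hp2 a (b 0), weilPairing_nsmul_left hp2 a (b 0),
      weilPairing_nsmul_left hp2 c (b 1), weilPairing_nsmul_left hp2 c (b 1),
      weilPairing_nsmul_right hp2 a' (b 0), weilPairing_nsmul_right hp2 c' (b 0),
      weilPairing_nsmul_right hp2 a' (b 1), weilPairing_nsmul_right hp2 c' (b 1),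
      weilPairing_self, weilPairing_self]
    simp only [one_pow, one_mul, mul_one, ← pow_mul]
    rw [mul_assoc, ← mul_pow, weilPairing_swap, one_pow, mul_one]
  have hχ : σ ζ = ζ ^ ((modularCyclotomicCharacter K hn (σ : K ≃+* K) : (ZMod p)ˣ) :
      ZMod p).val := by
    have hmem : hζ.toRootsOfUnity.1 ∈ rootsOfUnity p K := hζ.toRootsOfUnity.2
    exact modularCyclotomicCharacter.spec K hn (σ : K ≃+* K) hmem
  set χ := ((modularCyclotomicCharacter K hn (σ : K ≃+* K) : (ZMod p)ˣ) : ZMod p)
  rw [hσ, hχ, ← pow_add] at hexp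
  have hmod : ∀ n : ℕ, ζ ^ n = ζ ^ (n % p) := fun n => by
    conv_rhs => rw [hζ.eq_orderOf, pow_mod_orderOf]
  rw [hmod, hmod (c' * a)] at hexp
  have h2 := hζ.pow_inj (Nat.mod_lt _ hp.pos) (Nat.mod_lt _ hp.pos) hexp
  have h3 : ((χ.val + a' * c : ℕ) : ZMod p) = ((c' * a : ℕ) : ZMod p) :=
    (ZMod.natCast_eq_natCast_iff _ _ _).mpr h2
  simp only [Nat.cast_add, Nat.cast_mul, a, c, a', c', ZMod.natCast_zmod_val] at h3
  rw [← LinearMap.det_toMatrix b, Matrix.det_fin_two, LinearMap.toMatrix_apply,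
    LinearMap.toMatrix_apply, LinearMap.toMatrix_apply, LinearMap.toMatrix_apply]
  linear_combination -h3

theorem det_galoisRepModuleEnd_of_card (W' : WeierstrassCurve.Affine R) [(W'⁄K).IsElliptic]
    (p : ℕ) [Fact p.Prime] [NeZero p] (hn : Nat.card (rootsOfUnity p K) = p)
    (hcard : Nat.card (Submodule.torsionBy ℤ (W'⁄K).Point p) = p ^ 2) (σ : K ≃ₐ[S] K) :
    LinearMap.det (galoisRepModuleEnd S W' p σ) =
      ((modularCyclotomicCharacter K hn (σ : K ≃+* K) : (ZMod p)ˣ) : ZMod p) := by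
  rcases eq_or_ne p 2 with rfl | hp2
  · have h := galoisRepDetEqCyclotomic_two (S := S) (W' := W') hn σ
    rw [← h, galoisRepDet_apply, LinearEquiv.coe_det]
    rfl
  · exact det_galoisRep_eq W' p hp2 hn hcard σ

theorem galoisRepDetEqCyclotomic_of_card (W' : WeierstrassCurve.Affine R) [(W'⁄K).IsElliptic]
    (p : ℕ) [Fact p.Prime] (hn : Nat.card (rootsOfUnity p K) = p)
    (hcard : Nat.card (Submodule.torsionBy ℤ (W'⁄K).Point p) = p ^ 2) :
    haveI : NeZero p := ⟨(Fact.out : p.Prime).ne_zero⟩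
    GaloisRepDetEqCyclotomic S W' p hn := by
  haveI : NeZero p := ⟨(Fact.out : p.Prime).ne_zero⟩
  intro σ
  exact Units.ext ((LinearEquiv.coe_det _).trans
    (det_galoisRepModuleEnd_of_card W' p hn hcard σ))

/-- An involution `c ≠ 1` of an algebraically closed field of characteristic zero inverts the
roots of unity of odd order. -/
theorem apply_root_of_unity_of_involution {L : Type v} [Field L] [CharZero L] [IsAlgClosed L]
    (c : L ≃+* L) (hc : ∀ x, c (c x) = x) (hc1 : c ≠ RingEquiv.refl L) {p : ℕ} (hp : Odd p)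
    {z : L} (hz : z ^ p = 1) : c z = z⁻¹ := by
  obtain ⟨i, hi⟩ := IsAlgClosed.exists_eq_mul_self (-1 : L)
  obtain ⟨r, hr0, hcr⟩ : ∃ r : L, r ≠ 0 ∧ c r = -r := by
    obtain ⟨x, hx⟩ : ∃ x, c x ≠ x := by
      by_contra h; push Not at h; exact hc1 (RingEquiv.ext h)
    exact ⟨c x - x, sub_ne_zero.mpr hx, by rw [map_sub, hc, neg_sub]⟩
  have hii : c i * c i = -1 := by rw [← map_mul, ← hi, map_neg, map_one]
  have hci : c i = -i := by
    rcases mul_self_eq_mul_self_iff.mp (hii.trans hi) with h | h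
    · obtain ⟨b, hb⟩ := IsAlgClosed.exists_eq_mul_self r
      have h1 : c b * c b = -(b * b) := by rw [← map_mul, ← hb, hcr]
      have h2 : c b * c b = (i * b) * (i * b) := by
        rw [h1]; linear_combination (b * b) * hi
      exfalso
      have hb2 : c (c b) = -b := by
        rcases mul_self_eq_mul_self_iff.mp h2 with h3 | h3
        · rw [h3, map_mul, h, h3]; linear_combination (-b) * hi
        · rw [h3, map_neg, map_mul, h, h3]; linear_combination (-b) * hi
      rw [hc] at hb2
      have hb0 : b = 0 := by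
        have : (2 : L) * b = 0 := by linear_combination hb2
        simpa using this
      exact hr0 (by rw [hb, hb0, mul_zero])
    · exact h
  have sq_add : ∀ u v : L, c u = u → c v = v → ∃ t, c t = t ∧ t * t = u * u + v * v := by
    intro u v hu hv
    obtain ⟨w, hw⟩ := IsAlgClosed.exists_eq_mul_self (u + i * v)
    refine ⟨w * c w, by rw [map_mul, hc, mul_comm], ?_⟩
    have hcw : c w * c w = u - i * v := by
      rw [← map_mul, ← hw, map_add, map_mul, hu, hv, hci]; ring
    linear_combination (u - i * v) * (-hw) + (w * w) * hcw + (v * v) * hi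
  obtain ⟨k, hk⟩ := hp
  set n := z * c z with hn
  have hcn : c n = n := by rw [hn, map_mul, hc, mul_comm]
  have hnp : n ^ p = 1 := by rw [hn, mul_pow, ← map_pow, hz, map_one, mul_one]
  set t := n ^ (k + 1) with ht
  have hct : c t = t := by rw [ht, map_pow, hcn]
  have htn : t * t = n := by
    rw [ht, ← pow_add, show k + 1 + (k + 1) = p + 1 by omega, pow_succ, hnp, one_mul]
  have hsum : ∀ m : ℕ, ∃ s, c s = s ∧ s * s = ∑ j ∈ Finset.range m, n ^ j := by
    intro m
    induction m with
    | zero => exact ⟨0, map_zero c, by simp⟩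
    | succ m ih =>
      obtain ⟨s, hs, hs2⟩ := ih
      obtain ⟨u, hu, hu2⟩ := sq_add s (t ^ m) hs (by rw [map_pow, hct])
      exact ⟨u, hu, by rw [hu2, hs2, Finset.sum_range_succ, ← mul_pow, htn]⟩
  have hn1 : n = 1 := by
    by_contra hne
    have hgeom : ∑ j ∈ Finset.range p, n ^ j = 0 := by
      have := geom_sum_mul n p
      rw [hnp, sub_self, mul_eq_zero] at this
      exact this.resolve_right (sub_ne_zero.mpr hne)
    obtain ⟨s, hs, hs2⟩ := hsum (2 * k)
    have hlast : n ^ (2 * k) = (t ^ (2 * k)) * (t ^ (2 * k)) := by rw [← mul_pow, htn]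
    rw [show p = 2 * k + 1 from hk, Finset.sum_range_succ, ← hs2, hlast] at hgeom
    have htk : t ^ (2 * k) ≠ 0 := by
      refine pow_ne_zero _ fun h0 => ?_
      rw [h0, mul_zero] at htn
      rw [← htn, zero_pow (by omega)] at hnp
      exact zero_ne_one hnp
    have h1 : (s / t ^ (2 * k)) * (s / t ^ (2 * k)) = i * i := by
      rw [← hi]; field_simp; linear_combination hgeom
    have hsc : c (s / t ^ (2 * k)) = s / t ^ (2 * k) := by rw [map_div₀, hs, map_pow, hct]
    rcases mul_self_eq_mul_self_iff.mp h1 with h2 | h2 <;> rw [h2] at hsc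
    · rw [hci] at hsc
      have : (2 : L) * i = 0 := by linear_combination -hsc
      simp [show i = 0 by simpa using this] at hi
    · rw [map_neg, hci] at hsc
      have : (2 : L) * i = 0 := by linear_combination hsc
      simp [show i = 0 by simpa using this] at hi
  exact eq_inv_of_mul_eq_one_right hn1

/-- Complex conjugations act with determinant `-1` on the `p`-torsion. -/
theorem residualGaloisRepOf_isOdd (W : WeierstrassCurve ℚ) [W.IsElliptic] (p : ℕ) [Fact p.Prime]
    (hcard : Nat.card (Submodule.torsionBy ℤ (W⁄(AlgebraicClosure ℚ)).Point p) = p ^ 2)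
    (hker : GaloisFactorsThroughFiniteLevel
      (galoisRepModuleEnd (K := AlgebraicClosure ℚ) ℚ W p)) :
    (W.residualGaloisRepOf p hcard hker).IsOdd := by
  intro c hcc hc1
  haveI : (W⁄(AlgebraicClosure ℚ)).IsElliptic := isElliptic_baseChange (R := ℚ) W
  have hp : p.Prime := Fact.out
  haveI : NeZero p := ⟨hp.ne_zero⟩
  have hn : Nat.card (rootsOfUnity p (AlgebraicClosure ℚ)) = p :=
    IsAlgClosed.card_rootsOfUnity_eq (AlgebraicClosure ℚ) p
  show LinearMap.det (galoisRepModuleEnd ℚ W p c) = -1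
  rw [det_galoisRepModuleEnd_of_card W p hn hcard c]
  rcases hp.eq_two_or_odd' with rfl | hodd
  · rw [Subsingleton.elim (modularCyclotomicCharacter (AlgebraicClosure ℚ) hn
      (c : AlgebraicClosure ℚ ≃+* AlgebraicClosure ℚ)) 1]
    rfl
  have hinv : ∀ z : AlgebraicClosure ℚ, z ^ p = 1 → c z = z⁻¹ := fun z hz =>
    apply_root_of_unity_of_involution (c : AlgebraicClosure ℚ ≃+* AlgebraicClosure ℚ)
      (fun x => (AlgEquiv.mul_apply c c x).symm.trans (by rw [hcc]; rfl))
      (fun h => hc1 (AlgEquiv.ext fun x => RingEquiv.congr_fun h x)) hodd hz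
  haveI : NeZero (p : AlgebraicClosure ℚ) := ⟨by exact_mod_cast hp.ne_zero⟩
  obtain ⟨ζ, hζ⟩ := HasEnoughRootsOfUnity.exists_primitiveRoot (AlgebraicClosure ℚ) p
  have hspec : c ζ = ζ ^ ((modularCyclotomicCharacter (AlgebraicClosure ℚ) hn
      (c : AlgebraicClosure ℚ ≃+* AlgebraicClosure ℚ) : (ZMod p)ˣ) : ZMod p).val :=
    modularCyclotomicCharacter.spec (AlgebraicClosure ℚ) hn
      (c : AlgebraicClosure ℚ ≃+* AlgebraicClosure ℚ) (t := hζ.toRootsOfUnity.1) hζ.toRootsOfUnity.2
  rw [hinv ζ hζ.pow_eq_one] at hspec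
  set χ := ((modularCyclotomicCharacter (AlgebraicClosure ℚ) hn
      (c : AlgebraicClosure ℚ ≃+* AlgebraicClosure ℚ) : (ZMod p)ˣ) : ZMod p)
  have h1 : ζ ^ (χ.val + 1) = 1 := by
    rw [pow_succ, ← hspec, inv_mul_cancel₀ (hζ.ne_zero hp.ne_zero)]
  have h2 : ((χ.val + 1 : ℕ) : ZMod p) = 0 :=
    (ZMod.natCast_eq_zero_iff _ _).mpr ((hζ.pow_eq_one_iff_dvd _).mp h1) 
  rw [Nat.cast_add, ZMod.natCast_zmod_val, Nat.cast_one] at h2
  exact eq_neg_of_add_eq_zero_left h2

end FLTA.Elliptic.Weil
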