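import Fermat.Prelude.Def_FreyPackage_DetCyclotomic
import Fermat.Prelude.Def_GaloisRep_Residual
import Fermat.Agent.EllTorsion.FiniteLevel
import Fermat.Agent.EllTorsion.WeilDet
import Fermat.Agent.EllTorsion.FrobQuadratic
import Fermat.Agent.Galois.Cyclotomic
import Mathlib.LinearAlgebra.Charpoly.Basic
import Mathlib.LinearAlgebra.Matrix.Charpoly.Coeff

/-!
# Trace and determinant of the Galois action on `E[p]`
-/

set_option autoImplicit false

open scoped WeierstrassCurve.Affine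
open WeierstrassCurve WeierstrassCurve.Affine.Point

namespace FLTA.EllTorsion

noncomputable local instance : DecidableEq (AlgebraicClosure ℚ) := Classical.decEq _

/-- The determinant of the Galois action on `E[p]` is the cyclotomic character. -/
theorem galoisRepDetEqCyclotomic (W : WeierstrassCurve ℚ) [W.IsElliptic] (p : ℕ) [Fact p.Prime]
    (hp : Nat.card (rootsOfUnity p (AlgebraicClosure ℚ)) = p) :
    GaloisRepDetEqCyclotomic (K := AlgebraicClosure ℚ) ℚ W p hp := by
  have : (W⁄(AlgebraicClosure ℚ)).IsElliptic := FLTA.Elliptic.Weil.isElliptic_baseChange W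
  have : NeZero p := ⟨(Fact.out : p.Prime).ne_zero⟩
  exact FLTA.Elliptic.Weil.galoisRepDetEqCyclotomic_of_card (S := ℚ) W p hp
    (natCard_torsionBy_baseChange W (Nat.cast_ne_zero.mpr (Fact.out : p.Prime).ne_zero))

/-- The determinant of `σ` on `E[p]` is its cyclotomic character, as an element of `ZMod p`. -/
theorem det_galoisRepModuleEnd_eq_cyclotomic (W : WeierstrassCurve ℚ) [W.IsElliptic] (p : ℕ)
    [Fact p.Prime] [NeZero p] (hp : Nat.card (rootsOfUnity p (AlgebraicClosure ℚ)) = p)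
    (σ : AlgebraicClosure ℚ ≃ₐ[ℚ] AlgebraicClosure ℚ) :
    LinearMap.det (galoisRepModuleEnd (K := AlgebraicClosure ℚ) ℚ W p σ) =
      ((modularCyclotomicCharacter (AlgebraicClosure ℚ) hp
        (σ : AlgebraicClosure ℚ ≃+* AlgebraicClosure ℚ) : (ZMod p)ˣ) : ZMod p) := by
  have : (W⁄(AlgebraicClosure ℚ)).IsElliptic := FLTA.Elliptic.Weil.isElliptic_baseChange W
  exact FLTA.Elliptic.Weil.det_galoisRepModuleEnd_of_card (S := ℚ) W p hp
    (natCard_torsionBy_baseChange W (Nat.cast_ne_zero.mpr (Fact.out : p.Prime).ne_zero)) σ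

/-- The determinant of a Frobenius at a good odd prime `ℓ ≠ p`. -/
theorem det_galoisRepModuleEnd_frobenius (W : WeierstrassCurve ℤ) (hΔ : W.Δ ≠ 0) (p : ℕ)
    [Fact p.Prime] (ℓ : ℕ) (hℓ : ℓ.Prime) (hgood : W.IsGoodPrimeFor ℓ) (hℓp : ℓ ≠ p)
    (A : ValuationSubring (AlgebraicClosure ℚ)) (hA : A.LiesOverPrime ℓ)
    (σ : AlgebraicClosure ℚ ≃ₐ[ℚ] AlgebraicClosure ℚ) (hσ : A.IsFrobeniusAt σ ℓ) :
    LinearMap.det (galoisRepModuleEnd (K := AlgebraicClosure ℚ) ℚ
      (W.map (Int.castRingHom ℚ)) p σ) = (ℓ : ZMod p) := by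
  have hp : p.Prime := Fact.out
  have : NeZero p := ⟨hp.ne_zero⟩
  have : (W.map (Int.castRingHom ℚ)).IsElliptic :=
    ⟨by rw [WeierstrassCurve.map_Δ, isUnit_iff_ne_zero]; simpa using hΔ⟩
  rw [det_galoisRepModuleEnd_eq_cyclotomic (W.map (Int.castRingHom ℚ)) p
    (IsAlgClosed.card_rootsOfUnity_eq (AlgebraicClosure ℚ) p) σ]
  exact FLTA.Galois.modularCyclotomicCharacter_frobenius hℓ hA hσ
    (fun h => hℓp ((Nat.prime_dvd_prime_iff_eq hℓ hp).mp h)) _

/-- The trace of a Frobenius at a good odd prime `ℓ ≠ p` is `a_ℓ` mod `p`, for odd `p`. -/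
theorem galoisTrace_frobenius (W : WeierstrassCurve ℤ) (hΔ : W.Δ ≠ 0) (p : ℕ)
    [Fact p.Prime] (hp2 : p ≠ 2) (ℓ : ℕ) (hℓ : ℓ.Prime) (hℓ2 : ℓ ≠ 2)
    (hgood : W.IsGoodPrimeFor ℓ) (hℓp : ℓ ≠ p)
    (A : ValuationSubring (AlgebraicClosure ℚ)) (hA : A.LiesOverPrime ℓ)
    (σ : AlgebraicClosure ℚ ≃ₐ[ℚ] AlgebraicClosure ℚ) (hσ : A.IsFrobeniusAt σ ℓ) :
    galoisTrace (K := AlgebraicClosure ℚ) ℚ (W.map (Int.castRingHom ℚ)) p σ =
      (W.apOfModel ℓ : ZMod p) := by
  have hp : p.Prime := Fact.out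
  set M := Submodule.torsionBy ℤ ((W.map (Int.castRingHom ℚ))⁄(AlgebraicClosure ℚ)).Point p
  have hcard : Nat.card M = p ^ 2 := natCard_torsionBy_intModel W hΔ hp.ne_zero
  have : Finite M := Nat.finite_of_card_ne_zero (hcard ▸ pow_ne_zero 2 hp.ne_zero)
  have : Module.Finite (ZMod p) M := Module.Finite.of_finite
  have hrank : Module.finrank (ZMod p) M = 2 := by
    have h := Module.natCard_eq_pow_finrank (K := ZMod p) (V := M)
    rw [hcard, Nat.card_zmod] at h
    exact (Nat.pow_right_injective hp.two_le h).symm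
  set f := galoisRepModuleEnd (K := AlgebraicClosure ℚ) ℚ (W.map (Int.castRingHom ℚ)) p σ with hf
  have hdet : LinearMap.det f = (ℓ : ZMod p) :=
    det_galoisRepModuleEnd_frobenius W hΔ p ℓ hℓ hgood hℓp A hA σ hσ
  have hquad : ∀ x : M, f (f x) - (W.apOfModel ℓ : ZMod p) • f x + (ℓ : ZMod p) • x = 0 := by
    intro x
    have hx : p • (x : ((W.map (Int.castRingHom ℚ))⁄(AlgebraicClosure ℚ)).Point) = 0 := by
      have := (Submodule.mem_torsionBy_iff _ _).mp x.2
      rwa [natCast_zsmul] at this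
    have h := frobenius_quadratic W hΔ hℓ hℓ2 hgood hA hσ (hp.odd_of_ne_two hp2)
      (fun h => hℓp ((Nat.prime_dvd_prime_iff_eq hℓ hp).mp h)) _ hx
    rw [Int.cast_smul_eq_zsmul, Nat.cast_smul_eq_nsmul]
    exact Subtype.ext h
  let b := Module.finBasisOfFinrankEq (ZMod p) M hrank
  -- Cayley-Hamilton
  have hCH : ∀ x : M, f (f x) - LinearMap.trace (ZMod p) M f • f x + (ℓ : ZMod p) • x = 0 := by
    intro x
    have h := LinearMap.aeval_self_charpoly f
    rw [← LinearMap.charpoly_toMatrix f b, Matrix.charpoly_fin_two, LinearMap.det_toMatrix,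
      ← LinearMap.trace_eq_matrix_trace (ZMod p) b, hdet] at h
    have hx := LinearMap.congr_fun h x
    rw [Nat.cast_smul_eq_nsmul]
    simpa [sq, Module.End.mul_apply, Algebra.algebraMap_eq_smul_one] using hx
  have hfinj : Function.Injective f := fun x y hxy =>
    smul_left_cancel σ (by simpa [hf] using hxy)
  obtain ⟨x, hx⟩ : ∃ x : M, x ≠ 0 := by
    by_contra h
    push Not at h
    have : Nat.card M ≤ 1 :=
      Finite.card_le_one_iff_subsingleton.mpr ⟨fun a b => (h a).trans (h b).symm⟩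
    rw [hcard] at this
    have := Nat.pow_le_pow_left hp.two_le 2
    omega
  rw [galoisTrace_def, ← hf]
  by_contra hne
  have key : ((W.apOfModel ℓ : ZMod p) - LinearMap.trace (ZMod p) M f) • f x = 0 := by
    have := (hCH x).trans (hquad x).symm
    rw [sub_smul, sub_eq_zero]
    linear_combination (norm := abel) this
  rcases smul_eq_zero.mp key with h | h
  · exact hne (sub_eq_zero.mp h).symm
  · exact hx (hfinj (h.trans (map_zero f).symm))

end FLTA.EllTorsion
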