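import Fermat.Agent.EllTorsion.FrobTwoFormulas
import Fermat.Agent.EllTorsion.FrobAnnihilate
import Fermat.Agent.EllTorsion.FrobQuadratic

/-!
# The quadratic relation of Frobenius at the prime `2`
-/

set_option autoImplicit false

open scoped WeierstrassCurve.Affine
open WeierstrassCurve WeierstrassCurve.Affine
open scoped Classical

namespace FLTA.EllTorsion

namespace FrobTwo

/-- Points of a nonsingular curve are its affine solutions and one more. -/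
theorem natCard_point_eq {F : Type*} [Field F] (E : WeierstrassCurve.Affine F) (hΔ : E.Δ ≠ 0) :
    Nat.card E.Point = Nat.card (Option {p : F × F //
      p.2 ^ 2 + E.a₁ * p.1 * p.2 + E.a₃ * p.2
        = p.1 ^ 3 + E.a₂ * p.1 ^ 2 + E.a₄ * p.1 + E.a₆}) := by
  refine Nat.card_congr
    { toFun := fun P => match P with
        | .zero => none
        | .some x y h => some ⟨(x, y), (equation_iff x y).mp h.1⟩
      invFun := fun o => match o with
        | none => 0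
        | some p => .some p.1.1 p.1.2
            ((equation_iff_nonsingular_of_Δ_ne_zero hΔ).mp ((equation_iff _ _).mpr p.2))
      left_inv := ?_
      right_inv := ?_ }
  · rintro (_ | _) <;> rfl
  · rintro (_ | _) <;> rfl

/-- Coefficient conditions over `ZMod 2` and the resulting value of `a₂`. -/
theorem cases_two (a₁ a₂ a₃ a₄ a₆ : ZMod 2)
    (hΔ : (⟨a₁, a₂, a₃, a₄, a₆⟩ : WeierstrassCurve (ZMod 2)).Δ ≠ 0) :
    let n : ℕ := Fintype.card (Option {p : ZMod 2 × ZMod 2 //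
      p.2 ^ 2 + a₁ * p.1 * p.2 + a₃ * p.2 = p.1 ^ 3 + a₂ * p.1 ^ 2 + a₄ * p.1 + a₆})
    (a₁ = 0 ∧ a₃ = 1 ∧
      ((a₂ + a₄ = 0 ∧ n = 3) ∨ (a₂ + a₄ = 1 ∧ a₆ = 1 ∧ n = 1) ∨
        (a₂ + a₄ = 1 ∧ a₆ = 0 ∧ n = 5))) ∨
    (a₁ = 1 ∧ a₆ = 1 + a₃ * a₄ + a₂ * a₃ + a₄ ∧
      ((a₂ + a₃ = 1 ∧ n = 2) ∨ (a₂ + a₃ = 0 ∧ n = 4))) := by
  simp only [WeierstrassCurve.Δ, WeierstrassCurve.b₂, WeierstrassCurve.b₄, WeierstrassCurve.b₆,
    WeierstrassCurve.b₈] at hΔ
  revert hΔ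
  revert a₁ a₂ a₃ a₄ a₆
  decide

end FrobTwo

namespace Frob

/-- `φ² P - a₂ φ P + 2 P = 0` on the good reduction at `2`. -/
theorem frobenius_quadratic_of_two (Wz : WeierstrassCurve ℤ) (k : Type*) [Field k] [CharP k 2]
    [Fact (Nat.Prime 2)] (hgood : Wz.IsGoodPrimeFor 2) (P : (Wz⁄k).Point) :
    frobHom Wz 2 k (frobHom Wz 2 k P) - (Wz.apOfModel 2) • frobHom Wz 2 k P
      + (2 : ℤ) • P = 0 := by
  let ι : ZMod 2 →+* k := ZMod.castHom (dvd_refl 2) k
  have hsq : ∀ z : ZMod 2, z ^ 2 = z := fun z => ZMod.pow_card z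
  have hcast : ∀ n : ℤ, (n : k) = ι (n : ZMod 2) := fun n => (map_intCast ι n).symm
  have e₁ : (Wz⁄k).a₁ = ι (Wz.a₁ : ZMod 2) := hcast _
  have e₂ : (Wz⁄k).a₂ = ι (Wz.a₂ : ZMod 2) := hcast _
  have e₃ : (Wz⁄k).a₃ = ι (Wz.a₃ : ZMod 2) := hcast _
  have e₄ : (Wz⁄k).a₄ = ι (Wz.a₄ : ZMod 2) := hcast _
  have e₆ : (Wz⁄k).a₆ = ι (Wz.a₆ : ZMod 2) := hcast _
  have hΔ : (Wz.reductionMod 2).Δ ≠ 0 := by
    rw [reductionMod, WeierstrassCurve.map_Δ, eq_intCast]
    exact fun h => hgood ((ZMod.intCast_zmod_eq_zero_iff_dvd _ _).mp h)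
  have hn := FrobTwo.natCard_point_eq (Wz.reductionMod 2).toAffine hΔ
  rw [Nat.card_eq_fintype_card (α := Option _)] at hn
  have ha : Wz.apOfModel 2 = 3 - ((Wz.reductionMod 2).card : ℤ) := by
    rw [apOfModel, traceOfFrobenius, Nat.card_zmod]; norm_num
  have hΦ : FrobTwo.IsSquareMap (V := (Wz⁄k).toAffine) (frobHom Wz 2 k) :=
    fun x y h => frobHom_some Wz 2 k h
  have hc := FrobTwo.cases_two (Wz.a₁ : ZMod 2) Wz.a₂ Wz.a₃ Wz.a₄ Wz.a₆ hΔ
  have hcard : (Wz.reductionMod 2).card = Fintype.card (Option {p : ZMod 2 × ZMod 2 //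
      p.2 ^ 2 + (Wz.a₁ : ZMod 2) * p.1 * p.2 + (Wz.a₃ : ZMod 2) * p.2
        = p.1 ^ 3 + (Wz.a₂ : ZMod 2) * p.1 ^ 2 + (Wz.a₄ : ZMod 2) * p.1 + (Wz.a₆ : ZMod 2)}) := by
    rw [WeierstrassCurve.card, hn]
    exact Fintype.card_congr (Equiv.refl _)
  dsimp only at hc
  rw [← hcard] at hc
  rcases hc with ⟨h1, h3, hs⟩ | ⟨h1, h6, ho⟩
  · have key := FrobTwo.quadratic_supersingular (V := (Wz⁄k).toAffine) (frobHom Wz 2 k) hΦ
      (by rw [e₁, h1, map_zero]) (by rw [e₃, h3, map_one]) (by rw [e₂, ← map_pow, hsq])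
      (by rw [e₄, ← map_pow, hsq]) (by rw [e₆, ← map_pow, hsq]) P
    rcases hs with ⟨hc, hn⟩ | ⟨hc, h6, hn⟩ | ⟨hc, h6, hn⟩
    · rw [ha, hn]
      simpa using key.1 (by rw [e₂, e₄, ← map_add, hc, map_zero])
    · rw [ha, hn]
      exact key.2.1 (by rw [e₂, e₄, ← map_add, hc, map_one]) (by rw [e₆, h6, map_one])
    · rw [ha, hn, show ((3 : ℤ) - (5 : ℕ)) = -2 by norm_num, neg_zsmul, sub_neg_eq_add]
      exact key.2.2 (by rw [e₂, e₄, ← map_add, hc, map_one]) (by rw [e₆, h6, map_zero])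
  · have key := FrobTwo.quadratic_ordinary (V := (Wz⁄k).toAffine) (frobHom Wz 2 k) hΦ
      (by rw [e₁, h1, map_one]) (by rw [e₂, ← map_pow, hsq])
      (by rw [e₃, ← map_pow, hsq]) (by rw [e₄, ← map_pow, hsq])
      (by simp only [e₂, e₃, e₄, e₆, ← map_mul, ← map_one ι, ← map_add]; rw [h6]) P
    rcases ho with ⟨hb, hn⟩ | ⟨hb, hn⟩
    · rw [ha, hn, show ((3 : ℤ) - (2 : ℕ)) = 1 by norm_num, one_zsmul]
      exact key.1 (by rw [e₂, e₃, ← map_add, hb, map_one])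
    · rw [ha, hn, show ((3 : ℤ) - (4 : ℕ)) = -1 by norm_num, neg_zsmul, one_zsmul, sub_neg_eq_add]
      exact key.2 (by rw [e₂, e₃, ← map_add, hb, map_zero])

end Frob

/-- At a good prime `2`, Frobenius satisfies `X² - a₂ X + 2` on torsion of odd order. -/
theorem frobenius_quadratic_two (W : WeierstrassCurve ℤ)
    (hgood : W.IsGoodPrimeFor 2) {A : ValuationSubring (AlgebraicClosure ℚ)}
    (hA : A.LiesOverPrime 2) {σ : AlgebraicClosure ℚ ≃ₐ[ℚ] AlgebraicClosure ℚ}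
    (hσ : A.IsFrobeniusAt σ 2) {n : ℕ} (hn : Odd n)
    (P : FLTA.EllReduction.GeomPoint W) (hP : n • P = 0) :
    σ • σ • P - W.apOfModel 2 • (σ • P) + 2 • P = 0 := by
  have hl : Nat.Prime 2 := Nat.prime_two
  have : Fact (Nat.Prime 2) := ⟨hl⟩
  have : CharP (IsLocalRing.ResidueField A) 2 := FLTA.Galois.charP_residueField hl hA
  have key : FrobReduce.goodRed hl hA hgood
      (σ • σ • P - W.apOfModel 2 • (σ • P) + 2 • P) = 0 := by
    have e1 : FrobReduce.goodRed hl hA hgood (σ • P) =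
        Frob.frobHom W 2 _ (FrobReduce.goodRed hl hA hgood P) :=
      FrobReduce.goodRed_smul hl hA hgood hσ P
    have e2 : FrobReduce.goodRed hl hA hgood (σ • σ • P) =
        Frob.frobHom W 2 _ (FrobReduce.goodRed hl hA hgood (σ • P)) :=
      FrobReduce.goodRed_smul hl hA hgood hσ (σ • P)
    rw [map_add, map_sub, map_zsmul, map_nsmul, e2, e1, ← natCast_zsmul]
    exact Frob.frobenius_quadratic_of_two W _ hgood _
  have hln : ¬ 2 ∣ n := fun h => by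
    obtain ⟨m, rfl⟩ := hn
    omega
  refine FLTA.EllReduction.eq_zero_of_mem_E1Z hl hA hln
    (FrobReduce.mem_E1Z_of_goodRed_eq_zero hl hA hgood key) ?_
  have h1 : n • (σ • P) = 0 := by
    rw [show n • (σ • P) = σ • (n • P) from
      ((Affine.Point.map (W' := W.map (Int.castRingHom ℚ)) σ.toAlgHom).map_nsmul n P).symm, hP]
    rfl
  have h2 : n • (σ • σ • P) = 0 := by
    rw [show n • (σ • σ • P) = σ • (n • (σ • P)) from
      ((Affine.Point.map (W' := W.map (Int.castRingHom ℚ)) σ.toAlgHom).map_nsmul n (σ • P)).symm, h1]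
    rfl
  have h3 : n • (W.apOfModel 2 • (σ • P)) = 0 := by
    rw [smul_comm n (W.apOfModel 2), h1]; exact zsmul_zero _
  have h4 : n • (2 • P) = 0 := by rw [smul_comm n 2, hP]; exact nsmul_zero _
  rw [nsmul_add, nsmul_sub, h2, h3, h4, sub_zero, add_zero]

/-- At every good prime `l`, Frobenius satisfies `X² - a_l X + l` on torsion of odd order prime
to `l`. -/
theorem frobenius_quadratic_all (W : WeierstrassCurve ℤ) (hΔ : W.Δ ≠ 0) {l : ℕ} (hl : l.Prime)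
    (hgood : W.IsGoodPrimeFor l) {A : ValuationSubring (AlgebraicClosure ℚ)}
    (hA : A.LiesOverPrime l) {σ : AlgebraicClosure ℚ ≃ₐ[ℚ] AlgebraicClosure ℚ}
    (hσ : A.IsFrobeniusAt σ l) {n : ℕ} (hn : Odd n) (hln : ¬ l ∣ n)
    (P : FLTA.EllReduction.GeomPoint W) (hP : n • P = 0) :
    σ • σ • P - W.apOfModel l • (σ • P) + l • P = 0 := by
  by_cases hl2 : l = 2
  · subst hl2
    exact frobenius_quadratic_two W hgood hA hσ hn P hP
  · exact frobenius_quadratic W hΔ hl hl2 hgood hA hσ hn hln P hP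

end FLTA.EllTorsion
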