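import Mathlib.Algebra.Ring.Parity
import Mathlib.Algebra.GroupWithZero.Defs
import Mathlib.Data.Int.Basic
import Mathlib.Tactic.LinearCombination
import Mathlib.Tactic.Ring
import Mathlib.Tactic.IntervalCases
import Mathlib.Tactic.Linarith
import Mathlib.Tactic.NormNum

/-!
# The Somos relations of a non-degenerate normalised elliptic divisibility sequence

A sequence satisfying the duplication recurrences and with no zero term (other than `W 0`)
in a domain satisfies the three-term relation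
`W (a + k) * W (a - k) = W (a + 1) * W (a - 1) * W k ^ 2 - W (k + 1) * W (k - 1) * W a ^ 2`.
-/

set_option autoImplicit false
set_option linter.unusedSectionVars false

namespace FLTA.EllTorsion.Eds

variable {D : Type*} [CommRing D]

/-- The hypotheses on the sequence. -/
structure Datum (W : ℤ → D) (e : D) : Prop where
  map_neg : ∀ n, W (-n) = -W n
  map_one : W 1 = 1
  map_zero : W 0 = 0
  ne_zero : ∀ n, n ≠ 0 → W n ≠ 0
  odd_rec : ∀ m, W (2 * m + 1) = W (m + 2) * W m ^ 3 - W (m - 1) * W (m + 1) ^ 3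
  even_rec : ∀ m, W (2 * m) * W 2 =
    W (m - 1) ^ 2 * W m * W (m + 2) - W (m - 2) * W m * W (m + 1) ^ 2
  four : W 4 + W 2 ^ 5 = e * W 2 * W 3

/-- Right hand side of the elliptic relation. -/
def rhs (W : ℤ → D) (a k : ℤ) : D :=
  W (a + 1) * W (a - 1) * W k ^ 2 - W (k + 1) * W (k - 1) * W a ^ 2

lemma rhs_swap (W : ℤ → D) (a k : ℤ) : rhs W a k = -rhs W k a := by
  unfold rhs; ring

/-- The Somos-4 relation at `n`. -/
def Somos (W : ℤ → D) (n : ℤ) : Prop :=
  W (n + 2) * W (n - 2) = W 2 ^ 2 * W (n + 1) * W (n - 1) - W 3 * W n ^ 2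

/-- The invariant relation at `n`. -/
def Invar (W : ℤ → D) (e : D) (n : ℤ) : Prop :=
  W (n + 2) * W (n - 1) ^ 2 + W (n - 2) * W (n + 1) ^ 2 + W 2 ^ 2 * W n ^ 3 =
    e * W (n - 1) * W n * W (n + 1)

lemma rhs_mul_rhs {W : ℤ → D} {e : D} {a k : ℤ} (hk : Somos W k) (ik : Invar W e k)
    (ha : Somos W a) (ia : Invar W e a) :
    rhs W (a + 1) k * rhs W (a - 1) k = rhs W a (k + 1) * rhs W a (k - 1) := by
  unfold Somos at hk ha
  unfold Invar at ik ia
  unfold rhs
  rw [show a + 1 + 1 = a + 2 by ring, show a + 1 - 1 = a by ring, show a - 1 + 1 = a by ring,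
    show a - 1 - 1 = a - 2 by ring, show k + 1 + 1 = k + 2 by ring, show k + 1 - 1 = k by ring,
    show k - 1 + 1 = k by ring, show k - 1 - 1 = k - 2 by ring]
  linear_combination
    (W a ^ 2 * W k ^ 4) * ha - (W (k + 1) * W (k - 1) * W a * W k ^ 2) * ia
      - (W k ^ 2 * W a ^ 4) * hk + (W (a + 1) * W (a - 1) * W k * W a ^ 2) * ik

variable [IsDomain D]

namespace Datum

variable {W : ℤ → D} {e : D} (h : Datum W e)

include h

lemma neg_one : W (-1) = -1 := by rw [h.map_neg, h.map_one]

lemma neg_two : W (-2) = -W 2 := h.map_neg 2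

lemma invar_zero : Invar W e 0 := by
  simp only [Invar]
  norm_num [h.map_zero, h.map_one, h.neg_one, h.neg_two]

lemma invar_one : Invar W e 1 := by
  simp only [Invar]
  norm_num [h.map_zero, h.map_one, h.neg_one]

lemma invar_two : Invar W e 2 := by
  simp only [Invar]
  norm_num [h.map_zero, h.map_one]
  linear_combination h.four

lemma invar_succ {n : ℕ} (hn : 3 ≤ n) (s1 : Somos W n) (s0 : Somos W (n - 1 : ℤ))
    (i0 : Invar W e (n - 1 : ℤ)) : Invar W e n := by
  unfold Somos at s1 s0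
  unfold Invar at i0 ⊢
  rw [show (n : ℤ) - 1 + 2 = n + 1 by ring, show (n : ℤ) - 1 + 1 = n by ring,
    show (n : ℤ) - 1 - 1 = n - 2 by ring, show (n : ℤ) - 1 - 2 = n - 3 by ring] at s0 i0
  refine mul_left_cancel₀ (h.ne_zero ((n : ℤ) - 2) (by omega)) ?_
  linear_combination W ((n : ℤ) - 1) ^ 2 * s1 - W n ^ 2 * s0 + W ((n : ℤ) + 1) * i0

lemma invar_nat {N : ℕ} (hS : ∀ j : ℕ, j ≤ N → Somos W j) : ∀ n : ℕ, n ≤ N → Invar W e n
  | 0, _ => by simpa using h.invar_zero
  | 1, _ => by simpa using h.invar_one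
  | 2, _ => by simpa using h.invar_two
  | m + 3, hm => by
    refine h.invar_succ (by omega) (hS _ hm) ?_ ?_
    · have := hS (m + 2) (by omega)
      rwa [show ((m + 3 : ℕ) : ℤ) - 1 = ((m + 2 : ℕ) : ℤ) by push_cast; ring]
    · have := invar_nat hS (m + 2) (by omega)
      rwa [show ((m + 3 : ℕ) : ℤ) - 1 = ((m + 2 : ℕ) : ℤ) by push_cast; ring]

/-- The elliptic relation for natural `a`, `k`. -/
theorem relation_nat : ∀ s a k : ℕ, a + k = s →
    W (a + k : ℤ) * W (a - k : ℤ) = rhs W a k := by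
  intro s
  induction s using Nat.strong_induction_on with
  | _ s ih =>
  have hS : ∀ j : ℕ, j + 3 ≤ s → Somos W j := fun j hj => by
    have := ih (j + 2) (by omega) j 2 rfl
    rw [Somos]; simp only [Nat.cast_ofNat, rhs] at this
    rw [this]; norm_num [h.map_one]; ring
  -- the chain: `rhs (s - k, k) = W s * W (s - 2 k)` for `k ≥ 2`, `2 k ≤ s`
  have hmain : ∀ d k : ℕ, 2 ≤ k → 2 * k + d = s →
      rhs W ((s : ℤ) - k) k = W s * W ((s : ℤ) - 2 * k) := by
    intro d
    induction d using Nat.strong_induction_on with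
    | _ d ihd =>
    intro k hk hs
    rcases Nat.lt_or_ge d 3 with hd | hd
    · interval_cases d
      · rw [show (s : ℤ) - k = k by omega, show (s : ℤ) - 2 * k = 0 by omega, h.map_zero, rhs]
        ring
      · rw [show (s : ℤ) - k = k + 1 by omega, show (s : ℤ) - 2 * k = 1 by omega, h.map_one, rhs,
          show (s : ℤ) = 2 * k + 1 by omega, h.odd_rec, show (k : ℤ) + 1 + 1 = k + 2 by ring,
          show (k : ℤ) + 1 - 1 = k by ring]
        ring
      · rw [show (s : ℤ) - k = k + 2 by omega, show (s : ℤ) - 2 * k = 2 by omega, rhs,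
          show (s : ℤ) = 2 * (k + 1) by omega, h.even_rec, show (k : ℤ) + 2 + 1 = k + 3 by ring,
          show (k : ℤ) + 2 - 1 = k + 1 by ring, show (k : ℤ) + 1 - 1 = k by ring,
          show (k : ℤ) + 1 + 2 = k + 3 by ring, show (k : ℤ) + 1 - 2 = k - 1 by ring,
          show (k : ℤ) + 1 + 1 = k + 2 by ring]
        ring
    · obtain ⟨d, rfl⟩ : ∃ e, d = e + 2 := ⟨d - 2, by omega⟩
      have next := ihd d (by omega) (k + 1) (by omega) (by omega)
      -- `a = s - k - 1`
      set a : ℕ := s - k - 1 with ha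
      have haz : (a : ℤ) = s - k - 1 := by omega
      have hle : ∀ j : ℕ, j ≤ a → Somos W j := fun j hj => hS j (by omega)
      have key := rhs_mul_rhs (hle k (by omega)) (h.invar_nat hle k (by omega))
        (hle a le_rfl) (h.invar_nat hle a le_rfl)
      have e1 := ih (a - 1 + k) (by omega) (a - 1) k rfl
      have e2 := ih (a + (k - 1)) (by omega) a (k - 1) rfl
      rw [Nat.cast_sub (by omega : 1 ≤ a), Nat.cast_one] at e1
      rw [Nat.cast_sub (by omega : 1 ≤ k), Nat.cast_one] at e2
      rw [← e1, ← e2] at key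
      rw [show (a : ℤ) + 1 = s - k by omega, show (a : ℤ) - 1 + k = s - 2 by omega,
        show (a : ℤ) - 1 - k = s - 2 * k - 2 by omega,
        show (a : ℤ) + (k - 1) = s - 2 by omega,
        show (a : ℤ) - (k - 1) = s - 2 * k by omega] at key
      rw [show (s : ℤ) - (k + 1 : ℕ) = a by omega,
        show (s : ℤ) - 2 * (k + 1 : ℕ) = s - 2 * k - 2 by push_cast; ring,
        show ((k + 1 : ℕ) : ℤ) = k + 1 by push_cast; ring] at next
      refine mul_right_cancel₀ (h.ne_zero ((s : ℤ) - 2 * k - 2) (by omega)) ?_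
      refine mul_right_cancel₀ (h.ne_zero ((s : ℤ) - 2) (by omega)) ?_
      linear_combination key + (W ((s : ℤ) - 2) * W ((s : ℤ) - 2 * k)) * next
  have hord : ∀ a k : ℕ, a + k = s → k ≤ a → W (a + k : ℤ) * W (a - k : ℤ) = rhs W a k := by
    intro a k hs hka
    rcases Nat.lt_or_ge k 2 with hk | hk
    · interval_cases k
      · simp [rhs, h.map_zero, h.map_one, h.neg_one, sq]
      · norm_num [rhs, h.map_zero, h.map_one]
    · have := hmain (a - k) k hk (by omega)
      rw [show (s : ℤ) - k = a by omega, show (s : ℤ) - 2 * k = a - k by omega] at this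
      rw [this, show (a : ℤ) + k = s by omega]
  intro a k hs
  rcases le_total k a with hka | hka
  · exact hord a k hs hka
  · have := hord k a (by omega) hka
    rw [rhs_swap, ← this, show (a : ℤ) + k = k + a by ring,
      show (a : ℤ) - k = -((k : ℤ) - a) by ring, h.map_neg]
    ring

theorem somos (n : ℤ) : Somos W n := by
  have hnat : ∀ j : ℕ, Somos W j := fun j => by
    have := h.relation_nat (j + 2) j 2 rfl
    rw [Somos]; simp only [Nat.cast_ofNat, rhs] at this
    rw [this]; norm_num [h.map_one]; ring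
  obtain ⟨j, rfl | rfl⟩ := n.eq_nat_or_neg
  · exact hnat j
  · have := hnat j
    rw [Somos] at this ⊢
    rw [show -(j : ℤ) + 2 = -((j : ℤ) - 2) by ring, show -(j : ℤ) - 2 = -((j : ℤ) + 2) by ring,
      show -(j : ℤ) + 1 = -((j : ℤ) - 1) by ring, show -(j : ℤ) - 1 = -((j : ℤ) + 1) by ring,
      h.map_neg, h.map_neg, h.map_neg, h.map_neg, h.map_neg]
    linear_combination this

theorem invar (n : ℤ) : Invar W e n := by
  have hnat : ∀ j : ℕ, Invar W e j := fun j =>
    h.invar_nat (fun i (_ : i ≤ j) => h.somos i) j le_rfl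
  obtain ⟨j, rfl | rfl⟩ := n.eq_nat_or_neg
  · exact hnat j
  · have := hnat j
    rw [Invar] at this ⊢
    rw [show -(j : ℤ) + 2 = -((j : ℤ) - 2) by ring, show -(j : ℤ) - 2 = -((j : ℤ) + 2) by ring,
      show -(j : ℤ) + 1 = -((j : ℤ) - 1) by ring, show -(j : ℤ) - 1 = -((j : ℤ) + 1) by ring,
      h.map_neg, h.map_neg, h.map_neg, h.map_neg, h.map_neg]
    linear_combination -this

end Datum

end FLTA.EllTorsion.Eds
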