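import Fermat.Agent.EllTorsion.Eds

/-!
# Consequences of the Somos relations for the numerators and denominators of `x (n P)`
-/

set_option autoImplicit false

namespace FLTA.EllTorsion.Eds

variable {D : Type*} [CommRing D] [IsDomain D] {W A B : ℤ → D}
  {x b₂ b₄ b₆ b₈ : D}

/-- The hypotheses relating an elliptic sequence to a Weierstrass equation. -/
structure XDatum (W A B : ℤ → D) (x b₂ b₄ b₆ b₈ : D) : Prop where
  seq : Datum W (6 * x ^ 2 + b₂ * x + b₄)
  two : W 2 ^ 2 = 4 * x ^ 3 + b₂ * x ^ 2 + 2 * b₄ * x + b₆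
  three : W 3 = 3 * x ^ 4 + b₂ * x ^ 3 + 3 * b₄ * x ^ 2 + 3 * b₆ * x + b₈
  num : ∀ n, A n = x * W n ^ 2 - W (n + 1) * W (n - 1)
  den : ∀ n, B n = W n ^ 2

theorem XDatum.identity_U (h : XDatum W A B x b₂ b₄ b₆ b₈) (n : ℤ) :
    B (n + 1) * B (n - 1) = (A n - x * B n) ^ 2 := by
  rw [h.den, h.den, h.den, h.num]; ring

theorem XDatum.identity_T (h : XDatum W A B x b₂ b₄ b₆ b₈) (n : ℤ) :
    A (n + 1) * B (n - 1) + A (n - 1) * B (n + 1) =
      2 * (A n + x * B n) * (x * A n) + b₂ * (x * A n) * B n +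
        b₄ * (A n + x * B n) * B n + b₆ * B n ^ 2 := by
  have hi := h.seq.invar n
  rw [Invar, h.two] at hi
  rw [h.den, h.den, h.den, h.num, h.num, h.num, show n + 1 + 1 = n + 2 by ring,
    show n + 1 - 1 = n by ring, show n - 1 + 1 = n by ring, show n - 1 - 1 = n - 2 by ring]
  linear_combination -W n * hi

theorem XDatum.identity_S (h : XDatum W A B x b₂ b₄ b₆ b₈) (n : ℤ) :
    A (n + 1) * A (n - 1) =
      (x * A n) ^ 2 - b₄ * (x * A n) * B n - b₆ * (A n + x * B n) * B n - b₈ * B n ^ 2 := by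
  have hi := h.seq.invar n
  have hs := h.seq.somos n
  rw [Invar, h.two] at hi
  rw [Somos, h.two, h.three] at hs
  rw [h.den, h.num, h.num, h.num, show n + 1 + 1 = n + 2 by ring,
    show n + 1 - 1 = n by ring, show n - 1 + 1 = n by ring, show n - 1 - 1 = n - 2 by ring]
  linear_combination -(x * W n) * hi + W n ^ 2 * hs

end FLTA.EllTorsion.Eds
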