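import Fermat.Agent.EllTorsion.FrobManin

set_option autoImplicit false
set_option linter.unusedSectionVars false

/-!
# Counting fixed and antifixed points of a power map
-/

open Polynomial
open scoped Polynomial.Bivariate
open WeierstrassCurve WeierstrassCurve.Affine
open FLTA.Elliptic

namespace FLTA.EllTorsion.Frob.PowData

universe v

variable {K : Type v} [Field K] [DecidableEq K] [IsAlgClosed K] {W : WeierstrassCurve.Affine K}
  [W.IsElliptic] {Q e : ℕ} (D : PowData W Q e)

/-- The affine points above `r` satisfying a predicate. -/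
def fibre (p : W.Point → Prop) (r : K) : Set W.Point := {P | P ≠ 0 ∧ Weil.xc P = r ∧ p P}

include D

theorem map_some_eq_iff {r y : K} (h : W.Nonsingular r y) (hr : r ∈ D.fixedSet) :
    (D.Φ (Point.some _ _ h) = Point.some _ _ h ↔
        etaOf W r y * gOf W r ^ e = etaOf W r y) ∧
      (D.Φ (Point.some _ _ h) = -Point.some _ _ h ↔
        etaOf W r y * gOf W r ^ e = -etaOf W r y) := by
  obtain ⟨hn, hΦ⟩ := D.isPointMap r y h
  have hrr := D.mem_fixedSet.mp hr
  have hη := D.etaOf_pow h.1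
  rw [hrr] at hη
  constructor <;> rw [hΦ, ← hη]
  · refine ⟨fun e => by rw [(Point.some.inj e).2], fun e => ?_⟩
    rw [Point.some.injEq]
    exact ⟨hrr, D.eq_of_etaOf_eq e⟩
  · rw [Point.neg_some, ← etaOf_negY]
    refine ⟨fun e => by rw [(Point.some.inj e).2], fun e => ?_⟩
    rw [Point.some.injEq]
    exact ⟨hrr, D.eq_of_etaOf_eq e⟩

theorem exists_point_xc (r : K) : ∃ P : W.Point, P ≠ 0 ∧ Weil.xc P = r ∧ (P = -P ↔ gOf W r = 0) := by
  obtain ⟨y, hy⟩ := Weil.exists_equation (W := W) r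
  refine ⟨Point.some _ _ (Weil.nonsingular_of_equation hy), Point.some_ne_zero _, rfl, ?_⟩
  rw [Point.neg_some, Point.some.injEq, ← etaOf_sq hy, pow_eq_zero_iff _root_.two_ne_zero]
  refine ⟨fun h => ?_, fun h => ⟨rfl, ?_⟩⟩
  · have h2 := h.2
    simp only [negY] at h2
    simp only [etaOf]
    linear_combination h2
  · simp only [etaOf] at h
    simp only [negY]
    linear_combination h

theorem fibre_ncard {r : K} (hr : r ∈ D.fixedSet) :
    (fibre (fun P => D.Φ P = P) r).Finite ∧ (fibre (fun P => D.Φ P = P) r).ncard = 2 - D.mult r ∧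
    (fibre (fun P => D.Φ P = -P) r).Finite ∧
      (fibre (fun P => D.Φ P = -P) r).ncard = D.mult r := by
  obtain ⟨P, hP0, hPr, hPneg⟩ := D.exists_point_xc r
  have hsub : ∀ p : W.Point → Prop, fibre p r ⊆ {P, -P} := fun p Z hZ =>
    Weil.eq_or_eq_neg_of_xc hZ.1 hP0 (hZ.2.1.trans hPr.symm)
  have hfin : ∀ p : W.Point → Prop, (fibre p r).Finite := fun p => (Set.toFinite _).subset (hsub p)
  have hmem : ∀ p : W.Point → Prop, (∀ Z, p Z → p (-Z)) → p P → fibre p r = {P, -P} := by
    intro p hneg hp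
    refine Set.Subset.antisymm (hsub p) (Set.insert_subset ⟨hP0, hPr, hp⟩ ?_)
    rintro _ rfl
    refine ⟨neg_ne_zero.mpr hP0, ?_, hneg P hp⟩
    rw [← hPr]
    rcases P with _ | ⟨x, y, h⟩
    · exact absurd rfl hP0
    · rfl
  have hnot : ∀ p : W.Point → Prop, (∀ Z, p Z → p (-Z)) → ¬ p P → fibre p r = ∅ := by
    intro p hneg hp
    refine Set.eq_empty_iff_forall_notMem.mpr fun Z hZ => hp ?_
    rcases hsub p hZ with rfl | rfl
    · exact hZ.2.2
    · exact neg_neg P ▸ hneg _ hZ.2.2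
  have n1 : ∀ Z, D.Φ Z = Z → D.Φ (-Z) = -Z := fun Z hZ => by rw [map_neg, hZ]
  have n2 : ∀ Z, D.Φ Z = -Z → D.Φ (-Z) = - -Z := fun Z hZ => by rw [map_neg, hZ]
  refine ⟨hfin _, ?_, hfin _, ?_⟩
  all_goals
    rcases P with _ | ⟨x, y, h⟩
    · exact absurd rfl hP0
    obtain rfl : x = r := hPr
    obtain ⟨hfix, hanti⟩ := D.map_some_eq_iff h hr
    have hg := etaOf_sq h.1
    unfold mult
    by_cases h0 : gOf W x = 0
    · have hη : etaOf W x y = 0 := by
        rw [h0] at hg; exact (pow_eq_zero_iff _root_.two_ne_zero).mp hg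
      have hPP := hPneg.mpr h0
      rw [if_pos h0]
      first
        | (rw [hmem _ n1 (hfix.mpr (by rw [hη, zero_mul])), ← hPP]; simp)
        | (rw [hmem _ n2 (hanti.mpr (by rw [hη, zero_mul, neg_zero])), ← hPP]; simp)
    have hη : etaOf W x y ≠ 0 := fun hη => h0 (by rw [← hg, hη]; simp)
    have hne : Point.some x y h ≠ -Point.some x y h := fun hh => h0 (hPneg.mp hh)
    have hne1 : (1 : K) ≠ -1 := fun h' => D.two_ne_zero (by linear_combination h')
    rw [if_neg h0]
    rcases D.pow_cases hr h0 with h1 | h1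
    · rw [if_neg (by rw [h1]; exact hne1)]
      first
        | (rw [hmem _ n1 (hfix.mpr (by rw [h1, mul_one])), Set.ncard_pair hne])
        | (rw [hnot _ n2 (fun hh => hη (by
            have := hanti.mp hh
            rw [h1, mul_one] at this
            exact mul_left_cancel₀ D.two_ne_zero (by linear_combination this))), Set.ncard_empty])
    · rw [if_pos h1]
      first
        | (rw [hmem _ n2 (hanti.mpr (by rw [h1, mul_neg_one])), Set.ncard_pair hne])
        | (rw [hnot _ n1 (fun hh => hη (by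
            have := hfix.mp hh
            rw [h1, mul_neg_one] at this
            exact mul_left_cancel₀ D.two_ne_zero (by linear_combination -this))), Set.ncard_empty])

theorem ncard_eq_one_add_sum (p : W.Point → Prop) (hp0 : p 0) (n : K → ℕ)
    (hn : ∀ r ∈ D.fixedSet, (fibre p r).Finite ∧ (fibre p r).ncard = n r)
    (hmem : ∀ P, P ≠ 0 → p P → Weil.xc P ∈ D.fixedSet) :
    {P | p P}.Finite ∧ {P | p P}.ncard = 1 + ∑ r ∈ D.fixedSet, n r := by
  classical
  have key : ∀ s : Finset K, s ⊆ D.fixedSet →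
      {P : W.Point | P ≠ 0 ∧ Weil.xc P ∈ s ∧ p P}.Finite ∧
      {P : W.Point | P ≠ 0 ∧ Weil.xc P ∈ s ∧ p P}.ncard = ∑ r ∈ s, n r := by
    intro s
    induction s using Finset.induction_on with
    | empty => intro; simp
    | insert r s hr ih =>
      intro hs
      obtain ⟨ih1, ih2⟩ := ih ((Finset.subset_insert r s).trans hs)
      obtain ⟨hf, hc⟩ := hn r (hs (Finset.mem_insert_self r s))
      have he : {P : W.Point | P ≠ 0 ∧ Weil.xc P ∈ insert r s ∧ p P} =
          fibre p r ∪ {P | P ≠ 0 ∧ Weil.xc P ∈ s ∧ p P} := by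
        ext P
        simp only [fibre, Set.mem_union, Set.mem_ofPred_eq, Finset.mem_insert]
        tauto
      have hdis : Disjoint (fibre p r) {P : W.Point | P ≠ 0 ∧ Weil.xc P ∈ s ∧ p P} :=
        Set.disjoint_left.mpr fun P h1 h2 => hr (h1.2.1 ▸ h2.2.1)
      rw [he]
      exact ⟨hf.union ih1, by
        rw [Set.ncard_union_eq hdis hf ih1, hc, ih2, Finset.sum_insert hr]⟩
  obtain ⟨k1, k2⟩ := key _ subset_rfl
  have he : {P | p P} = insert 0 {P : W.Point | P ≠ 0 ∧ Weil.xc P ∈ D.fixedSet ∧ p P} := by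
    ext P
    simp only [Set.mem_insert_iff, Set.mem_ofPred_eq]
    constructor
    · intro h
      by_cases h0 : P = 0
      · exact Or.inl h0
      · exact Or.inr ⟨h0, hmem P h0 h, h⟩
    · rintro (rfl | h)
      · exact hp0
      · exact h.2.2
  rw [he]
  exact ⟨k1.insert 0, by rw [Set.ncard_insert_of_notMem (fun h => h.1 rfl) k1, k2, add_comm]⟩

theorem xc_mem_fixedSet {P : W.Point} (hP : P ≠ 0) (h : D.Φ P = P ∨ D.Φ P = -P) :
    Weil.xc P ∈ D.fixedSet := by
  rcases P with _ | ⟨x, y, hxy⟩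
  · exact absurd rfl hP
  obtain ⟨hn, hΦ⟩ := D.isPointMap x y hxy
  rw [hΦ, Point.neg_some] at h
  rw [D.mem_fixedSet]
  exact h.elim (fun h => (Point.some.inj h).1) (fun h => (Point.some.inj h).1)

theorem ncard_fixed : {P : W.Point | D.Φ P = P}.Finite ∧
    {P : W.Point | D.Φ P = P}.ncard = D.fixCount :=
  D.ncard_eq_one_add_sum (fun P => D.Φ P = P) (map_zero _) _
    (fun _ hr => ⟨(D.fibre_ncard hr).1, (D.fibre_ncard hr).2.1⟩)
    (fun _ h0 h => D.xc_mem_fixedSet h0 (Or.inl h))

theorem ncard_antifixed : {P : W.Point | D.Φ P = -P}.Finite ∧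
    {P : W.Point | D.Φ P = -P}.ncard + D.fixCount = 2 * Q + 2 := by
  obtain ⟨h1, h2⟩ := D.ncard_eq_one_add_sum (fun P => D.Φ P = -P)
    (by rw [map_zero, neg_zero]) _
    (fun _ hr => ⟨(D.fibre_ncard hr).2.2.1, (D.fibre_ncard hr).2.2.2⟩)
    (fun _ h0 h => D.xc_mem_fixedSet h0 (Or.inr h))
  refine ⟨h1, ?_⟩
  rw [h2]
  have := D.fixCount_add
  omega

end FLTA.EllTorsion.Frob.PowData
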