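import Mathlib.AlgebraicGeometry.EllipticCurve.Affine.Point
import Mathlib.Tactic.FieldSimp
import Mathlib.Tactic.LinearCombination

set_option autoImplicit false

/-!
# The coordinate `η = 2 y + a₁ x + a₃`
-/

open WeierstrassCurve WeierstrassCurve.Affine 

namespace FLTA.EllTorsion.Frob

universe v

variable {K : Type v} [Field K] [DecidableEq K] {W : WeierstrassCurve.Affine K}

/-- `2 y + a₁ x + a₃`. -/
def etaOf (W : WeierstrassCurve.Affine K) (x y : K) : K := 2 * y + W.a₁ * x + W.a₃

/-- The right hand side of `η ^ 2 = 4 x ^ 3 + b₂ x ^ 2 + 2 b₄ x + b₆`. -/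
def gOf (W : WeierstrassCurve.Affine K) (x : K) : K :=
  4 * x ^ 3 + W.b₂ * x ^ 2 + 2 * W.b₄ * x + W.b₆

omit [DecidableEq K] in
theorem etaOf_sq {x y : K} (h : W.Equation x y) : etaOf W x y ^ 2 = gOf W x := by
  rw [Affine.equation_iff] at h
  simp only [etaOf, gOf, b₂, b₄, b₆]
  linear_combination 4 * h

theorem y_eq_negY_iff {x y : K} :
    y = W.negY x y ↔ etaOf W x y = 0 := by
  constructor
  · intro h; rw [negY] at h; simp only [etaOf]; linear_combination h
  · intro h; simp only [etaOf] at h; rw [negY]; linear_combination h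

end FLTA.EllTorsion.Frob
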