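import Fermat.Agent.EllTorsion.WeilIdeals
import Fermat.Agent.EllTorsion.FrobEta
import Fermat.Agent.EllTorsion.AddSub
import Mathlib.RingTheory.PrincipalIdealDomain
import Mathlib.RingTheory.Polynomial.Basic

set_option autoImplicit false
set_option linter.unusedSectionVars false

/-!
# The degree of the abscissa of an endomorphism, and the parallelogram law

Only homomorphisms on points are used: `HasDeg ψ d` says that `x ∘ ψ` agrees, away from finitely
many points, with a fraction of coprime polynomials in `x` of maximal degree `d`.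
-/

open Polynomial
open scoped Polynomial.Bivariate
open WeierstrassCurve WeierstrassCurve.Affine
open FLTA.Elliptic

namespace FLTA.EllTorsion.Frob

universe v

variable {K : Type v} [Field K] [DecidableEq K] [IsAlgClosed K] {W : WeierstrassCurve.Affine K}
  [W.IsElliptic]

/-- Polynomials `F` in `x` represent the function `f` up to scalars, away from a finite set. -/
def TRep {n : ℕ} (f : W.Point → Fin n → K) (F : Fin n → K[X]) : Prop :=
  ∀ᶠ P : W.Point in Filter.cofinite,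
    ∃ c : K, c ≠ 0 ∧ ∀ i, (F i).eval (Weil.xc P) = c * f P i

/-- The polynomials have no common root. -/
def NoRoot {n : ℕ} (F : Fin n → K[X]) : Prop := ∀ r : K, ∃ i, (F i).eval r ≠ 0

/-- The polynomials have maximal degree `d`. -/
def TDeg {n : ℕ} (F : Fin n → K[X]) (d : ℕ) : Prop :=
  (∀ i, (F i).natDegree ≤ d) ∧ ∃ i, (F i).coeff d ≠ 0

theorem eventually_eval_ne_zero {g : K[X]} (hg : g ≠ 0) :
    ∀ᶠ P : W.Point in Filter.cofinite, g.eval (Weil.xc P) ≠ 0 := by
  have hne : CoordinateRing.mk W (C g) ≠ 0 := fun h => hg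
    ((FaithfulSMul.algebraMap_injective K[X] W.CoordinateRing) (h.trans (map_zero _).symm))
  filter_upwards [Weil.eventually_ev_ne_zero hne] with P hP
  rcases P with _ | ⟨x, y, h⟩
  · exact absurd rfl hP
  · rwa [Weil.ev_some, Weil.evalAt_mk_C] at hP

theorem eq_zero_of_eventually {g : K[X]}
    (h : ∀ᶠ P : W.Point in Filter.cofinite, g.eval (Weil.xc P) = 0) : g = 0 := by
  by_contra hg
  have := Weil.infinite_point (W := W)
  obtain ⟨P, h1, h2⟩ := (h.and (eventually_eval_ne_zero hg)).exists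
  exact h2 h1

theorem NoRoot.exists_sum_eq_one {n : ℕ} {F : Fin n → K[X]} (hF : NoRoot F) :
    ∃ u : Fin n → K[X], ∑ i, u i * F i = 1 := by
  have htop : Ideal.span (Set.range F) = ⊤ := by
    by_contra hne
    obtain ⟨M, hM, hle⟩ := Ideal.exists_le_maximal _ hne
    obtain ⟨m, rfl⟩ := (IsPrincipalIdealRing.principal M).principal
    rcases eq_or_ne m 0 with rfl | hm0
    · obtain ⟨i, hi⟩ := hF 0
      have := hle (Ideal.subset_span ⟨i, rfl⟩)
      rw [Ideal.submodule_span_eq, Ideal.mem_span_singleton, zero_dvd_iff] at this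
      exact hi (by rw [this, eval_zero])
    have hdeg : m.degree ≠ 0 := fun h => hM.ne_top <| by
      rw [Ideal.submodule_span_eq, Ideal.span_singleton_eq_top]
      exact isUnit_iff_degree_eq_zero.mpr h
    obtain ⟨r, hr⟩ := IsAlgClosed.exists_root m hdeg
    obtain ⟨i, hi⟩ := hF r
    have := hle (Ideal.subset_span ⟨i, rfl⟩)
    rw [Ideal.submodule_span_eq, Ideal.mem_span_singleton] at this
    obtain ⟨t, ht⟩ := this
    exact hi (by rw [ht, eval_mul, IsRoot.def.mp hr, zero_mul])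
  exact Ideal.mem_span_range_iff_exists_fun.mp ((Ideal.eq_top_iff_one _).mp htop)

theorem TRep.deg_eq {n : ℕ} {f : W.Point → Fin n → K} {F G : Fin n → K[X]} {d e : ℕ}
    (hF : TRep f F) (hG : TRep f G) (nF : NoRoot F) (nG : NoRoot G) (dF : TDeg F d)
    (dG : TDeg G e) : d = e := by
  have hcross : ∀ i j, F i * G j = G i * F j := by
    intro i j
    refine sub_eq_zero.mp (eq_zero_of_eventually (W := W) ?_)
    filter_upwards [hF, hG] with P ⟨a, _, ha⟩ ⟨b, _, hb⟩
    rw [eval_sub, eval_mul, eval_mul, ha, ha, hb, hb]; ring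
  obtain ⟨u, hu⟩ := nG.exists_sum_eq_one
  obtain ⟨w, hw⟩ := nF.exists_sum_eq_one
  set h := ∑ j, u j * F j with hh
  set h' := ∑ j, w j * G j with hh'
  have hFG : ∀ i, F i = G i * h := fun i => by
    calc F i = ∑ j, u j * G j * F i := by rw [← Finset.sum_mul, hu, one_mul]
      _ = _ := by
          rw [hh, Finset.mul_sum]
          exact Finset.sum_congr rfl fun j _ => by linear_combination (u j) * hcross i j
  have hunit : IsUnit h := by
    refine IsUnit.of_mul_eq_one h' ?_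
    calc h * h' = ∑ j, w j * (G j * h) := by
          rw [hh', Finset.mul_sum]; exact Finset.sum_congr rfl fun j _ => by ring
      _ = 1 := by simp only [← hFG]; exact hw
  obtain ⟨c, hc, hch⟩ := Polynomial.isUnit_iff.mp hunit
  have hc0 : c ≠ 0 := hc.ne_zero
  have hFG' : ∀ i, F i = C c * G i := fun i => by rw [hFG i, ← hch, mul_comm]
  refine le_antisymm ?_ ?_
  · obtain ⟨i, hi⟩ := dF.2
    refine (le_natDegree_of_ne_zero hi).trans ?_
    rw [hFG' i, natDegree_C_mul hc0]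
    exact dG.1 i
  · obtain ⟨i, hi⟩ := dG.2
    refine (le_natDegree_of_ne_zero hi).trans ?_
    rw [← natDegree_C_mul hc0, ← hFG' i]
    exact dF.1 i

/-- The abscissa of `ψ` has degree `d`. -/
def HasDeg (ψ : W.Point →+ W.Point) (d : ℕ) : Prop :=
  ∃ F : Fin 2 → K[X], TRep (fun P => (ψ P).xRep) F ∧ NoRoot F ∧ TDeg F d

theorem HasDeg.unique {ψ : W.Point →+ W.Point} {d e : ℕ} (h : HasDeg ψ d) (h' : HasDeg ψ e) :
    d = e := by
  obtain ⟨F, h1, h2, h3⟩ := h
  obtain ⟨G, g1, g2, g3⟩ := h'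
  exact h1.deg_eq g1 h2 g2 h3 g3

theorem hasDeg_zero : HasDeg (0 : W.Point →+ W.Point) 0 :=
  ⟨![1, 0], Filter.Eventually.of_forall fun P => ⟨1, one_ne_zero, fun i => by
      show _ = 1 * (0 : W.Point).xRep i
      rw [Point.xRep_zero]; fin_cases i <;> simp⟩,
    fun r => ⟨0, by simp⟩, ⟨fun i => by fin_cases i <;> simp, 0, by simp⟩⟩

theorem hasDeg_id : HasDeg (AddMonoidHom.id W.Point) 1 := by
  refine ⟨![X, 1], ?_, fun r => ⟨1, by simp⟩, ⟨fun i => by fin_cases i <;> simp, 0, by simp⟩⟩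
  filter_upwards [Weil.eventually_ne (W := W) 0] with P hP
  refine ⟨1, one_ne_zero, fun i => ?_⟩
  rcases P with _ | ⟨x, y, h⟩
  · exact absurd rfl hP
  · rw [AddMonoidHom.id_apply, Point.xRep_some]; fin_cases i <;> simp [Weil.xc]

theorem HasDeg.neg {ψ : W.Point →+ W.Point} {d : ℕ} (h : HasDeg ψ d) : HasDeg (-ψ) d := by
  obtain ⟨F, h1, h2, h3⟩ := h
  refine ⟨F, ?_, h2, h3⟩
  filter_upwards [h1] with P hP
  simpa only [AddMonoidHom.neg_apply, Point.xRep_neg] using hP

/-- Composition with a `q`-power map on points. -/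
theorem HasDeg.comp_pow {ψ Φ : W.Point →+ W.Point} {d q : ℕ} (hq : q ≠ 0) (h : HasDeg ψ d)
    (hΦ : ∀ P i, (Φ P).xRep i = P.xRep i ^ q) : HasDeg (Φ.comp ψ) (q * d) := by
  obtain ⟨F, h1, h2, h3, i, hi⟩ := h
  refine ⟨fun j => F j ^ q, ?_, fun r => ?_, fun j => ?_, i, ?_⟩
  · filter_upwards [h1] with P ⟨c, hc, hP⟩
    exact ⟨c ^ q, pow_ne_zero q hc, fun j => by
      rw [eval_pow, hP j, mul_pow, AddMonoidHom.comp_apply, hΦ]⟩
  · obtain ⟨j, hj⟩ := h2 r
    exact ⟨j, by rw [eval_pow]; exact pow_ne_zero q hj⟩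
  · exact natDegree_pow_le.trans (Nat.mul_le_mul_left q (h3 j))
  · rw [coeff_pow_of_natDegree_le (h3 i)]
    exact pow_ne_zero q hi

theorem hasDeg_of_rep {ψ : W.Point →+ W.Point} {F : Fin 2 → K[X]}
    (hF : TRep (fun P => (ψ P).xRep) F) : ∃ d, HasDeg ψ d := by
  classical
  have hne : F 0 ≠ 0 ∨ F 1 ≠ 0 := by
    by_contra h
    push Not at h
    have := Weil.infinite_point (W := W)
    obtain ⟨P, c, hc, hP⟩ := hF.exists
    refine Point.xRep_ne_zero (ψ P) (funext fun i => ?_)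
    have hi := hP i
    fin_cases i <;> simp [h.1, h.2] at hi <;> simpa [hc] using hi
  set g := gcd (F 0) (F 1)
  have hg0 : g ≠ 0 := fun hg => by
    rw [gcd_eq_zero_iff] at hg
    exact hne.elim (fun h => h hg.1) (fun h => h hg.2)
  obtain ⟨A, hA⟩ : g ∣ F 0 := gcd_dvd_left _ _
  obtain ⟨B, hB⟩ : g ∣ F 1 := gcd_dvd_right _ _
  have hcop : IsCoprime A B := by
    have h1 := gcd_isUnit_iff A B |>.mp ?_
    · exact h1
    have h2 : gcd (g * A) (g * B) = normalize g * gcd A B := gcd_mul_left g A B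
    rw [← hA, ← hB] at h2
    rw [show normalize g = g from normalize_gcd _ _] at h2
    have h3 : gcd A B = 1 := mul_left_cancel₀ hg0 (h2.symm.trans (mul_one g).symm)
    rw [h3]
    exact isUnit_one
  set G : Fin 2 → K[X] := ![A, B]
  have hGF : ∀ i, F i = g * G i := fun i => by fin_cases i <;> simp [G, ← hA, ← hB]
  have hGne : G 0 ≠ 0 ∨ G 1 ≠ 0 := hne.imp (fun h e => h (by rw [hGF, e, mul_zero]))
    (fun h e => h (by rw [hGF, e, mul_zero]))
  refine ⟨max (G 0).natDegree (G 1).natDegree, G, ?_, fun r => ?_, fun i => ?_, ?_⟩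
  · filter_upwards [hF, eventually_eval_ne_zero hg0] with P ⟨c, hc, hP⟩ hgP
    refine ⟨c / g.eval (Weil.xc P), div_ne_zero hc hgP, fun i => ?_⟩
    rw [div_mul_eq_mul_div, eq_div_iff hgP, ← hP i, hGF i, eval_mul, mul_comm]
  · obtain ⟨u, w, huw⟩ := hcop
    by_contra h
    push Not at h
    have := congrArg (eval r) huw
    simp only [eval_add, eval_mul, eval_one] at this
    rw [show A.eval r = 0 from h 0, show B.eval r = 0 from h 1] at this
    simp at this
  · fin_cases i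
    · exact le_max_left _ _
    · exact le_max_right _ _
  · rcases le_total (G 0).natDegree (G 1).natDegree with hle | hle
    · rw [max_eq_right hle]
      rcases eq_or_ne (G 1) 0 with h1 | h1
      · refine ⟨0, ?_⟩
        rw [h1, natDegree_zero] at hle ⊢
        have h0 := hGne.resolve_right (fun h => h h1)
        rw [← Nat.le_zero.mp hle]
        exact leadingCoeff_ne_zero.mpr h0
      · exact ⟨1, leadingCoeff_ne_zero.mpr h1⟩
    · rw [max_eq_left hle]
      rcases eq_or_ne (G 0) 0 with h0 | h0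
      · refine ⟨1, ?_⟩
        rw [h0, natDegree_zero] at hle ⊢
        have h1 := hGne.resolve_left (fun h => h h0)
        rw [← Nat.le_zero.mp hle]
        exact leadingCoeff_ne_zero.mpr h1
      · exact ⟨0, leadingCoeff_ne_zero.mpr h0⟩

/-- The symmetric square of two pairs. -/
noncomputable def sym2P (F G : Fin 2 → K[X]) : Fin 3 → K[X] :=
  ![F 0 * G 0, F 0 * G 1 + F 1 * G 0, F 1 * G 1]

theorem sym2_ne_zero {a b : Fin 2 → K} (ha : ∃ i, a i ≠ 0) (hb : ∃ i, b i ≠ 0) :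
    ∃ i, (![a 0 * b 0, a 0 * b 1 + a 1 * b 0, a 1 * b 1] : Fin 3 → K) i ≠ 0 := by
  by_contra h
  push Not at h
  have h0 := h 0; have h1 := h 1; have h2 := h 2
  simp at h0 h1 h2
  obtain ⟨i, hi⟩ := ha
  obtain ⟨j, hj⟩ := hb
  fin_cases i <;> fin_cases j <;> simp at hi hj <;> grind

theorem noRoot_sym2P {F G : Fin 2 → K[X]} (hF : NoRoot F) (hG : NoRoot G) :
    NoRoot (sym2P F G) := by
  intro r
  obtain ⟨i, hi⟩ := sym2_ne_zero (a := fun j => (F j).eval r) (b := fun j => (G j).eval r)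
    (hF r) (hG r)
  refine ⟨i, fun h => hi ?_⟩
  fin_cases i <;> simp [sym2P] at h ⊢ <;> simpa using h

theorem tdeg_sym2P {F G : Fin 2 → K[X]} {d e : ℕ} (hF : TDeg F d) (hG : TDeg G e) :
    TDeg (sym2P F G) (d + e) := by
  have hle : ∀ i j, (F i * G j).natDegree ≤ d + e := fun i j =>
    natDegree_mul_le.trans (Nat.add_le_add (hF.1 i) (hG.1 j))
  have hco : ∀ i j, (F i * G j).coeff (d + e) = (F i).coeff d * (G j).coeff e := fun i j =>
    coeff_mul_add_eq_of_natDegree_le (hF.1 i) (hG.1 j)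
  refine ⟨fun i => ?_, ?_⟩
  · fin_cases i
    · exact hle 0 0
    · exact natDegree_add_le_of_degree_le (hle 0 1) (hle 1 0)
    · exact hle 1 1
  · obtain ⟨i, hi⟩ := sym2_ne_zero (a := fun j => (F j).coeff d) (b := fun j => (G j).coeff e)
      hF.2 hG.2
    refine ⟨i, fun h => hi ?_⟩
    fin_cases i <;> simp [sym2P, hco] at h ⊢ <;> simpa using h

theorem TRep.sym2 {ψ χ : W.Point →+ W.Point} {F G : Fin 2 → K[X]}
    (hF : TRep (fun P => (ψ P).xRep) F) (hG : TRep (fun P => (χ P).xRep) G) :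
    TRep (fun P => (ψ P).sym2x (χ P)) (sym2P F G) := by
  filter_upwards [hF, hG] with P ⟨a, ha, hFP⟩ ⟨b, hb, hGP⟩
  refine ⟨a * b, mul_ne_zero ha hb, fun i => ?_⟩
  fin_cases i <;> simp [sym2P, Point.sym2x, hFP, hGP] <;> ring

/-- `addSubMap` on polynomials. -/
noncomputable def addSubP (W : WeierstrassCurve.Affine K) (S : Fin 3 → K[X]) : Fin 3 → K[X] :=
  ![S 0 * S 0 + C (-W.b₄) * (S 0 * S 2) + C (-W.b₆) * (S 1 * S 2) + C (-W.b₈) * (S 2 * S 2),
    C 2 * (S 1 * S 0) + C W.b₂ * (S 0 * S 2) + C W.b₄ * (S 1 * S 2) + C W.b₆ * (S 2 * S 2),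
    S 1 * S 1 + C (-4) * (S 0 * S 2)]

theorem eval_addSubP (S : Fin 3 → K[X]) (r : K) (i : Fin 3) :
    (addSubP W S i).eval r = (W.addSubMap i).eval (fun j => (S j).eval r) := by
  fin_cases i <;> simp [addSubP, WeierstrassCurve.addSubMap] <;> ring

theorem coeff_addSubP {S : Fin 3 → K[X]} {d : ℕ} (hS : ∀ i, (S i).natDegree ≤ d) (i : Fin 3) :
    (addSubP W S i).coeff (d + d) = (W.addSubMap i).eval (fun j => (S j).coeff d) := by
  have h : ∀ i j, (S i * S j).coeff (d + d) = (S i).coeff d * (S j).coeff d := fun i j =>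
    coeff_mul_add_eq_of_natDegree_le (hS i) (hS j)
  fin_cases i <;> simp [addSubP, WeierstrassCurve.addSubMap, h, coeff_C_mul] <;> ring

theorem natDegree_addSubP {S : Fin 3 → K[X]} {d : ℕ} (hS : ∀ i, (S i).natDegree ≤ d) (i : Fin 3) :
    (addSubP W S i).natDegree ≤ d + d := by
  have h : ∀ i j, (S i * S j).natDegree ≤ d + d := fun i j =>
    natDegree_mul_le.trans (Nat.add_le_add (hS i) (hS j))
  have hC : ∀ c i j, (C c * (S i * S j)).natDegree ≤ d + d := fun c i j =>
    (natDegree_C_mul_le c _).trans (h i j)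
  fin_cases i
  · exact natDegree_add_le_of_degree_le (natDegree_add_le_of_degree_le
      (natDegree_add_le_of_degree_le (h 0 0) (hC _ 0 2)) (hC _ 1 2)) (hC _ 2 2)
  · exact natDegree_add_le_of_degree_le (natDegree_add_le_of_degree_le
      (natDegree_add_le_of_degree_le (hC _ 1 0) (hC _ 0 2)) (hC _ 1 2)) (hC _ 2 2)
  · exact natDegree_add_le_of_degree_le (h 1 1) (hC _ 0 2)

/-- The parallelogram law: also gives that `ψ + χ` has a degree when `ψ`, `χ`, `ψ - χ` do. -/
theorem parallelogram {ψ χ : W.Point →+ W.Point} {a b m : ℕ}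
    (hψ : HasDeg ψ a) (hχ : HasDeg χ b) (hm : HasDeg (ψ - χ) m) :
    HasDeg (ψ + χ) (2 * a + 2 * b - m) ∧ m ≤ 2 * a + 2 * b := by
  obtain ⟨F, F1, F2, F3⟩ := hψ
  obtain ⟨G, G1, G2, G3⟩ := hχ
  obtain ⟨B, B1, B2, B3⟩ := hm
  set S := addSubP W (sym2P F G)
  have S1 : TRep (fun P => ((ψ + χ) P).sym2x ((ψ - χ) P)) S := by
    filter_upwards [F1.sym2 G1] with P ⟨c, hc, hP⟩
    obtain ⟨e, he, heP'⟩ := FLTA.EllTorsion.exists_addSubMap_sym2x (ψ P) (χ P)
    have heP : ∀ i, (W.addSubMap i).eval ((ψ P).sym2x (χ P)) =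
        e * (ψ P + χ P).sym2x (ψ P - χ P) i := fun i => congrFun heP' i
    refine ⟨c ^ 2 * e, mul_ne_zero (pow_ne_zero 2 hc) he, fun i => ?_⟩
    rw [eval_addSubP, AddMonoidHom.add_apply, AddMonoidHom.sub_apply, mul_assoc, ← heP i]
    have : (fun j => (sym2P F G j).eval (Weil.xc P)) = c • (ψ P).sym2x (χ P) :=
      funext fun j => hP j
    rw [this]
    fin_cases i <;> simp [WeierstrassCurve.addSubMap] <;> ring
  have S2 : NoRoot S := fun r => by
    obtain ⟨j, hj⟩ := noRoot_sym2P F2 G2 r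
    obtain ⟨i, hi⟩ := Function.ne_iff.mp (W.addSubMap_ne_zero
      (x := fun j => (sym2P F G j).eval r) (Function.ne_iff.mpr ⟨j, hj⟩))
    exact ⟨i, by rw [eval_addSubP]; exact hi⟩
  have S3 : TDeg S ((a + b) + (a + b)) := by
    refine ⟨natDegree_addSubP (tdeg_sym2P F3 G3).1, ?_⟩
    obtain ⟨j, hj⟩ := (tdeg_sym2P F3 G3).2
    obtain ⟨i, hi⟩ := Function.ne_iff.mp (W.addSubMap_ne_zero
      (x := fun j => (sym2P F G j).coeff (a + b)) (Function.ne_iff.mpr ⟨j, hj⟩))
    exact ⟨i, by rw [coeff_addSubP (tdeg_sym2P F3 G3).1]; exact hi⟩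
  obtain ⟨d, hd⟩ : ∃ d, HasDeg (ψ + χ) d := by
    by_cases hB : B 1 = 0
    · refine hasDeg_of_rep (F := ![S 0, S 1]) ?_
      filter_upwards [S1, B1] with P ⟨c, hc, hS⟩ ⟨e, he, hBP⟩
      have h1 : ((ψ - χ) P).xRep 1 = 0 := by
        have h := hBP 1
        rw [hB, eval_zero] at h
        exact (mul_eq_zero.mp h.symm).resolve_left he
      have h0 : ((ψ - χ) P).xRep 0 ≠ 0 := fun h0 =>
        Point.xRep_ne_zero ((ψ - χ) P) (funext fun i => by fin_cases i <;> simpa using ‹_›)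
      refine ⟨c * ((ψ - χ) P).xRep 0, mul_ne_zero hc h0, fun i => ?_⟩
      fin_cases i
      · simp [hS, Point.sym2x]; ring
      · have h1' : (ψ P - χ P).xRep 1 = 0 := h1
        simp [hS, Point.sym2x, h1']; ring
    · refine hasDeg_of_rep (F := ![S 1 * B 1 - S 2 * B 0, S 2 * B 1]) ?_
      filter_upwards [S1, B1, eventually_eval_ne_zero hB] with P ⟨c, hc, hS⟩ ⟨e, he, hBP⟩ hB1
      have h1 : ((ψ - χ) P).xRep 1 ≠ 0 := fun h => hB1 (by rw [hBP, h, mul_zero])
      refine ⟨c * e * ((ψ - χ) P).xRep 1 ^ 2,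
        mul_ne_zero (mul_ne_zero hc he) (pow_ne_zero 2 h1), fun i => ?_⟩
      fin_cases i <;> simp [hS, hBP, Point.sym2x] <;> ring
  obtain ⟨D, D1, D2, D3⟩ := hd
  have h := (D1.sym2 B1).deg_eq S1 (noRoot_sym2P D2 B2) S2 (tdeg_sym2P D3 B3) S3
  exact ⟨(show d = 2 * a + 2 * b - m by omega) ▸ ⟨D, D1, D2, D3⟩, by omega⟩

end FLTA.EllTorsion.Frob
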