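import Fermat.Agent.EllTorsion.FrobDegree
import Fermat.Agent.EllTorsion.WeilGalois
import Mathlib.FieldTheory.Separable

set_option autoImplicit false
set_option linter.unusedSectionVars false

/-!
# Manin's count: the abscissa of `φ P - P` has degree equal to the number of fixed points
-/

open Polynomial
open scoped Polynomial.Bivariate
open WeierstrassCurve WeierstrassCurve.Affine
open FLTA.Elliptic

namespace FLTA.EllTorsion.Frob

universe v

/-- A power map `x ↦ x ^ Q` which is a ring endomorphism fixing the curve, with `Q = 2 e + 1`. -/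
structure PowData {K : Type v} [Field K] [DecidableEq K] (W : WeierstrassCurve.Affine K)
    (Q e : ℕ) : Type v where
  σ : K →+* K
  apply_eq : ∀ x, σ x = x ^ Q
  map_eq : W.map σ = W
  Φ : W.Point →+ W.Point
  isPointMap : Weil.IsPointMap σ Φ
  two_ne_zero : (2 : K) ≠ 0
  odd_eq : Q = 2 * e + 1
  pos : 0 < e
  cast_eq_zero : (Q : K) = 0

namespace PowData

variable {K : Type v} [Field K] [DecidableEq K] {W : WeierstrassCurve.Affine K} {Q e : ℕ}
  (D : PowData W Q e)

/-- The cubic `g` with `η ^ 2 = g(x)`. -/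
noncomputable def gP (W : WeierstrassCurve.Affine K) : K[X] :=
  C 4 * X ^ 3 + C W.b₂ * X ^ 2 + C (2 * W.b₄) * X + C W.b₆

theorem eval_gP (W : WeierstrassCurve.Affine K) (r : K) : (gP W).eval r = gOf W r := by
  simp [gP, gOf]

include D

theorem two_le : 2 ≤ Q := by have := D.odd_eq; have := D.pos; omega

theorem four_ne_zero : (4 : K) ≠ 0 := by
  rw [show (4 : K) = 2 * 2 by norm_num]; exact mul_ne_zero D.two_ne_zero D.two_ne_zero

theorem fix_coeff : D.σ W.a₁ = W.a₁ ∧ D.σ W.a₂ = W.a₂ ∧ D.σ W.a₃ = W.a₃ ∧ D.σ W.a₄ = W.a₄ ∧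
    D.σ W.a₆ = W.a₆ :=
  ⟨congrArg WeierstrassCurve.a₁ D.map_eq, congrArg WeierstrassCurve.a₂ D.map_eq,
    congrArg WeierstrassCurve.a₃ D.map_eq, congrArg WeierstrassCurve.a₄ D.map_eq,
    congrArg WeierstrassCurve.a₆ D.map_eq⟩

theorem map_gOf (x : K) : D.σ (gOf W x) = gOf W (D.σ x) := by
  obtain ⟨h1, h2, h3, h4, h6⟩ := D.fix_coeff
  simp [gOf, b₂, b₄, b₆, h1, h2, h3, h4, h6, map_ofNat]

theorem map_etaOf (x y : K) : D.σ (etaOf W x y) = etaOf W (D.σ x) (D.σ y) := by
  obtain ⟨h1, _, h3, _, _⟩ := D.fix_coeff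
  simp [etaOf, h1, h3, map_ofNat]

theorem etaOf_pow {x y : K} (h : W.Equation x y) :
    etaOf W (D.σ x) (D.σ y) = etaOf W x y * gOf W x ^ e := by
  rw [← D.map_etaOf, D.apply_eq, D.odd_eq, pow_succ', pow_mul, etaOf_sq h]

omit D in
theorem etaOf_negY (x y : K) : etaOf W x (W.negY x y) = -etaOf W x y := by
  simp only [etaOf, negY]; ring

theorem eq_of_etaOf_eq {x y y' : K} (h : etaOf W x y = etaOf W x y') : y = y' := by
  simp only [etaOf] at h
  exact mul_left_cancel₀ D.two_ne_zero (by linear_combination h)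

theorem separable_rootPoly : (X ^ Q - X : K[X]).Separable := by
  have h : derivative (X ^ Q - X : K[X]) = -1 := by
    rw [derivative_sub, derivative_X_pow, D.cast_eq_zero, derivative_X, map_zero, zero_mul,
      zero_sub]
  rw [Separable, h]
  exact isCoprime_one_right.neg_right

variable [IsAlgClosed K]

/-- The abscissae fixed by the power map. -/
noncomputable abbrev fixedSet (_D : PowData W Q e) : Finset K :=
  (X ^ Q - X : K[X]).roots.toFinset

theorem degree_X_lt : (X : K[X]).degree < Q := by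
  rw [degree_X]; exact_mod_cast (D.two_le : 1 < Q)

theorem monic_rootPoly : (X ^ Q - X : K[X]).Monic := monic_X_pow_sub D.degree_X_lt

theorem natDegree_rootPoly : (X ^ Q - X : K[X]).natDegree = Q := by
  refine natDegree_eq_of_degree_eq_some ?_
  rw [degree_sub_eq_left_of_degree_lt (by rw [degree_X_pow]; exact D.degree_X_lt), degree_X_pow]

theorem mem_fixedSet {r : K} : r ∈ D.fixedSet ↔ D.σ r = r := by
  show r ∈ (X ^ Q - X : K[X]).roots.toFinset ↔ _
  rw [Multiset.mem_toFinset, mem_roots D.monic_rootPoly.ne_zero, IsRoot.def, eval_sub,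
    eval_pow, eval_X, D.apply_eq, sub_eq_zero]

theorem card_fixedSet : D.fixedSet.card = Q := by
  show (X ^ Q - X : K[X]).roots.toFinset.card = Q
  rw [Multiset.toFinset_card_of_nodup (nodup_roots D.separable_rootPoly),
    IsAlgClosed.card_roots_eq_natDegree, D.natDegree_rootPoly]

theorem prod_fixedSet : ∏ r ∈ D.fixedSet, (X - C r) = X ^ Q - X := by
  show ∏ r ∈ (X ^ Q - X : K[X]).roots.toFinset, (X - C r) = _
  rw [Finset.prod, Multiset.toFinset_val,
    Multiset.dedup_eq_self.mpr (nodup_roots D.separable_rootPoly)]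
  exact ((IsAlgClosed.splits _).eq_prod_roots_of_monic D.monic_rootPoly).symm

/-- The multiplicity of cancellation at a fixed abscissa. -/
noncomputable def mult (_D : PowData W Q e) (r : K) : ℕ :=
  if gOf W r = 0 then 1 else if gOf W r ^ e = -1 then 2 else 0

theorem mult_le (r : K) : D.mult r ≤ 2 := by
  unfold mult; split_ifs <;> omega

theorem pow_cases {r : K} (hr : r ∈ D.fixedSet) (h0 : gOf W r ≠ 0) :
    gOf W r ^ e = 1 ∨ gOf W r ^ e = -1 := by
  have h := D.map_gOf r
  rw [D.mem_fixedSet.mp hr, D.apply_eq, D.odd_eq, pow_succ] at h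
  exact sq_eq_one_iff.mp (by rw [← pow_mul, mul_comm]; exact (mul_eq_right₀ h0).mp h)

/-- The numerator of `4 (x ^ Q - x) ^ 2 * x(φ P - P)`. -/
noncomputable def rawNum (_D : PowData W Q e) : K[X] :=
  gP W * (gP W ^ e + 1) ^ 2 - (C W.b₂ + C 4 * X ^ Q + C 4 * X) * (X ^ Q - X) ^ 2

/-- The cancelled factor. -/
noncomputable def cancelled : K[X] := ∏ r ∈ D.fixedSet, (X - C r) ^ D.mult r

/-- The reduced denominator. -/
noncomputable def den : K[X] := C 4 * ∏ r ∈ D.fixedSet, (X - C r) ^ (2 - D.mult r)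

theorem cancelled_mul_den : D.cancelled * D.den = C 4 * (X ^ Q - X) ^ 2 := by
  rw [cancelled, den, mul_left_comm, ← Finset.prod_mul_distrib, ← D.prod_fixedSet,
    ← Finset.prod_pow]
  congr 1
  refine Finset.prod_congr rfl fun r _ => ?_
  rw [← pow_add, Nat.add_sub_cancel' (D.mult_le r)]

theorem eval_rawNum {r : K} (hr : r ∈ D.fixedSet) :
    D.rawNum.eval r = gOf W r * (gOf W r ^ e + 1) ^ 2 := by
  have h := D.mem_fixedSet.mp hr
  rw [D.apply_eq] at h
  simp [rawNum, eval_gP, h]

theorem dvd_rawNum : D.cancelled ∣ D.rawNum := by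
  refine Finset.prod_dvd_of_coprime (fun a _ b _ hab => ?_) fun r hr => ?_
  · exact ((pairwise_coprime_X_sub_C Function.injective_id) hab).pow
  have hT : X - C r ∣ (X ^ Q - X : K[X]) := by
    rw [← D.prod_fixedSet]; exact Finset.dvd_prod_of_mem _ hr
  unfold mult
  split_ifs with h0 h1
  · rw [pow_one, dvd_iff_isRoot, IsRoot.def, D.eval_rawNum hr, h0, zero_mul]
  · refine dvd_sub (Dvd.dvd.mul_left (pow_dvd_pow_of_dvd ?_ 2) _)
      (Dvd.dvd.mul_left (pow_dvd_pow_of_dvd hT 2) _)
    rw [dvd_iff_isRoot, IsRoot.def, eval_add, eval_pow, eval_gP, h1, eval_one, neg_add_cancel]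
  · rw [pow_zero]; exact one_dvd _

/-- The reduced numerator. -/
noncomputable def num : K[X] := D.dvd_rawNum.choose

theorem cancelled_mul_num : D.cancelled * D.num = D.rawNum := D.dvd_rawNum.choose_spec.symm

theorem natDegree_cancelled : D.cancelled.natDegree = ∑ r ∈ D.fixedSet, D.mult r := by
  rw [cancelled, natDegree_prod _ _ fun r _ => pow_ne_zero _ (X_sub_C_ne_zero r)]
  simp [natDegree_pow]

theorem cancelled_ne_zero : D.cancelled ≠ 0 :=
  Finset.prod_ne_zero_iff.mpr fun r _ => pow_ne_zero _ (X_sub_C_ne_zero r)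

theorem sum_mult_le : ∑ r ∈ D.fixedSet, D.mult r ≤ 2 * Q := by
  refine (Finset.sum_le_sum fun r _ => D.mult_le r).trans ?_
  rw [Finset.sum_const, D.card_fixedSet, smul_eq_mul, mul_comm]

theorem rawNum_eq : D.rawNum = C 4 * X ^ (2 * Q + 1) +
    (C 4 * X ^ (Q + 2) + C (2 * W.b₂) * X ^ (Q + 1) + C (2 * W.b₄) * X ^ Q + C W.b₆
      + C 2 * gP W ^ (e + 1) + (gP W - C 4 * X ^ 3 - C W.b₂ * X ^ 2)) := by
  have key : gP W * gP W ^ (2 * e) = C 4 * X ^ (3 * Q) + C W.b₂ * X ^ (2 * Q)
      + C (2 * W.b₄) * X ^ Q + C W.b₆ := by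
    rw [← pow_succ', ← D.odd_eq]
    have h1 : (gP W ^ Q).map (RingHom.id K) = _ := rfl
    haveI : Fact (1 < Q) := ⟨D.two_le⟩
    refine Polynomial.funext fun x => ?_
    obtain ⟨_, _, _, _, _⟩ := D.fix_coeff
    rw [eval_pow, eval_gP, ← D.apply_eq, D.map_gOf, D.apply_eq, gOf]
    simp only [eval_add, eval_mul, eval_C, eval_pow, eval_X]
    ring
  rw [rawNum]
  simp only [map_mul, map_ofNat] at key ⊢
  linear_combination key

theorem natDegree_rawNum : D.rawNum.natDegree = 2 * Q + 1 := by
  have h2 := D.two_le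
  have hQ := D.odd_eq
  have he := D.pos
  rw [D.rawNum_eq, natDegree_add_eq_left_of_natDegree_lt, natDegree_C_mul_X_pow _ _ D.four_ne_zero]
  rw [natDegree_C_mul_X_pow _ _ D.four_ne_zero]
  have hg : (gP W).natDegree ≤ 3 := by rw [gP]; compute_degree
  have hgp : (C 2 * gP W ^ (e + 1)).natDegree ≤ 2 * Q := by
    refine (natDegree_C_mul_le _ _).trans (natDegree_pow_le.trans ?_)
    calc (e + 1) * (gP W).natDegree ≤ (e + 1) * 3 := Nat.mul_le_mul_left _ hg
      _ ≤ 2 * Q := by omega
  refine Nat.lt_succ_of_le (natDegree_add_le_of_degree_le (natDegree_add_le_of_degree_le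
    (natDegree_add_le_of_degree_le (natDegree_add_le_of_degree_le (natDegree_add_le_of_degree_le
      ((natDegree_C_mul_X_pow_le _ _).trans (by omega))
      ((natDegree_C_mul_X_pow_le _ _).trans (by omega)))
      ((natDegree_C_mul_X_pow_le _ _).trans (by omega)))
      (by rw [natDegree_C]; omega)) hgp) ?_)
  rw [gP]
  refine (show _ ≤ 3 by compute_degree).trans (by omega)

/-- The number of fixed points. -/
noncomputable def fixCount : ℕ := 1 + ∑ r ∈ D.fixedSet, (2 - D.mult r)

theorem fixCount_add : D.fixCount + ∑ r ∈ D.fixedSet, D.mult r = 2 * Q + 1 := by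
  rw [fixCount, add_assoc, ← Finset.sum_add_distrib,
    Finset.sum_congr rfl (fun r _ => Nat.sub_add_cancel (D.mult_le r)), Finset.sum_const,
    D.card_fixedSet, smul_eq_mul]
  ring

theorem natDegree_num : D.num.natDegree = D.fixCount := by
  have h := D.natDegree_rawNum
  have hn : D.num ≠ 0 := fun h0 => by
    rw [← D.cancelled_mul_num, h0, mul_zero, natDegree_zero] at h; omega
  rw [← D.cancelled_mul_num, natDegree_mul D.cancelled_ne_zero hn, D.natDegree_cancelled] at h
  have := D.fixCount_add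
  omega

theorem natDegree_den_le : D.den.natDegree + 1 ≤ D.fixCount := by
  rw [den, natDegree_C_mul D.four_ne_zero,
    natDegree_prod _ _ fun r _ => pow_ne_zero _ (X_sub_C_ne_zero r), fixCount, add_comm 1]
  simp [natDegree_pow]

theorem eval_derivative_gP_ne_zero [W.IsElliptic] {r : K} (h0 : gOf W r = 0) :
    (derivative (gP W)).eval r ≠ 0 := by
  set y := -(W.a₁ * r + W.a₃) / 2 with hy
  have h2 := D.two_ne_zero
  have hη : etaOf W r y = 0 := by simp only [etaOf, hy]; field_simp; ring
  have heq : W.Equation r y := by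
    rw [Affine.equation_iff]
    simp only [gOf, b₂, b₄, b₆] at h0
    simp only [etaOf] at hη
    refine mul_left_cancel₀ D.four_ne_zero ?_
    linear_combination (2 * y + W.a₁ * r + W.a₃) * hη - h0
  rcases ((Affine.nonsingular_iff ..).mp (Weil.nonsingular_of_equation heq)).2 with hx | hy'
  · intro hd
    apply hx
    simp [gP] at hd
    simp only [b₂, b₄] at hd
    simp only [etaOf] at hη
    refine mul_left_cancel₀ D.four_ne_zero ?_
    linear_combination (2 * W.a₁) * hη - hd
  · exact absurd (by simp only [etaOf] at hη; linear_combination hη) hy'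

theorem noRoot [W.IsElliptic] : NoRoot ![D.num, D.den] := by
  intro r
  by_cases hden : D.den.eval r = 0
  · refine ⟨0, ?_⟩
    show D.num.eval r ≠ 0
    intro hnum
    rw [den, eval_mul, eval_C, mul_eq_zero, eval_prod, Finset.prod_eq_zero_iff] at hden
    obtain ⟨s, hs, hs'⟩ := hden.resolve_left D.four_ne_zero
    rw [eval_pow, eval_sub, eval_X, eval_C] at hs'
    obtain ⟨hm, rfl⟩ : 2 - D.mult s ≠ 0 ∧ r = s := by
      refine ⟨fun h => by simp [h] at hs', sub_eq_zero.mp (pow_eq_zero_iff'.mp hs').1⟩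
    have hraw := D.eval_rawNum hs
    unfold mult at hm
    split_ifs at hm with h0 h1
    · have hdvd : (X - C r) ^ 2 ∣ D.rawNum := by
        rw [← D.cancelled_mul_num, sq]
        refine mul_dvd_mul ?_ (dvd_iff_isRoot.mpr hnum)
        refine dvd_trans ?_ (Finset.dvd_prod_of_mem _ hs)
        rw [show D.mult r = 1 by unfold mult; rw [if_pos h0], pow_one]
      obtain ⟨t, ht⟩ := hdvd
      have hd := congrArg (fun f => (derivative f).eval r) ht
      have hr := D.mem_fixedSet.mp hs
      rw [D.apply_eq] at hr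
      simp [rawNum, derivative_pow, eval_gP, h0, hr, zero_pow D.pos.ne'] at hd
      exact D.eval_derivative_gP_ne_zero h0 hd
    · omega
    · rw [← D.cancelled_mul_num, eval_mul, hnum, mul_zero,
        (D.pow_cases hs h0).resolve_right h1] at hraw
      rcases mul_eq_zero.mp hraw.symm with h | h
      · exact h0 h
      · exact D.two_ne_zero (by linear_combination pow_eq_zero_iff _root_.two_ne_zero |>.mp h)
  · exact ⟨1, hden⟩

theorem eval_cancelled_ne_zero {x : K} (hx : x ∉ D.fixedSet) : D.cancelled.eval x ≠ 0 := by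
  rw [cancelled, eval_prod, Finset.prod_ne_zero_iff]
  intro r hr
  rw [eval_pow, eval_sub, eval_X, eval_C]
  exact pow_ne_zero _ (sub_ne_zero.mpr fun h => hx (h ▸ hr))

/-- The abscissa of `φ P - P` away from the fixed abscissae. -/
theorem exists_sub_eq_some {x y : K} (h : W.Nonsingular x y) (hx : x ∉ D.fixedSet) :
    ∃ x' y', ∃ h', (D.Φ - AddMonoidHom.id W.Point) (Point.some x y h) = Point.some x' y' h' ∧
      D.den.eval x * x' = D.num.eval x ∧ D.den.eval x ≠ 0 := by
  obtain ⟨hn, hΦ⟩ := D.isPointMap x y h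
  have hne : D.σ x ≠ x := fun e => hx (D.mem_fixedSet.mpr e)
  refine ⟨_, _, nonsingular_add hn ((nonsingular_neg ..).mpr h) fun e => hne e.1, ?_, ?_⟩
  · rw [AddMonoidHom.sub_apply, AddMonoidHom.id_apply, hΦ, sub_eq_add_neg, Point.neg_some,
      Point.add_of_X_ne hne]
  have hd : x ^ Q - x ≠ 0 := sub_ne_zero.mpr (by rw [← D.apply_eq]; exact hne)
  have hg := etaOf_sq h.1
  have hη := D.etaOf_pow h.1
  rw [D.apply_eq] at hη hne ⊢
  have key : 4 * (x ^ Q - x) ^ 2 * W.addX (x ^ Q) x (W.slope (x ^ Q) x (D.σ y) (W.negY x y)) =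
      (etaOf W (x ^ Q) (D.σ y) - etaOf W x (W.negY x y)) ^ 2
        - (W.b₂ + 4 * x ^ Q + 4 * x) * (x ^ Q - x) ^ 2 := by
    have h2 := D.two_ne_zero
    rw [slope_of_X_ne hne]
    simp only [addX, etaOf, b₂]
    field_simp
    ring
  rw [hη, etaOf_negY] at key
  have hcd := congrArg (eval x) D.cancelled_mul_den
  have hcn := congrArg (eval x) D.cancelled_mul_num
  simp only [eval_mul, eval_C, eval_pow, eval_sub, eval_X] at hcd
  simp only [rawNum, eval_mul, eval_C, eval_pow, eval_sub, eval_X, eval_add, eval_gP,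
    eval_one] at hcn
  refine ⟨mul_left_cancel₀ (D.eval_cancelled_ne_zero hx) ?_, fun h0 => ?_⟩
  · rw [← mul_assoc, hcd, hcn, key]
    linear_combination (gOf W x ^ e + 1) ^ 2 * hg
  · rw [h0, mul_zero] at hcd
    exact mul_ne_zero D.four_ne_zero (pow_ne_zero 2 hd) hcd.symm

theorem hasDeg_sub_id [W.IsElliptic] :
    HasDeg (D.Φ - AddMonoidHom.id W.Point) D.fixCount := by
  refine ⟨![D.num, D.den], ?_, D.noRoot, fun i => ?_, 0, ?_⟩
  · filter_upwards [eventually_eval_ne_zero (W := W) D.monic_rootPoly.ne_zero,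
      Weil.eventually_ne (W := W) 0] with P hP hP0
    rcases P with _ | ⟨x, y, h⟩
    · exact absurd rfl hP0
    have hx : x ∉ D.fixedSet := fun hx => by
      rw [D.mem_fixedSet, D.apply_eq] at hx
      simp [Weil.xc, hx] at hP
    obtain ⟨x', y', h', he, hx', hd⟩ := D.exists_sub_eq_some h hx
    refine ⟨D.den.eval x, hd, fun i => ?_⟩
    show eval x (![D.num, D.den] i) = _
    show _ = _ * ((D.Φ - AddMonoidHom.id W.Point) (Point.some x y h)).xRep i
    rw [he]
    fin_cases i <;> simp [hx']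
  · fin_cases i
    · exact D.natDegree_num.le
    · exact le_trans (Nat.le_succ _) D.natDegree_den_le
  · show D.num.coeff D.fixCount ≠ 0
    rw [← D.natDegree_num]
    exact leadingCoeff_ne_zero.mpr fun h0 => by
      have := D.natDegree_num; have h1 := D.natDegree_den_le
      rw [h0, natDegree_zero] at this
      omega

theorem surjective_sub_id [W.IsElliptic] :
    Function.Surjective (D.Φ - AddMonoidHom.id W.Point) := by
  set ψ := D.Φ - AddMonoidHom.id W.Point with hψ
  have hgen : ∀ᶠ Yp : W.Point in Filter.cofinite, ∃ P, ψ P = Yp := by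
    have hbad : (∏ r ∈ D.fixedSet, (C (D.den.eval r) * X - C (D.num.eval r))) ≠ 0 := by
      refine Finset.prod_ne_zero_iff.mpr fun r _ h0 => ?_
      obtain ⟨i, hi⟩ := D.noRoot r
      have e1 := congrArg (fun f => coeff f 1) h0
      have e0 := congrArg (fun f => coeff f 0) h0
      simp at e1 e0
      fin_cases i <;> simp at hi <;> contradiction
    filter_upwards [eventually_eval_ne_zero (W := W) hbad, Weil.eventually_ne (W := W) 0]
      with Yp hY hY0
    rcases Yp with _ | ⟨c, d, hY'⟩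
    · exact absurd rfl hY0
    have hdeg : (D.num - C c * D.den).degree ≠ 0 := by
      have hlt : (C c * D.den).natDegree < D.num.natDegree := by
        rw [D.natDegree_num]
        exact lt_of_lt_of_le (Nat.lt_succ_of_le (natDegree_C_mul_le _ _)) D.natDegree_den_le
      intro h0
      have := natDegree_eq_zero_iff_degree_le_zero.mpr h0.le
      rw [natDegree_sub_eq_left_of_natDegree_lt hlt] at this
      omega
    obtain ⟨x, hx⟩ := IsAlgClosed.exists_root _ hdeg
    rw [IsRoot.def, eval_sub, eval_mul, eval_C, sub_eq_zero] at hx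
    have hxR : x ∉ D.fixedSet := fun hxR => hY (by
      rw [eval_prod]
      refine Finset.prod_eq_zero hxR ?_
      show (C (D.den.eval x) * X - C (D.num.eval x)).eval c = 0
      rw [eval_sub, eval_mul, eval_C, eval_C, eval_X, hx]; ring)
    obtain ⟨y, hy⟩ := Weil.exists_equation (W := W) x
    obtain ⟨x', y', h', he, hx', hd⟩ :=
      D.exists_sub_eq_some (Weil.nonsingular_of_equation hy) hxR
    have hc : x' = c := mul_left_cancel₀ hd (by rw [hx', hx, mul_comm])
    rcases (Point.X_eq_iff (h₁ := h') (h₂ := hY')).mp hc with e | e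
    · exact ⟨_, he.trans e⟩
    · exact ⟨-Point.some _ _ (Weil.nonsingular_of_equation hy),
        by rw [hψ, map_neg, he, e, neg_neg]⟩
  intro Yp
  have := Weil.infinite_point (W := W)
  obtain ⟨Z, ⟨P, hP⟩, P', hP'⟩ := (hgen.and (Weil.eventually_sub (-Yp) hgen)).exists
  exact ⟨P' - P, by rw [map_sub, hP', hP, sub_neg_eq_add, add_sub_cancel_left]⟩

end PowData

end FLTA.EllTorsion.Frob
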