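import Fermat.Agent.EllTorsion.FrobCount
import Mathlib.GroupTheory.QuotientGroup.Basic
import Mathlib.GroupTheory.Coset.Card

set_option autoImplicit false
set_option linter.unusedSectionVars false

/-!
# The degree is a quadratic form, and `2 (φ ^ 2 - a φ + q) = 0`
-/

open Polynomial
open scoped Polynomial.Bivariate
open WeierstrassCurve WeierstrassCurve.Affine
open FLTA.Elliptic

namespace FLTA.EllTorsion.Frob

universe v

variable {K : Type v} [Field K] [DecidableEq K] [IsAlgClosed K] {W : WeierstrassCurve.Affine K}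
  [W.IsElliptic]

local notation "E" => (W.Point →+ W.Point)

/-- The degree along a line is quadratic. -/
theorem hasDeg_line {v w : E} {a b m : ℕ} (hv : HasDeg v a) (hw : HasDeg w b)
    (hm : HasDeg (v - w) m) (n : ℤ) :
    ∃ d : ℕ, HasDeg (v + n • w) d ∧ (d : ℤ) = a + n * (a + b - m) + n ^ 2 * b := by
  have key : ∀ n : ℤ, (∃ d : ℕ, HasDeg (v + n • w) d ∧ (d : ℤ) = a + n * (a + b - m) + n ^ 2 * b) ∧
      ∃ d : ℕ, HasDeg (v + (n - 1) • w) d ∧
        (d : ℤ) = a + (n - 1) * (a + b - m) + (n - 1) ^ 2 * b := by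
    intro n
    induction n using Int.induction_on with
    | zero =>
      exact ⟨⟨a, by simpa using hv, by ring⟩,
        ⟨m, by simpa [sub_eq_add_neg] using hm, by ring⟩⟩
    | succ i ih =>
      obtain ⟨⟨d, hd, ed⟩, ⟨d', hd', ed'⟩⟩ := ih
      obtain ⟨h, hle⟩ := parallelogram hd hw (m := d') (by
        convert hd' using 1; rw [sub_zsmul, one_zsmul]; abel)
      refine ⟨⟨2 * d + 2 * b - d', ?_, ?_⟩, ?_⟩
      · convert h using 1; rw [add_zsmul, one_zsmul]; abel
      · rw [Nat.cast_sub hle]; push_cast; linear_combination 2 * ed - ed'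
      · rw [add_sub_cancel_right]; exact ⟨d, hd, ed⟩
    | pred i ih =>
      obtain ⟨⟨d, hd, ed⟩, ⟨d', hd', ed'⟩⟩ := ih
      obtain ⟨h, hle⟩ := parallelogram hd' hw.neg (m := d) (by
        convert hd using 1; rw [sub_zsmul, one_zsmul]; abel)
      refine ⟨⟨d', hd', ed'⟩, ⟨2 * d' + 2 * b - d, ?_, ?_⟩⟩
      · convert h using 1; rw [sub_zsmul, sub_zsmul, one_zsmul]; abel
      · rw [Nat.cast_sub hle]; push_cast; linear_combination 2 * ed' - ed
  exact (key n).1

theorem eq_zero_of_eventually_zero {ψ : E}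
    (h : ∀ᶠ P : W.Point in Filter.cofinite, ψ P = 0) : ψ = 0 := by
  refine AddMonoidHom.ext fun P => ?_
  have := Weil.infinite_point (W := W)
  obtain ⟨R, h1, h2⟩ := (h.and (Weil.eventually_sub (-P) h)).exists
  rw [sub_neg_eq_add, map_add, h1, zero_add] at h2
  exact h2

/-- An endomorphism whose abscissa has degree zero is zero. -/
theorem eq_zero_of_hasDeg_zero {ψ : E} (h : HasDeg ψ 0) : ψ = 0 := by
  obtain ⟨F, hF, -, hle, -⟩ := h
  obtain ⟨a0, h0⟩ : ∃ a, F 0 = C a := ⟨_, eq_C_of_natDegree_le_zero (hle 0)⟩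
  obtain ⟨a1, h1⟩ : ∃ a, F 1 = C a := ⟨_, eq_C_of_natDegree_le_zero (hle 1)⟩
  rcases eq_or_ne a1 0 with rfl | ha1
  · refine eq_zero_of_eventually_zero ?_
    filter_upwards [hF] with P ⟨c, hc, hP⟩
    have := hP 1
    rw [h1, map_zero, eval_zero] at this
    rcases hψ : ψ P with _ | ⟨x, y, hxy⟩
    · rfl
    · simp [hψ] at this
      exact absurd this.symm hc
  exfalso
  set S : Set W.Point := {Z | Z ≠ 0 ∧ Weil.xc Z = a0 / a1}
  have hS : ∀ᶠ P : W.Point in Filter.cofinite, ψ P ∈ S := by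
    filter_upwards [hF] with P ⟨c, hc, hP⟩
    have e0 := hP 0
    have e1 := hP 1
    rw [h0, eval_C] at e0
    rw [h1, eval_C] at e1
    rcases hψ : ψ P with _ | ⟨x, y, hxy⟩
    · simp [hψ, ← Point.zero_def] at e1
      exact absurd e1 ha1
    · simp [hψ] at e0 e1
      refine ⟨Point.some_ne_zero _, ?_⟩
      show x = a0 / a1
      rw [e0, e1, mul_div_cancel_left₀ _ hc]
  have hSfin : S.Finite := by
    rcases S.eq_empty_or_nonempty with he | ⟨P, hP⟩
    · rw [he]; exact Set.finite_empty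
    · exact (Set.toFinite {P, -P}).subset fun Z hZ =>
        Weil.eq_or_eq_neg_of_xc hZ.1 hP.1 (hZ.2.trans hP.2.symm)
  have hrange : (Set.range ψ).Finite := by
    refine ((hSfin.prod hSfin).image fun z : W.Point × W.Point => z.2 - z.1).subset ?_
    rintro _ ⟨P, rfl⟩
    have := Weil.infinite_point (W := W)
    obtain ⟨R, h1, h2⟩ := (hS.and (Weil.eventually_sub (-P) hS)).exists
    rw [sub_neg_eq_add, map_add] at h2
    exact ⟨(ψ R, ψ R + ψ P), ⟨h1, h2⟩, add_sub_cancel_left _ _⟩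
  have hker : {P | ψ P = 0}.Finite := by
    refine (Filter.eventually_cofinite.mp hS).subset fun P hP hPS => ?_
    exact hPS.1 hP
  have := Weil.infinite_point (W := W)
  refine Set.infinite_univ (α := W.Point) ?_
  refine (hrange.biUnion (t := fun y => ψ ⁻¹' {y}) fun y hy => ?_).subset
    fun P _ => Set.mem_biUnion ⟨P, rfl⟩ rfl
  obtain ⟨P, rfl⟩ := hy
  refine (hker.image (P + ·)).subset fun Z hZ => ⟨Z - P, ?_, add_sub_cancel _ _⟩
  show ψ (Z - P) = 0
  rw [map_sub, show ψ Z = ψ P from hZ, sub_self]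

variable {q e e' : ℕ}

theorem PowData.xRep_apply (D : PowData W q e) (P : W.Point) (i : Fin 2) :
    (D.Φ P).xRep i = P.xRep i ^ q := by
  have := D.odd_eq
  rcases P with _ | ⟨x, y, h⟩
  · rw [← Point.zero_def, map_zero, Point.xRep_zero]
    fin_cases i <;> simp [zero_pow (show q ≠ 0 by omega)]
  · obtain ⟨hn, hΦ⟩ := D.isPointMap x y h
    rw [hΦ, Point.xRep_some, Point.xRep_some]
    fin_cases i <;> simp [D.apply_eq]

theorem PowData.hasDeg_pow (D : PowData W q e) : HasDeg D.Φ q := by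
  have h := hasDeg_id.comp_pow (q := q) (by have := D.odd_eq; omega) D.xRep_apply
  rwa [mul_one, AddMonoidHom.comp_id] at h

/-- `deg (m φ + n) = q m² + a m n + n²`. -/
theorem PowData.hasDeg_lin (D : PowData W q e) (m n : ℤ) :
    ∃ d : ℕ, HasDeg (m • D.Φ + n • AddMonoidHom.id W.Point) d ∧
      (d : ℤ) = q * m ^ 2 + ((q : ℤ) + 1 - D.fixCount) * m * n + n ^ 2 := by
  obtain ⟨d₁, h₁, e₁⟩ := hasDeg_line D.hasDeg_pow hasDeg_id D.hasDeg_sub_id (-n)
  obtain ⟨d₀, h₀, e₀⟩ := hasDeg_line hasDeg_zero (hasDeg_id (W := W))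
    (m := 1) (by rw [zero_sub]; exact hasDeg_id.neg) n
  rw [zero_add] at h₀
  obtain ⟨d, h, ed⟩ := hasDeg_line h₀ D.hasDeg_pow (m := d₁) (by
    convert h₁.neg using 1; rw [neg_zsmul]; abel) m
  refine ⟨d, by rwa [add_comm], ?_⟩
  push_cast at e₀ e₁ ed
  linear_combination ed + (1 + m) * e₀ - m * e₁

theorem fixCount_sq (D : PowData W q e) {e' : ℕ} (D₂ : PowData W (q ^ 2) e')
    (hD₂ : D₂.Φ = D.Φ.comp D.Φ) :
    D₂.fixCount + D.fixCount * D.fixCount = D.fixCount * (2 * q + 2) := by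
  let F₂ : AddSubgroup W.Point := (D₂.Φ - AddMonoidHom.id W.Point).ker
  let A₁ : AddSubgroup W.Point := (D.Φ + AddMonoidHom.id W.Point).ker
  have hF : ∀ P, P ∈ F₂ ↔ D.Φ (D.Φ P) = P := fun P => by
    simp [F₂, AddMonoidHom.mem_ker, hD₂, sub_eq_zero]
  have hA : ∀ P, P ∈ A₁ ↔ D.Φ P = -P := fun P => by
    simp [A₁, AddMonoidHom.mem_ker, add_eq_zero_iff_eq_neg]
  let f : F₂ →+ A₁ :=
    { toFun := fun P => ⟨D.Φ P - P, (hA _).mpr (by
        rw [map_sub, (hF _).mp P.2, neg_sub])⟩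
      map_zero' := Subtype.ext (by simp)
      map_add' := fun P R => Subtype.ext (by simp; abel) }
  have hsurj : Function.Surjective f := by
    intro Z
    obtain ⟨P, hP⟩ := D.surjective_sub_id Z
    have hP' : D.Φ P - P = Z := hP
    have hPF : P ∈ F₂ := (hF P).mpr (by
      have h := (hA _).mp Z.2
      rw [← hP', map_sub, neg_sub] at h
      exact sub_left_inj.mp h)
    exact ⟨⟨P, hPF⟩, Subtype.ext hP'⟩
  have hker : Nat.card f.ker = D.fixCount := by
    rw [← D.ncard_fixed.2, ← Nat.card_coe_set_eq]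
    refine Nat.card_congr
      { toFun := fun P => ⟨P.1.1, sub_eq_zero.mp (congrArg Subtype.val P.2)⟩
        invFun := fun P => ⟨⟨P.1, (hF _).mpr (by rw [show D.Φ P.1 = P.1 from P.2]; exact P.2)⟩,
          Subtype.ext (sub_eq_zero.mpr P.2)⟩
        left_inv := fun P => rfl
        right_inv := fun P => rfl }
  have hcard2 : Nat.card F₂ = D₂.fixCount := by
    rw [← D₂.ncard_fixed.2, ← Nat.card_coe_set_eq]
    exact Nat.card_congr (Equiv.subtypeEquivRight fun P => by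
      rw [Set.mem_ofPred_eq, hD₂, hF]; rfl)
  have hcard1 : Nat.card A₁ + D.fixCount = 2 * q + 2 := by
    rw [← D.ncard_antifixed.2, ← Nat.card_coe_set_eq]
    congr 1
    exact Nat.card_congr (Equiv.subtypeEquivRight fun P => by
      rw [Set.mem_ofPred_eq, hA])
  have h := f.ker.card_eq_card_quotient_mul_card_addSubgroup
  rw [Nat.card_congr (QuotientAddGroup.quotientKerEquivOfSurjective f hsurj).toEquiv, hker,
    hcard2] at h
  rw [h, ← hcard1]
  ring

/-- The quadratic relation of a power map. -/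
theorem two_zsmul_quadratic (D : PowData W q e) (D₂ : PowData W (q ^ 2) e')
    (hD₂ : D₂.Φ = D.Φ.comp D.Φ) (P : W.Point) :
    (2 : ℤ) • (D.Φ (D.Φ P) - ((q : ℤ) + 1 - D.fixCount) • D.Φ P + (q : ℤ) • P) = 0 := by
  set a : ℤ := (q : ℤ) + 1 - D.fixCount with ha
  obtain ⟨d₁, h₁, e₁⟩ := hasDeg_line D₂.hasDeg_pow hasDeg_id D₂.hasDeg_sub_id (2 * (q : ℤ))
  obtain ⟨d₂, h₂, e₂⟩ := D.hasDeg_lin 1 (-(2 * a))
  have h₂' := h₂.comp_pow (q := q) (by have := D.odd_eq; omega) D.xRep_apply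
  obtain ⟨d₃, h₃, e₃⟩ := D.hasDeg_lin (-(2 * a)) (-(2 * (q : ℤ)))
  have hu : D.Φ.comp ((1 : ℤ) • D.Φ + (-(2 * a)) • AddMonoidHom.id W.Point) =
      D₂.Φ + (-(2 * a)) • D.Φ := by
    refine AddMonoidHom.ext fun R => ?_
    simp [hD₂, map_zsmul]
  rw [hu] at h₂'
  obtain ⟨h, hle⟩ := parallelogram h₂' h₁ (m := d₃) (by
    convert h₃ using 1; rw [neg_zsmul, neg_zsmul]; abel)
  have hN := congrArg (fun n : ℕ => (n : ℤ)) (fixCount_sq D D₂ hD₂)
  push_cast at hN e₁ e₂ e₃
  have hzero : 2 * (q * d₂) + 2 * d₁ - d₃ = 0 := by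
    have h0 : ((2 * (q * d₂) + 2 * d₁ - d₃ : ℕ) : ℤ) = 0 := by
      rw [Nat.cast_sub hle]; push_cast
      rw [ha] at e₂ e₃
      linear_combination (2 * (q : ℤ)) * e₂ + 2 * e₁ - e₃ - 4 * (q : ℤ) * hN
    exact_mod_cast h0
  rw [hzero] at h
  have h0 := DFunLike.congr_fun (eq_zero_of_hasDeg_zero h) P
  simp [hD₂] at h0
  rw [← h0, smul_add, smul_sub, smul_smul, smul_smul, two_zsmul]
  abel

end FLTA.EllTorsion.Frob
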