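import Mathlib.AlgebraicGeometry.EllipticCurve.Affine.Point
import Mathlib.Algebra.CharP.Two
import Mathlib.Tactic.LinearCombination
import Mathlib.Tactic.FieldSimp

set_option autoImplicit false

/-!
# `φ² - a φ + 2 = 0` on curves over `𝔽₂`, by explicit formulas

Supersingular curves `y² + y = x³ + a₂x² + a₄x + a₆` and ordinary curves with `a₁ = 1`.
-/

open WeierstrassCurve WeierstrassCurve.Affine

namespace FLTA.EllTorsion.FrobTwo

variable {k : Type*} [Field k] [DecidableEq k] [CharP k 2] {V : WeierstrassCurve.Affine k}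

/-- The map on points is given by squaring the coordinates. -/
def IsSquareMap (Φ : V.Point →+ V.Point) : Prop :=
  ∀ x y : k, ∀ h : V.Nonsingular x y, ∃ h', Φ (.some x y h) = .some (x ^ 2) (y ^ 2) h'

omit [DecidableEq k] in
theorem two_eq_zero : (2 : k) = 0 := CharTwo.two_eq_zero

omit [DecidableEq k] in
theorem pow_left_injective₀_two {y : k} (h : y ^ 2 = 1) : y = 1 :=
  CharTwo.sq_injective (by simpa using h)

/-- Addition along a chord with prescribed slope, in characteristic two. -/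
theorem add_eq_of_slope {x₁ y₁ x₂ y₂ m x₃ y₃ : k} {h₁ : V.Nonsingular x₁ y₁}
    {h₂ : V.Nonsingular x₂ y₂} (hx : x₁ ≠ x₂) (hm : y₁ + y₂ = m * (x₁ + x₂))
    (hx₃ : x₃ = m ^ 2 + V.a₁ * m + V.a₂ + x₁ + x₂)
    (hy₃ : y₃ = m * (x₃ + x₁) + y₁ + V.a₁ * x₃ + V.a₃) :
    ∃ h₃, Point.some x₁ y₁ h₁ + Point.some x₂ y₂ h₂ = Point.some x₃ y₃ h₃ := by
  have hs : V.slope x₁ x₂ y₁ y₂ = m := by
    rw [slope_of_X_ne hx, div_eq_iff (sub_ne_zero.mpr hx), CharTwo.sub_eq_add, CharTwo.sub_eq_add]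
    exact hm
  have e₁ : V.addX x₁ x₂ (V.slope x₁ x₂ y₁ y₂) = x₃ := by
    rw [hs, hx₃, addX]
    simp only [CharTwo.sub_eq_add]
  have e₂ : V.addY x₁ x₂ y₁ (V.slope x₁ x₂ y₁ y₂) = y₃ := by
    rw [addY, negY, negAddY, e₁, hs, hy₃]
    simp only [CharTwo.sub_eq_add, CharTwo.neg_eq]
  have h := nonsingular_add h₁ h₂ (fun h => hx h.1)
  rw [e₁, e₂] at h
  exact ⟨h, by rw [Point.add_of_X_ne hx, Point.some.injEq]; exact ⟨e₁, e₂⟩⟩

/-- Doubling with prescribed slope, in characteristic two. -/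
theorem two_zsmul_eq_of_slope {x y m x₂ y₂ : k} {h : V.Nonsingular x y}
    (hy : V.a₁ * x + V.a₃ ≠ 0) (hm : x ^ 2 + V.a₄ + V.a₁ * y = m * (V.a₁ * x + V.a₃))
    (hx₂ : x₂ = m ^ 2 + V.a₁ * m + V.a₂)
    (hy₂ : y₂ = m * (x₂ + x) + y + V.a₁ * x₂ + V.a₃) :
    ∃ h₂, (2 : ℤ) • Point.some x y h = Point.some x₂ y₂ h₂ := by
  have h2 := two_eq_zero (k := k)
  have hne : y ≠ V.negY x y := fun e => hy (by
    rw [negY] at e
    linear_combination e - h2 * y)
  have hs : V.slope x x y y = m := by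
    rw [slope_of_Y_ne rfl hne, div_eq_iff (sub_ne_zero.mpr hne), negY]
    linear_combination hm + h2 * (x ^ 2 + V.a₂ * x - m * y - V.a₁ * y)
  have e₁ : V.addX x x (V.slope x x y y) = x₂ := by
    rw [hs, hx₂, addX]
    grind
  have e₂ : V.addY x x y (V.slope x x y y) = y₂ := by
    rw [addY, negY, negAddY, e₁, hs, hy₂]
    simp only [CharTwo.sub_eq_add, CharTwo.neg_eq]
  have h' := nonsingular_add h h (fun e => hne e.2)
  rw [e₁, e₂] at h'
  exact ⟨h', by rw [two_zsmul, Point.add_self_of_Y_ne hne, Point.some.injEq]; exact ⟨e₁, e₂⟩⟩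

/-- The supersingular curves. -/
theorem quadratic_supersingular (Φ : V.Point →+ V.Point) (hΦ : IsSquareMap Φ)
    (h1 : V.a₁ = 0) (h3 : V.a₃ = 1) (q2 : V.a₂ ^ 2 = V.a₂) (q4 : V.a₄ ^ 2 = V.a₄)
    (q6 : V.a₆ ^ 2 = V.a₆) (P : V.Point) :
    (V.a₂ + V.a₄ = 0 → Φ (Φ P) + (2 : ℤ) • P = 0) ∧
    (V.a₂ + V.a₄ = 1 → V.a₆ = 1 → Φ (Φ P) - (2 : ℤ) • Φ P + (2 : ℤ) • P = 0) ∧
    (V.a₂ + V.a₄ = 1 → V.a₆ = 0 → Φ (Φ P) + (2 : ℤ) • Φ P + (2 : ℤ) • P = 0) := by
  cases P with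
  | zero => simp [← Point.zero_def]
  | some x y h =>
    have h2 := two_eq_zero (k := k)
    have he : y ^ 2 + y = x ^ 3 + V.a₂ * x ^ 2 + V.a₄ * x + V.a₆ := by
      have := (equation_iff x y).mp h.1
      rw [h1, h3] at this
      linear_combination this
    set f := x ^ 3 + V.a₂ * x ^ 2 + V.a₄ * x + V.a₆ with hf
    have hy4 : (y ^ 2) ^ 2 = y + f + f ^ 2 := by grind
    set l := x ^ 2 + V.a₄ with hl
    set x₂ := l ^ 2 + V.a₂ with hx₂
    set y₂ := l * (x₂ + x) + y + 1 with hy₂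
    obtain ⟨hh2, hdbl⟩ : ∃ h₂, (2 : ℤ) • Point.some x y h = Point.some x₂ y₂ h₂ :=
      two_zsmul_eq_of_slope (m := l) (by rw [h1, h3]; simp)
        (by rw [h1, h3, hl]; ring) (by rw [h1, hx₂]; ring) (by rw [h1, h3, hy₂]; ring)
    obtain ⟨hp1, hΦ1⟩ := hΦ x y h
    obtain ⟨hp2, hΦ2⟩ := hΦ _ _ hp1
    obtain ⟨hpd, hΦd⟩ := hΦ _ _ hh2
    have hcomm : (2 : ℤ) • Φ (Point.some x y h) = Point.some _ _ hpd := by
      rw [← map_zsmul, hdbl, hΦd]
    refine ⟨fun hc => ?_, fun hc h6 => ?_, fun hc h6 => ?_⟩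
    · rw [hΦ1, hΦ2, hdbl]
      have ex : (x ^ 2) ^ 2 = x₂ := by
        rw [hx₂, hl]
        grind
      have ey : (y ^ 2) ^ 2 = V.negY x₂ y₂ := by
        rw [negY, h1, h3, hy4, hy₂, ← ex, hl, hf]
        grind
      exact Point.add_of_Y_eq ex ey
    all_goals
      have ex : x₂ = (x ^ 2) ^ 2 + 1 := by
        rw [hx₂, hl]
        grind
      set m := (x ^ 2) ^ 2 + 1 + V.a₄ with hm
      have hsl : (y ^ 2) ^ 2 + y₂ = m * ((x ^ 2) ^ 2 + x₂) := by
        rw [hy4, hy₂, ex, hm, hl, hf]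
        grind
      have hx3 : x₂ ^ 2 = m ^ 2 + V.a₁ * m + V.a₂ + (x ^ 2) ^ 2 + x₂ := by
        rw [h1, ex, hm]
        grind
      have hy3 : m * (x₂ ^ 2 + (x ^ 2) ^ 2) + (y ^ 2) ^ 2 + V.a₁ * x₂ ^ 2 + V.a₃
          = y₂ ^ 2 + (1 + V.a₆) := by
        rw [h1, h3, hy4, hy₂, ex, hm, hl, hf]
        grind
      have hne : (x ^ 2) ^ 2 ≠ x₂ := fun e => one_ne_zero (α := k) (by
        linear_combination -ex - e)
      obtain ⟨h₃, hadd⟩ := add_eq_of_slope (h₁ := hp2) (h₂ := hh2) (m := m) (x₃ := x₂ ^ 2)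
        (y₃ := y₂ ^ 2 + (1 + V.a₆)) hne hsl hx3 hy3.symm
      rw [hΦ1, hΦ2] at *
      rw [hcomm, hdbl]
    · rw [sub_add_eq_add_sub, hadd, sub_eq_zero, Point.some.injEq]
      exact ⟨rfl, by linear_combination h6 + h2⟩
    · rw [add_right_comm, hadd]
      exact Point.add_of_Y_eq rfl (by rw [negY, h1, h3]; linear_combination h6 + h2 * y₂ ^ 2 + h2)

/-- The ordinary curves. -/
theorem quadratic_ordinary (Φ : V.Point →+ V.Point) (hΦ : IsSquareMap Φ)
    (h1 : V.a₁ = 1) (q2 : V.a₂ ^ 2 = V.a₂) (q3 : V.a₃ ^ 2 = V.a₃) (q4 : V.a₄ ^ 2 = V.a₄)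
    (h6 : V.a₆ = 1 + V.a₃ * V.a₄ + V.a₂ * V.a₃ + V.a₄) (P : V.Point) :
    (V.a₂ + V.a₃ = 1 → Φ (Φ P) - Φ P + (2 : ℤ) • P = 0) ∧
    (V.a₂ + V.a₃ = 0 → Φ (Φ P) + Φ P + (2 : ℤ) • P = 0) := by
  cases P with
  | zero => simp [← Point.zero_def]
  | some x y h =>
    have h2 := two_eq_zero (k := k)
    have he : y ^ 2 + (x + V.a₃) * y = x ^ 3 + V.a₂ * x ^ 2 + V.a₄ * x + V.a₆ := by
      have := (equation_iff x y).mp h.1
      rw [h1] at this
      linear_combination this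
    obtain ⟨hp1, hΦ1⟩ := hΦ x y h
    obtain ⟨X, rfl⟩ : ∃ X, x = X + V.a₃ := ⟨x - V.a₃, by ring⟩
    obtain ⟨Y, rfl⟩ : ∃ Y, y = Y + V.a₃ + V.a₄ := ⟨y - V.a₃ - V.a₄, by ring⟩
    have heY : Y ^ 2 + X * Y = X ^ 3 + (V.a₂ + V.a₃) * X ^ 2 + 1 := by grind
    set b := V.a₂ + V.a₃ with hb
    have hden : V.a₁ * (X + V.a₃) + V.a₃ = X := by rw [h1]; grind
    by_cases hX0 : X = 0
    · subst hX0
      have hY : Y = 1 := pow_left_injective₀_two (by linear_combination heY)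
      subst hY
      have hfix : Φ (Point.some _ _ h) = Point.some _ _ h := by
        rw [hΦ1, Point.some.injEq]; constructor <;> grind
      have h2P : (2 : ℤ) • Point.some _ _ h = 0 := by
        rw [two_zsmul]
        exact Point.add_of_Y_eq rfl (by rw [negY, h1]; grind)
      rw [hfix, hfix, h2P]
      refine ⟨fun _ => by simp, fun _ => ?_⟩
      rw [← two_zsmul, h2P, add_zero]
    set u := (Y + X ^ 2) / X with hu
    have hu' : u * X = Y + X ^ 2 := by rw [hu]; field_simp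
    by_cases hX1 : X = 1
    · subst hX1
      have hum : u = Y + 1 := by linear_combination hu'
      obtain ⟨hh2, hdbl⟩ : ∃ h₂, (2 : ℤ) • Point.some _ _ h =
          Point.some V.a₃ (1 + V.a₃ + V.a₄) h₂ :=
        two_zsmul_eq_of_slope (m := u) (by rw [hden]; exact one_ne_zero)
          (by rw [hum, h1]; grind) (by rw [hum, h1]; grind) (by rw [hum, h1]; grind)
      obtain ⟨hpd, hΦd⟩ := hΦ _ _ hh2
      have hcomm : Φ ((2 : ℤ) • Point.some _ _ h) = (2 : ℤ) • Point.some _ _ h := by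
        rw [hdbl, hΦd, Point.some.injEq]; constructor <;> grind
      have h4P : (2 : ℤ) • Point.some _ _ h + (2 : ℤ) • Point.some _ _ h = 0 := by
        rw [hdbl]
        exact Point.add_of_Y_eq rfl (by rw [negY, h1]; grind)
      refine ⟨fun hb1 => ?_, fun hb0 => ?_⟩
      · have hneg : Φ (Point.some _ _ h) = - Point.some _ _ h := by
          rw [hΦ1, Point.neg_some, Point.some.injEq, negY, h1]; constructor <;> grind
        rw [hneg, map_neg, hneg, neg_neg, sub_neg_eq_add, ← two_zsmul, h4P]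
      · have hfix : Φ (Point.some _ _ h) = Point.some _ _ h := by
          rw [hΦ1, Point.some.injEq]; constructor <;> grind
        rw [hfix, hfix, ← two_zsmul, h4P]
    -- the general point
    set xd := u ^ 2 + u + V.a₂ with hxd
    set yd := u * (xd + (X + V.a₃)) + (Y + V.a₃ + V.a₄) + xd + V.a₃ with hyd
    obtain ⟨hh2, hdbl⟩ : ∃ h₂, (2 : ℤ) • Point.some _ _ h = Point.some xd yd h₂ :=
      two_zsmul_eq_of_slope (m := u) (by rwa [hden])
        (by rw [hden, hu', h1]; grind) (by rw [hxd, h1]; ring) (by rw [hyd, h1]; ring)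
    set m := (Y + X ^ 2 + (1 + b) * X + 1) / X with hm
    have hm' : m * X = Y + X ^ 2 + (1 + b) * X + 1 := by rw [hm]; field_simp
    set xR := X + 1 / X + V.a₃ with hxR
    set yR := m * (xR + (X + V.a₃)) + (Y + V.a₃ + V.a₄ + b * X) + xR + V.a₃ with hyR
    have hxne : X + V.a₃ ≠ (X + V.a₃) ^ 2 := fun e => by
      have : X * (X - 1) = 0 := by grind
      rcases mul_eq_zero.mp this with h | h
      · exact hX0 h
      · exact hX1 (sub_eq_zero.mp h)
    have hsl : (Y + V.a₃ + V.a₄ + b * X) + (Y + V.a₃ + V.a₄) ^ 2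
        = m * ((X + V.a₃) + (X + V.a₃) ^ 2) := by
      have : m * ((X + V.a₃) + (X + V.a₃) ^ 2) = (m * X) * (1 + X) := by grind
      rw [this, hm']
      grind
    have hxR' : xR = m ^ 2 + V.a₁ * m + V.a₂ + (X + V.a₃) + (X + V.a₃) ^ 2 := by
      rw [hxR, h1]
      field_simp
      grind
    have key : ∀ hn : V.Nonsingular (X + V.a₃) (Y + V.a₃ + V.a₄ + b * X),
        Φ (Φ (Point.some _ _ h)) + Φ (Point.some _ _ hn) + (2 : ℤ) • Point.some _ _ h = 0 := by
      intro hn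
      obtain ⟨hR, hadd⟩ := add_eq_of_slope (h₁ := hn) (h₂ := hp1) (m := m) (x₃ := xR) (y₃ := yR)
        hxne hsl hxR' (by rw [hyR, h1]; ring)
      obtain ⟨hR2, hΦR⟩ := hΦ _ _ hR
      rw [← map_add, add_comm (Φ (Point.some _ _ h)), hΦ1, hadd, hΦR, hdbl]
      refine Point.add_of_Y_eq ?_ ?_
      · rw [hxR, hxd, hu]
        field_simp
        grind
      · rw [negY, h1, hyR, hyd, hxR, hxd, hu, hm]
        field_simp
        grind
    refine ⟨fun hb1 => ?_, fun hb0 => ?_⟩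
    · have hn : V.Nonsingular (X + V.a₃) (Y + V.a₃ + V.a₄ + b * X) := by
        have e : Y + V.a₃ + V.a₄ + b * X = V.negY (X + V.a₃) (Y + V.a₃ + V.a₄) := by
          rw [negY, h1]; grind
        rw [e, nonsingular_neg]; exact h
      have e : Point.some _ _ hn = - Point.some _ _ h := by
        rw [Point.neg_some, Point.some.injEq, negY, h1]; exact ⟨rfl, by grind⟩
      have := key hn
      rw [e, map_neg, ← sub_eq_add_neg] at this
      exact this
    · have hn : V.Nonsingular (X + V.a₃) (Y + V.a₃ + V.a₄ + b * X) := by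
        rw [hb0, zero_mul, add_zero]; exact h
      have e : Point.some _ _ hn = Point.some _ _ h := by
        rw [Point.some.injEq]; exact ⟨rfl, by grind⟩
      have := key hn
      rwa [e] at this

end FLTA.EllTorsion.FrobTwo
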