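import Mathlib.AlgebraicGeometry.EllipticCurve.DivisionPolynomial.Degree
import Mathlib.AlgebraicGeometry.EllipticCurve.Affine.AddSubMap
import Mathlib.Algebra.MvPolynomial.Basic
import Fermat.Agent.EllTorsion.Eds2

/-!
# The three identities between `Φ` and `ΨSq` behind the multiplication formula

For `A = Φ n`, `B = ΨSq n`, the symmetric square of `(Φ (n + 1) : ΨSq (n + 1))` and
`(Φ (n - 1) : ΨSq (n - 1))` is `addSubMap` at the symmetric square of `(A : B)` and `(X : 1)`.
-/

set_option autoImplicit false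

open Polynomial
open scoped Polynomial.Bivariate

namespace FLTA.EllTorsion

universe u

/-- The universal Weierstrass curve. -/
noncomputable def univCurve : WeierstrassCurve (MvPolynomial (Fin 5) ℤ) :=
  ⟨MvPolynomial.X 0, MvPolynomial.X 1, MvPolynomial.X 2, MvPolynomial.X 3, MvPolynomial.X 4⟩

/-- Specialisation of the universal curve. -/
noncomputable def univSpec {R : Type u} [CommRing R] (W : WeierstrassCurve R) :
    MvPolynomial (Fin 5) ℤ →+* R :=
  MvPolynomial.eval₂Hom (Int.castRingHom R) ![W.a₁, W.a₂, W.a₃, W.a₄, W.a₆]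

lemma univCurve_map_univSpec {R : Type u} [CommRing R] (W : WeierstrassCurve R) :
    univCurve.map (univSpec W) = W := by
  ext <;> simp [univCurve, univSpec, WeierstrassCurve.map]

open WeierstrassCurve WeierstrassCurve.Affine

lemma mk_C_injective {R : Type u} [CommRing R] [Nontrivial R] (W : WeierstrassCurve R) :
    Function.Injective fun p : R[X] => CoordinateRing.mk W.toAffine (C p) := by
  intro p q hpq
  have h0 : (p - q) • (1 : W.toAffine.CoordinateRing) + (0 : R[X]) •
      CoordinateRing.mk W.toAffine Y = 0 := by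
    rw [zero_smul, add_zero, CoordinateRing.smul, mul_one, C_sub, map_sub]
    exact sub_eq_zero.mpr hpq
  exact sub_eq_zero.mp (CoordinateRing.smul_basis_eq_zero h0).1

lemma preΨ₄_add_Ψ₂Sq_sq {R : Type u} [CommRing R] (W : WeierstrassCurve R) :
    W.preΨ₄ + W.Ψ₂Sq ^ 2 = (6 * X ^ 2 + C W.b₂ * X + C W.b₄) * W.Ψ₃ := by
  have hb := congrArg (C (R := R)) W.b_relation
  simp only [preΨ₄, Ψ₂Sq, Ψ₃, map_ofNat, C_mul, C_sub, C_pow] at hb ⊢
  linear_combination X ^ 2 * hb

variable {R : Type u} [CommRing R]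

lemma identities_of_charZero [IsDomain R] [CharZero R] (W : WeierstrassCurve R) (n : ℤ) :
    W.ΨSq (n + 1) * W.ΨSq (n - 1) = (W.Φ n - X * W.ΨSq n) ^ 2 ∧
    W.Φ (n + 1) * W.ΨSq (n - 1) + W.Φ (n - 1) * W.ΨSq (n + 1) =
      2 * (W.Φ n + X * W.ΨSq n) * (X * W.Φ n) + C W.b₂ * (X * W.Φ n) * W.ΨSq n +
        C W.b₄ * (W.Φ n + X * W.ΨSq n) * W.ΨSq n + C W.b₆ * W.ΨSq n ^ 2 ∧
    W.Φ (n + 1) * W.Φ (n - 1) =
      (X * W.Φ n) ^ 2 - C W.b₄ * (X * W.Φ n) * W.ΨSq n -
        C W.b₆ * (W.Φ n + X * W.ΨSq n) * W.ΨSq n - C W.b₈ * W.ΨSq n ^ 2 := by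
  let ι : R[X] →+* W.toAffine.CoordinateRing := (CoordinateRing.mk W.toAffine : R[X][Y] →+* _).comp C
  have hι : Function.Injective ι := mk_C_injective W
  let w : ℤ → W.toAffine.CoordinateRing := fun m => CoordinateRing.mk W.toAffine (W.ψ m)
  have hsq : ∀ m, w m ^ 2 = ι (W.ΨSq m) := fun m => by
    simp only [w, ι, RingHom.comp_apply, CoordinateRing.mk_ψ, CoordinateRing.mk_Ψ_sq]
  have h3 : w 3 = ι W.Ψ₃ := by simp only [w, ι, RingHom.comp_apply, ψ_three]
  have h4 : w 4 = ι W.preΨ₄ * w 2 := by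
    simp only [w, ι, RingHom.comp_apply, ψ_four, map_mul, ψ_two]
  have h2 : w 2 ^ 2 = ι W.Ψ₂Sq := by rw [hsq, ΨSq_two]
  have hd : Eds.XDatum w (fun m => ι (W.Φ m)) (fun m => ι (W.ΨSq m)) (ι X) (ι (C W.b₂))
      (ι (C W.b₄)) (ι (C W.b₆)) (ι (C W.b₈)) := by
    constructor
    · constructor
      · intro m; simp only [w, ψ_neg, map_neg]
      · simp only [w, ψ_one, map_one]
      · simp only [w, ψ_zero, map_zero]
      · intro m hm h
        have : ι (W.ΨSq m) = ι 0 := by rw [← hsq, h, zero_pow two_ne_zero, map_zero]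
        exact W.ΨSq_ne_zero (Int.cast_ne_zero.mpr hm) (hι this)
      · intro m; simp only [w, ← map_pow, ← map_mul, ← map_sub, ψ_odd]
      · intro m; simp only [w, ← map_pow, ← map_mul, ← map_sub, ψ_even, ψ_two]
      · have h5 : w 2 ^ 5 = w 2 * (w 2 ^ 2) ^ 2 := by ring
        have := congrArg ι (preΨ₄_add_Ψ₂Sq_sq W)
        rw [map_add, map_pow, map_mul, map_add, map_add, map_mul, map_mul, map_pow,
          map_ofNat] at this
        rw [h5, h2, h4, h3]
        linear_combination w 2 * this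
    · rw [h2, Ψ₂Sq]
      simp only [map_add, map_mul, map_pow, map_ofNat, C_mul]
    · rw [h3, Ψ₃]
      simp only [map_add, map_mul, map_pow, map_ofNat]
    · intro m
      simp only [w, ι, RingHom.comp_apply, ← CoordinateRing.mk_φ, WeierstrassCurve.φ, map_sub,
        map_mul, map_pow]
    · intro m; rw [hsq]
  refine ⟨hι ?_, hι ?_, hι ?_⟩
  · simpa only [map_mul, map_sub, map_pow] using hd.identity_U n
  · simpa only [map_mul, map_add, map_pow, map_ofNat] using hd.identity_T n
  · simpa only [map_mul, map_sub, map_add, map_pow] using hd.identity_S n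

variable (W : WeierstrassCurve R)

lemma map_univ_C (a : MvPolynomial (Fin 5) ℤ) :
    (C a).map (univSpec W) = C (univSpec W a) := Polynomial.map_C _

/-- `ΨSq (n+1) ΨSq (n-1) = (Φ n - X ΨSq n) ^ 2`. -/
theorem ΨSq_mul_ΨSq (n : ℤ) :
    W.ΨSq (n + 1) * W.ΨSq (n - 1) = (W.Φ n - X * W.ΨSq n) ^ 2 := by
  have h := congrArg (Polynomial.map (univSpec W)) (identities_of_charZero univCurve n).1
  simp only [Polynomial.map_mul, Polynomial.map_sub, Polynomial.map_pow, Polynomial.map_X,
    ← map_ΨSq, ← map_Φ, univCurve_map_univSpec] at h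
  exact h

/-- The middle coordinate of the multiplication identity. -/
theorem Φ_mul_ΨSq_add (n : ℤ) :
    W.Φ (n + 1) * W.ΨSq (n - 1) + W.Φ (n - 1) * W.ΨSq (n + 1) =
      2 * (W.Φ n + X * W.ΨSq n) * (X * W.Φ n) + C W.b₂ * (X * W.Φ n) * W.ΨSq n +
        C W.b₄ * (W.Φ n + X * W.ΨSq n) * W.ΨSq n + C W.b₆ * W.ΨSq n ^ 2 := by
  have h := congrArg (Polynomial.map (univSpec W)) (identities_of_charZero univCurve n).2.1
  have e2 : univSpec W univCurve.b₂ = W.b₂ := by
    conv_rhs => rw [← univCurve_map_univSpec W, map_b₂]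
  have e4 : univSpec W univCurve.b₄ = W.b₄ := by
    conv_rhs => rw [← univCurve_map_univSpec W, map_b₄]
  have e6 : univSpec W univCurve.b₆ = W.b₆ := by
    conv_rhs => rw [← univCurve_map_univSpec W, map_b₆]
  simp only [Polynomial.map_mul, Polynomial.map_sub, Polynomial.map_add, Polynomial.map_pow,
    Polynomial.map_X, map_univ_C, e2, e4, e6, Polynomial.map_ofNat, ← map_ΨSq, ← map_Φ,
    univCurve_map_univSpec] at h
  exact h

/-- The first coordinate of the multiplication identity. -/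
theorem Φ_mul_Φ (n : ℤ) :
    W.Φ (n + 1) * W.Φ (n - 1) =
      (X * W.Φ n) ^ 2 - C W.b₄ * (X * W.Φ n) * W.ΨSq n -
        C W.b₆ * (W.Φ n + X * W.ΨSq n) * W.ΨSq n - C W.b₈ * W.ΨSq n ^ 2 := by
  have h := congrArg (Polynomial.map (univSpec W)) (identities_of_charZero univCurve n).2.2
  have e8 : univSpec W univCurve.b₈ = W.b₈ := by
    conv_rhs => rw [← univCurve_map_univSpec W, map_b₈]
  have e4 : univSpec W univCurve.b₄ = W.b₄ := by
    conv_rhs => rw [← univCurve_map_univSpec W, map_b₄]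
  have e6 : univSpec W univCurve.b₆ = W.b₆ := by
    conv_rhs => rw [← univCurve_map_univSpec W, map_b₆]
  simp only [Polynomial.map_mul, Polynomial.map_sub, Polynomial.map_add, Polynomial.map_pow,
    Polynomial.map_X, map_univ_C, e4, e6, e8, ← map_ΨSq, ← map_Φ,
    univCurve_map_univSpec] at h
  exact h

end FLTA.EllTorsion
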