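import Mathlib.AlgebraicGeometry.EllipticCurve.Affine.Point
import Mathlib.FieldTheory.IsAlgClosed.Basic
import Mathlib.RingTheory.Norm.Basic

set_option autoImplicit false

/-!
# Basic tools on the affine coordinate ring of an elliptic curve

Evaluation at points, the degree at infinity, and ideals of points.
-/

open Polynomial
open scoped Polynomial.Bivariate
open WeierstrassCurve WeierstrassCurve.Affine

namespace FLTA.Elliptic.Weil

universe v

variable {K : Type v} [Field K] {W : WeierstrassCurve.Affine K}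

local notation "A" => CoordinateRing W

variable (W) in
/-- The coordinate function `x`. -/
noncomputable def xA : A := CoordinateRing.mk W (C X)

variable (W) in
/-- The coordinate function `y`. -/
noncomputable def yA : A := CoordinateRing.mk W Y

variable (W) in
/-- A constant function. -/
noncomputable def cA : K →+* A := ((CoordinateRing.mk W).comp C).comp C

theorem smul_def (c : K) (a : A) : c • a = cA W c * a := by
  rw [← algebraMap_smul K[X] c a, CoordinateRing.smul]
  rfl

theorem exists_repr (a : A) :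
    ∃ p q : K[X], a = CoordinateRing.mk W (C p) + CoordinateRing.mk W (C q) * yA W := by
  obtain ⟨p, q, h⟩ := CoordinateRing.exists_smul_basis_eq a
  refine ⟨p, q, ?_⟩
  rw [← h, CoordinateRing.smul, CoordinateRing.smul, mul_one]
  rfl

theorem equation_xA_yA :
    yA W ^ 2 + cA W W.a₁ * xA W * yA W + cA W W.a₃ * yA W
      - (xA W ^ 3 + cA W W.a₂ * xA W ^ 2 + cA W W.a₄ * xA W + cA W W.a₆) = 0 := by
  simp only [xA, yA, cA, RingHom.comp_apply, ← map_pow, ← map_mul, ← map_add, ← map_sub]
  refine AdjoinRoot.mk_eq_zero.mpr ⟨1, ?_⟩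
  rw [WeierstrassCurve.Affine.polynomial]
  simp only [map_add, map_mul, map_pow]
  ring

/-! ## Evaluation -/

/-- Evaluation at an affine point. -/
noncomputable def evalAt {x y : K} (h : W.Equation x y) : A →+* K :=
  AdjoinRoot.lift (evalRingHom x) y (by rw [Polynomial.eval₂_evalRingHom]; exact h)

theorem evalAt_mk {x y : K} (h : W.Equation x y) (f : K[X][Y]) :
    evalAt h (CoordinateRing.mk W f) = f.evalEval x y := by
  rw [evalAt, AdjoinRoot.lift_mk, Polynomial.eval₂_evalRingHom]

theorem evalAt_of {x y : K} (h : W.Equation x y) (p : K[X]) :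
    evalAt h (AdjoinRoot.of W.polynomial p) = p.eval x := by
  rw [evalAt, AdjoinRoot.lift_of]; rfl

theorem evalAt_root {x y : K} (h : W.Equation x y) :
    evalAt h (AdjoinRoot.root W.polynomial) = y :=
  AdjoinRoot.lift_root _

/-- Evaluation at a point, with the junk value `0` at infinity. -/
noncomputable def ev : W.Point → A → K
  | .zero => fun _ => 0
  | .some _ _ h => evalAt h.1

@[simp] theorem ev_zero (a : A) : ev (0 : W.Point) a = 0 := rfl

@[simp] theorem ev_some {x y : K} (h : W.Nonsingular x y) (a : A) :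
    ev (Point.some _ _ h) a = evalAt h.1 a := rfl

theorem ev_add (P : W.Point) (a b : A) : ev P (a + b) = ev P a + ev P b := by
  rcases P with _ | ⟨x, y, h⟩
  · exact (add_zero 0).symm
  · exact map_add _ a b

theorem ev_mul (P : W.Point) (a b : A) : ev P (a * b) = ev P a * ev P b := by
  rcases P with _ | ⟨x, y, h⟩
  · exact (mul_zero 0).symm
  · exact map_mul _ a b

theorem ev_sub (P : W.Point) (a b : A) : ev P (a - b) = ev P a - ev P b := by
  rcases P with _ | ⟨x, y, h⟩
  · exact (sub_zero 0).symm
  · exact map_sub _ a b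

@[simp] theorem ev_zero' (P : W.Point) : ev P (0 : A) = 0 := by
  rcases P with _ | ⟨x, y, h⟩
  · rfl
  · exact map_zero _

theorem ev_one {P : W.Point} (hP : P ≠ 0) : ev P (1 : A) = 1 := by
  rcases P with _ | ⟨x, y, h⟩
  · exact absurd rfl hP
  · exact map_one _

theorem ev_pow {P : W.Point} (hP : P ≠ 0) (a : A) (n : ℕ) : ev P (a ^ n) = ev P a ^ n := by
  rcases P with _ | ⟨x, y, h⟩
  · exact absurd rfl hP
  · exact map_pow _ a n

theorem ev_cA {P : W.Point} (hP : P ≠ 0) (c : K) : ev P (cA W c) = c := by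
  rcases P with _ | ⟨x, y, h⟩
  · exact absurd rfl hP
  · simp [cA, evalAt_of]

theorem ev_smul (P : W.Point) (c : K) (a : A) : ev P (c • a) = c * ev P a := by
  rcases P with _ | ⟨x, y, h⟩
  · exact (mul_zero c).symm
  · rw [smul_def, ev_mul, ev_cA (Point.some_ne_zero h)]

theorem evalAt_mk_C {x y : K} (h : W.Equation x y) (p : K[X]) :
    evalAt h (CoordinateRing.mk W (C p)) = p.eval x := by
  simp [evalAt_of]

@[simp] theorem evalAt_xA {x y : K} (h : W.Equation x y) : evalAt h (xA W) = x := by
  simp [xA, evalAt_of]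

@[simp] theorem evalAt_yA {x y : K} (h : W.Equation x y) : evalAt h (yA W) = y := by
  simp [yA, evalAt_root]

@[simp] theorem evalAt_cA {x y : K} (h : W.Equation x y) (c : K) : evalAt h (cA W c) = c := by
  simp [cA, evalAt_of]

/-! ## The conjugation `y ↦ -y - a₁ x - a₃` -/

variable (W) in
/-- The automorphism of the coordinate ring induced by negation. -/
noncomputable def negA : A →+* A :=
  AdjoinRoot.lift ((CoordinateRing.mk W).comp C) (CoordinateRing.mk W W.negPolynomial) <| by
    rw [← Polynomial.hom_eval₂, AdjoinRoot.mk_eq_zero]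
    refine ⟨1, ?_⟩
    rw [mul_one]
    simp only [WeierstrassCurve.Affine.polynomial, negPolynomial, eval₂_add, eval₂_sub, eval₂_pow,
      eval₂_mul, eval₂_X, eval₂_C]
    ring

@[simp] theorem negA_mk_C (p : K[X]) :
    negA W (CoordinateRing.mk W (C p)) = CoordinateRing.mk W (C p) := by
  rw [negA, AdjoinRoot.lift_mk, eval₂_C]
  rfl

theorem negA_yA : negA W (yA W) = CoordinateRing.mk W W.negPolynomial := by
  rw [negA, yA, AdjoinRoot.lift_mk, eval₂_X]

theorem negA_mk_negPolynomial : negA W (CoordinateRing.mk W W.negPolynomial) = yA W := by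
  conv_lhs => rw [negPolynomial, map_sub, map_neg, map_sub, map_neg]
  rw [show CoordinateRing.mk W (X : K[X][Y]) = yA W from rfl, negA_yA, negA_mk_C, negPolynomial,
    map_sub, map_neg]
  change -(-yA W - _) - _ = yA W
  ring

theorem negA_negA (a : A) : negA W (negA W a) = a := by
  obtain ⟨p, q, rfl⟩ := exists_repr a
  simp only [map_add, map_mul, negA_mk_C, negA_yA, negA_mk_negPolynomial]

theorem mk_norm (a : A) :
    CoordinateRing.mk W (C (Algebra.norm K[X] a)) = a * negA W a := by
  obtain ⟨p, q, rfl⟩ := exists_repr a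
  have hpq : CoordinateRing.mk W (C p) + CoordinateRing.mk W (C q) * yA W
      = p • (1 : A) + q • CoordinateRing.mk W Y := by
    rw [CoordinateRing.smul, CoordinateRing.smul, mul_one]; rfl
  simp only [map_add, map_mul, negA_mk_C, negA_yA]
  rw [show CoordinateRing.mk W (C (Algebra.norm K[X]
      (CoordinateRing.mk W (C p) + CoordinateRing.mk W (C q) * yA W)))
        = algebraMap K[X] A (Algebra.norm K[X]
      (CoordinateRing.mk W (C p) + CoordinateRing.mk W (C q) * yA W)) from rfl, hpq,
    show ∀ r : K[X], algebraMap K[X] A r = AdjoinRoot.of W.polynomial r from fun _ => rfl]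
  refine (CoordinateRing.coe_norm_smul_basis p q).trans ?_
  rw [← hpq]
  simp only [yA, negPolynomial, ← map_mul, ← map_add]

theorem negA_cA (c : K) : negA W (cA W c) = cA W c := negA_mk_C _

/-! ## Degree at infinity -/

theorem two_nsmul_bot : 2 • (⊥ : WithBot ℕ) = ⊥ := rfl

/-- The pole order at infinity. -/
noncomputable def wdeg (a : A) : WithBot ℕ := (Algebra.norm K[X] a).degree

theorem wdeg_mul (a b : A) : wdeg (a * b) = wdeg a + wdeg b := by
  rw [wdeg, map_mul, degree_mul]; rfl

theorem wdeg_repr (p q : K[X]) :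
    wdeg (CoordinateRing.mk W (C p) + CoordinateRing.mk W (C q) * yA W)
      = max (2 • p.degree) (2 • q.degree + 3) := by
  have hpq : CoordinateRing.mk W (C p) + CoordinateRing.mk W (C q) * yA W
      = p • (1 : A) + q • CoordinateRing.mk W Y := by
    rw [CoordinateRing.smul, CoordinateRing.smul, mul_one]; rfl
  rw [wdeg, hpq, CoordinateRing.degree_norm_smul_basis]

theorem wdeg_zero : wdeg (0 : A) = ⊥ := by
  have h := wdeg_repr (W := W) (0 : K[X]) 0
  simp only [map_zero, zero_mul, add_zero, degree_zero, two_nsmul_bot] at h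
  simpa using h

theorem wdeg_add_le (a b : A) : wdeg (a + b) ≤ max (wdeg a) (wdeg b) := by
  obtain ⟨p, q, rfl⟩ := exists_repr a
  obtain ⟨p', q', rfl⟩ := exists_repr b
  rw [show CoordinateRing.mk W (C p) + CoordinateRing.mk W (C q) * yA W +
      (CoordinateRing.mk W (C p') + CoordinateRing.mk W (C q') * yA W) =
      CoordinateRing.mk W (C (p + p')) + CoordinateRing.mk W (C (q + q')) * yA W by
    simp only [map_add]; ring]
  simp only [wdeg_repr]
  have hmono : ∀ u w : WithBot ℕ, u ≤ w → 2 • u + 3 ≤ 2 • w + 3 := fun u w huw =>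
    add_le_add (nsmul_le_nsmul_right huw 2) le_rfl
  refine max_le ?_ ?_
  · rcases le_max_iff.mp (degree_add_le p p') with h | h
    · exact (nsmul_le_nsmul_right h 2).trans (le_max_of_le_left (le_max_left _ _))
    · exact (nsmul_le_nsmul_right h 2).trans (le_max_of_le_right (le_max_left _ _))
  · rcases le_max_iff.mp (degree_add_le q q') with h | h
    · exact (hmono _ _ h).trans (le_max_of_le_left (le_max_right _ _))
    · exact (hmono _ _ h).trans (le_max_of_le_right (le_max_right _ _))

theorem wdeg_mk_C (p : K[X]) : wdeg (CoordinateRing.mk W (C p)) = 2 • p.degree := by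
  have h := wdeg_repr (W := W) p 0
  simp only [map_zero, zero_mul, add_zero, degree_zero] at h
  rw [h, two_nsmul_bot, WithBot.bot_add, max_bot_right]

theorem wdeg_cA_le (c : K) : wdeg (cA W c) ≤ 0 :=
  (wdeg_mk_C (C c)).trans_le <| by
    have := nsmul_le_nsmul_right (degree_C_le (a := c)) 2
    simpa using this

theorem wdeg_xA : wdeg (xA W) = 2 := by
  rw [xA, wdeg_mk_C, degree_X]; rfl

theorem wdeg_yA : wdeg (yA W) = 3 := by
  have h := wdeg_repr (W := W) 0 (1 : K[X])
  simp only [map_zero, map_one, one_mul, zero_add, degree_zero, degree_one] at h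
  rw [h, two_nsmul_bot, max_bot_left]
  simp

variable (W) in
/-- Functions regular away from infinity with pole order at most `n` there. -/
noncomputable def Lspace (n : ℕ) : Submodule K A where
  carrier := {a | wdeg a ≤ n}
  add_mem' {a b} ha hb := (wdeg_add_le a b).trans (max_le ha hb)
  zero_mem' := by
    show wdeg (0 : A) ≤ n
    rw [wdeg_zero]; exact bot_le
  smul_mem' c a ha := by
    show wdeg (c • a) ≤ n
    rw [smul_def, wdeg_mul]
    simpa using add_le_add (wdeg_cA_le c) ha

theorem mem_Lspace {n : ℕ} {a : A} : a ∈ Lspace W n ↔ wdeg a ≤ n := Iff.rfl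

theorem one_mem_Lspace (n : ℕ) : (1 : A) ∈ Lspace W n := by
  rw [mem_Lspace, ← map_one (cA W)]
  exact (wdeg_cA_le 1).trans (Nat.WithBot.coe_nonneg)

theorem Lspace_mono {m n : ℕ} (h : m ≤ n) : Lspace W m ≤ Lspace W n :=
  fun a (ha : wdeg a ≤ _) => show wdeg a ≤ _ from le_trans ha (Nat.cast_le.mpr h)

theorem mul_mem_Lspace {m n : ℕ} {a b : A} (ha : a ∈ Lspace W m) (hb : b ∈ Lspace W n) :
    a * b ∈ Lspace W (m + n) := by
  rw [mem_Lspace, wdeg_mul, Nat.cast_add]
  exact add_le_add ha hb

theorem cA_mem_Lspace (n : ℕ) (c : K) : cA W c ∈ Lspace W n :=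
  (wdeg_cA_le c).trans Nat.WithBot.coe_nonneg

theorem natDegree_norm_of_mem {n : ℕ} {a : A} (ha : a ∈ Lspace W n) :
    (Algebra.norm K[X] a).natDegree ≤ n :=
  natDegree_le_iff_degree_le.mpr ha

theorem degree_le_of_repr_mem {n : ℕ} {p q : K[X]}
    (h : CoordinateRing.mk W (C p) + CoordinateRing.mk W (C q) * yA W ∈ Lspace W n) :
    2 * p.natDegree ≤ n ∧ (q ≠ 0 → 2 * q.natDegree + 3 ≤ n) := by
  rw [mem_Lspace, wdeg_repr, max_le_iff] at h
  constructor
  · rcases eq_or_ne p 0 with rfl | hp
    · simp
    · have h1 := h.1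
      rw [degree_eq_natDegree hp, two_nsmul, ← Nat.cast_add, Nat.cast_le] at h1
      omega
  · intro hq
    have h2 := h.2
    rw [degree_eq_natDegree hq, two_nsmul, ← Nat.cast_add,
      show (3 : WithBot ℕ) = ((3 : ℕ) : WithBot ℕ) from rfl, ← Nat.cast_add, Nat.cast_le] at h2
    omega

instance finiteDimensional_Lspace (n : ℕ) : FiniteDimensional K (Lspace W n) := by
  let g : K[X] →ₗ[K] A :=
    { toFun := fun p => CoordinateRing.mk W (C p)
      map_add' := fun p q => by simp only [map_add]
      map_smul' := fun c p => by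
        simp only [RingHom.id_apply, smul_def, smul_eq_C_mul, cA, RingHom.comp_apply, map_mul] }
  let g' : K[X] →ₗ[K] A := (LinearMap.mulRight K (yA W)).comp g
  let V : Submodule K A :=
    (Polynomial.degreeLT K (n + 1)).map g ⊔ (Polynomial.degreeLT K (n + 1)).map g'
  have h0 : FiniteDimensional K (Polynomial.degreeLT K (n + 1)) :=
    LinearEquiv.finiteDimensional (Polynomial.degreeLTEquiv K (n + 1)).symm
  have h1 : FiniteDimensional K ((Polynomial.degreeLT K (n + 1)).map g) :=
    Module.Finite.map _ _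
  have h2 : FiniteDimensional K ((Polynomial.degreeLT K (n + 1)).map g') :=
    Module.Finite.map _ _
  haveI : FiniteDimensional K V := Submodule.finiteDimensional_sup _ _
  refine Submodule.finiteDimensional_of_le (show Lspace W n ≤ V from fun a ha => ?_)
  obtain ⟨p, q, rfl⟩ := exists_repr a
  obtain ⟨hp, hq⟩ := degree_le_of_repr_mem ha
  refine Submodule.add_mem_sup ⟨p, ?_, rfl⟩ ⟨q, ?_, rfl⟩
  · exact Polynomial.mem_degreeLT.mpr
      (degree_le_natDegree.trans_lt (by exact_mod_cast (by omega : p.natDegree < n + 1)))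
  · refine Polynomial.mem_degreeLT.mpr ?_
    rcases eq_or_ne q 0 with rfl | hq0
    · rw [degree_zero]; exact WithBot.bot_lt_coe _
    · have := hq hq0
      exact degree_le_natDegree.trans_lt (by exact_mod_cast (by omega : q.natDegree < n + 1))

theorem norm_ne_zero {a : A} (ha : a ≠ 0) : Algebra.norm K[X] a ≠ 0 :=
  (Algebra.norm_ne_zero_iff_of_basis (CoordinateRing.basis W) (x := a)).mpr ha

theorem exists_eq_cA_of_wdeg_le_zero {a : A} (h : wdeg a ≤ 0) : ∃ c : K, a = cA W c := by
  obtain ⟨p, q, rfl⟩ := exists_repr a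
  obtain ⟨hp, hq⟩ := degree_le_of_repr_mem (n := 0) (by exact_mod_cast h)
  have hq0 : q = 0 := by
    by_contra hq0
    exact absurd (hq hq0) (by omega)
  subst hq0
  refine ⟨p.coeff 0, ?_⟩
  rw [Polynomial.eq_C_of_natDegree_eq_zero (p := p) (by omega)]
  simp [cA]

theorem exists_eq_cA_of_isUnit {a : A} (h : IsUnit a) : ∃ c : K, c ≠ 0 ∧ a = cA W c := by
  obtain ⟨c, hc⟩ := exists_eq_cA_of_wdeg_le_zero (a := a)
    (le_of_eq (degree_eq_zero_of_isUnit (h.map (Algebra.norm K[X]))))
  refine ⟨c, fun h0 => h.ne_zero ?_, hc⟩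
  rw [hc, h0, map_zero]

end FLTA.Elliptic.Weil
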