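import Fermat.Agent.EllTorsion.WeilBasic
import Mathlib.RingTheory.ClassGroup.Basic
import Mathlib.Data.Set.Card

set_option autoImplicit false
set_option linter.unusedSectionVars false

/-!
# Ideals of points and zeros of functions on an elliptic curve
-/

open Polynomial
open scoped Polynomial.Bivariate
open WeierstrassCurve WeierstrassCurve.Affine

namespace FLTA.Elliptic.Weil

universe v

variable {K : Type v} [Field K] [DecidableEq K] {W : WeierstrassCurve.Affine K}

local notation "A" => CoordinateRing W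

variable (W) in
/-- The function `X - x`. -/
noncomputable def dA (x : K) : A := xA W - cA W x

theorem dA_eq_XClass (x : K) : dA W x = CoordinateRing.XClass W x := by
  simp [dA, xA, cA, CoordinateRing.XClass]

theorem dA_ne_zero (x : K) : dA W x ≠ 0 := by
  rw [dA_eq_XClass]; exact CoordinateRing.XClass_ne_zero x

theorem dA_eq_mk (x : K) : dA W x = CoordinateRing.mk W (C (X - C x)) := dA_eq_XClass x

theorem wdeg_dA (x : K) : wdeg (dA W x) = 2 := by
  rw [dA_eq_mk, wdeg_mk_C, degree_X_sub_C]; rfl

theorem dA_mem_Lspace (x : K) : dA W x ∈ Lspace W 2 := (wdeg_dA x).le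

variable (W) in
/-- The ideal of an affine point. -/
noncomputable def ptIdeal (x y : K) : Ideal A := CoordinateRing.XYIdeal W x (C y)

theorem ptIdeal_eq (x y : K) :
    ptIdeal W x y = Ideal.span {dA W x, yA W - cA W y} := by
  rw [ptIdeal, CoordinateRing.XYIdeal, dA_eq_XClass]
  congr 2

theorem dA_mem_ptIdeal (x y : K) : dA W x ∈ ptIdeal W x y := by
  rw [ptIdeal_eq]; exact Ideal.subset_span (Set.mem_insert _ _)

theorem yA_sub_mem_ptIdeal (x y : K) : yA W - cA W y ∈ ptIdeal W x y := by
  rw [ptIdeal_eq]; exact Ideal.subset_span (Set.mem_insert_of_mem _ rfl)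

theorem evalAt_dA {x y : K} (h : W.Equation x y) (c : K) : evalAt h (dA W c) = x - c := by
  simp [dA]

theorem ptIdeal_le_ker {x y : K} (h : W.Equation x y) :
    ptIdeal W x y ≤ RingHom.ker (evalAt h) := by
  rw [ptIdeal_eq, Ideal.span_le]
  rintro a (rfl | rfl) <;> simp [RingHom.mem_ker, evalAt_dA]

theorem ptIdeal_isMaximal {x y : K} (h : W.Equation x y) : (ptIdeal W x y).IsMaximal := by
  have e := CoordinateRing.quotientXYIdealEquiv (W' := W) (x := x) (y := C y)
    (by simpa [Affine.Equation, Polynomial.evalEval] using h)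
  exact Ideal.Quotient.maximal_of_isField _ (e.toMulEquiv.isField (Field.toIsField K))

theorem ptIdeal_eq_ker {x y : K} (h : W.Equation x y) :
    ptIdeal W x y = RingHom.ker (evalAt h) :=
  (ptIdeal_isMaximal h).eq_of_le (RingHom.ker_ne_top _) (ptIdeal_le_ker h)

theorem mem_ptIdeal_iff {x y : K} (h : W.Equation x y) (a : A) :
    a ∈ ptIdeal W x y ↔ evalAt h a = 0 := by
  rw [ptIdeal_eq_ker h, RingHom.mem_ker]

theorem ptIdeal_neg_mul {x y : K} (h : W.Nonsingular x y) :
    ptIdeal W x (W.negY x y) * ptIdeal W x y = Ideal.span {dA W x} := by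
  rw [dA_eq_XClass]; exact CoordinateRing.XYIdeal_neg_mul h

theorem map_negA_ptIdeal (x y : K) :
    (ptIdeal W x y).map (negA W) = ptIdeal W x (W.negY x y) := by
  rw [ptIdeal_eq, ptIdeal_eq, Ideal.map_span, Set.image_pair]
  have hd : negA W (dA W x) = dA W x := by rw [dA_eq_mk, negA_mk_C]
  have hy : negA W (yA W - cA W y) =
      -(yA W - cA W (W.negY x y)) - cA W W.a₁ * dA W x := by
    rw [map_sub, negA_cA, negA_yA, negY, dA]
    simp only [negPolynomial, map_sub, map_neg, map_add, map_mul, xA, yA, cA, RingHom.comp_apply]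
    ring
  rw [hd, hy, show -(yA W - cA W (W.negY x y)) - cA W W.a₁ * dA W x =
      -(yA W - cA W (W.negY x y)) + dA W x * -cA W W.a₁ by ring,
    Ideal.span_pair_add_left_mul, Ideal.span_insert, Ideal.span_singleton_neg,
    ← Ideal.span_insert]

/-- A factor of a power of the ideal of a point is a power of it. -/
theorem exists_eq_pow_of_mul_eq_pow {x y : K} (h : W.Nonsingular x y) :
    ∀ (k : ℕ) (I J : Ideal A), I * J = ptIdeal W x y ^ k → ∃ a ≤ k, I = ptIdeal W x y ^ a := by
  set P := ptIdeal W x y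
  set P' := ptIdeal W x (W.negY x y)
  have hPP' : P' * P = Ideal.span {dA W x} := ptIdeal_neg_mul h
  have hcancel : ∀ I J : Ideal A, P * I = P * J → I = J := by
    intro I J hIJ
    have := congrArg (P' * ·) hIJ
    simp only [← mul_assoc, hPP'] at this
    exact (Ideal.span_singleton_mul_right_inj (dA_ne_zero x)).mp this
  have key : ∀ I : Ideal A, I ≤ P → ∃ I', I = P * I' := by
    intro I hI
    refine ⟨(P' * I).colon {dA W x}, ?_⟩
    have hle : P' * I ≤ Ideal.span {dA W x} := (Ideal.mul_mono_right hI).trans hPP'.le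
    have : Ideal.span {dA W x} * (P' * I).colon {dA W x} = P' * I := by
      refine le_antisymm (Ideal.span_singleton_mul_le_iff.mpr fun z hz => ?_) fun z hz => ?_
      · rw [Submodule.mem_colon_singleton] at hz
        rw [mul_comm (dA W x) z]; exact hz
      · obtain ⟨t, rfl⟩ := Ideal.mem_span_singleton'.mp (hle hz)
        rw [mul_comm t, Ideal.mem_span_singleton_mul]
        exact ⟨t, Submodule.mem_colon_singleton.mpr hz, rfl⟩
    refine (Ideal.span_singleton_mul_right_inj (dA_ne_zero x)).mp ?_
    generalize (P' * I).colon {dA W x} = J at this ⊢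
    calc Ideal.span {dA W x} * I = P * (P' * I) := by rw [← hPP']; ring
      _ = P * (Ideal.span {dA W x} * J) := by rw [this]
      _ = _ := by ring
  intro k
  induction k with
  | zero =>
    intro I J hIJ
    refine ⟨0, le_rfl, ?_⟩
    rw [pow_zero, Ideal.one_eq_top] at hIJ ⊢
    exact top_le_iff.mp (hIJ ▸ Ideal.mul_le_left)
  | succ k ih =>
    intro I J hIJ
    have hprime : P.IsPrime := (ptIdeal_isMaximal h.1).isPrime
    have hle : I * J ≤ P := hIJ.trans_le (Ideal.pow_le_self k.succ_ne_zero)
    rcases hprime.mul_le.mp hle with hI | hJ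
    · obtain ⟨I', rfl⟩ := key I hI
      have : I' * J = P ^ k := hcancel _ _ (by rw [← mul_assoc, hIJ, pow_succ'])
      obtain ⟨a, ha, rfl⟩ := ih I' J this
      exact ⟨a + 1, by omega, (pow_succ' P a).symm⟩
    · obtain ⟨J', rfl⟩ := key J hJ
      have : I * J' = P ^ k := hcancel _ _ (by rw [← pow_succ', ← hIJ]; ring)
      obtain ⟨a, ha, rfl⟩ := ih I J' this
      exact ⟨a, by omega, rfl⟩

/-- If `(g)` is the `a`-th power of the ideal of a point, then `g` has pole order `a`. -/
theorem wdeg_eq_of_span_eq_pow {x y : K} (h : W.Nonsingular x y) {g : A} {a : ℕ}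
    (hg : Ideal.span {g} = ptIdeal W x y ^ a) : wdeg g = a := by
  have h' : Ideal.span {g * negA W g} = Ideal.span {dA W x ^ a} := by
    rw [← Ideal.span_singleton_mul_span_singleton, ← Ideal.span_singleton_pow,
      show Ideal.span {negA W g} = (Ideal.span {g}).map (negA W) by
        rw [Ideal.map_span, Set.image_singleton],
      hg, Ideal.map_pow, map_negA_ptIdeal, ← mul_pow, mul_comm, ptIdeal_neg_mul h]
  obtain ⟨u, hu⟩ := Ideal.span_singleton_eq_span_singleton.mp h'
  obtain ⟨c, hc0, hc⟩ := exists_eq_cA_of_isUnit u.isUnit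
  rw [← mk_norm, hc, dA_eq_mk, show cA W c = CoordinateRing.mk W (C (C c)) from rfl,
    ← map_pow, ← map_pow, ← map_mul, ← map_mul] at hu
  have hinj : Function.Injective fun p : K[X] => CoordinateRing.mk W (C p) :=
    FaithfulSMul.algebraMap_injective K[X] A
  have hd := congrArg Polynomial.degree (hinj hu)
  rw [degree_mul, degree_C hc0, add_zero, degree_pow, degree_X_sub_C, nsmul_one] at hd
  rw [wdeg, hd]

variable [W.IsElliptic]

theorem nonsingular_of_equation {x y : K} (h : W.Equation x y) : W.Nonsingular x y :=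
  equation_iff_nonsingular.mp h

theorem exists_equation [IsAlgClosed K] (x : K) : ∃ y : K, W.Equation x y := by
  have hd : (Polynomial.X ^ 2 + Polynomial.C (W.a₁ * x + W.a₃) * Polynomial.X -
      Polynomial.C (x ^ 3 + W.a₂ * x ^ 2 + W.a₄ * x + W.a₆) : K[X]).degree = 2 := by
    compute_degree!
  obtain ⟨y, hy⟩ := IsAlgClosed.exists_root _ (by rw [hd]; exact two_ne_zero)
  refine ⟨y, (Affine.equation_iff ..).mpr ?_⟩
  simp only [IsRoot.def, eval_sub, eval_add, eval_pow, eval_X, eval_mul, eval_C] at hy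
  linear_combination hy

/-- The abscissa of a point, with a junk value at infinity. -/
noncomputable def xc : W.Point → K
  | .zero => 0
  | .some x _ _ => x

theorem eq_or_eq_neg_of_xc {P Q : W.Point} (hP : P ≠ 0) (hQ : Q ≠ 0) (h : xc P = xc Q) :
    P = Q ∨ P = -Q := by
  rcases P with _ | ⟨x, y, hp⟩
  · exact absurd rfl hP
  rcases Q with _ | ⟨x', y', hq⟩
  · exact absurd rfl hQ
  exact Point.X_eq_iff.mp h

/-- The affine zeros of a function. -/
def zeros (a : A) : Set W.Point := {P | P ≠ 0 ∧ ev P a = 0}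

theorem isRoot_norm_of_mem_zeros {a : A} {P : W.Point} (h : P ∈ zeros a) :
    (Algebra.norm K[X] a).IsRoot (xc P) := by
  obtain ⟨hP, h⟩ := h
  rcases P with _ | ⟨x, y, hp⟩
  · exact absurd rfl hP
  show (Algebra.norm K[X] a).eval x = 0
  rw [← evalAt_mk_C hp.1, mk_norm, map_mul]
  rw [ev_some] at h
  rw [h, zero_mul]

theorem zeros_finite_and_ncard_le {a : A} (ha : a ≠ 0) :
    (zeros a).Finite ∧ ∀ n : ℕ, a ∈ Lspace W n → (zeros a).ncard ≤ 2 * n := by
  classical
  set R := (Algebra.norm K[X] a).roots.toFinset with hR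
  have hmaps : ∀ P ∈ zeros a, xc P ∈ R := fun P hP => by
    rw [hR, Multiset.mem_toFinset, mem_roots (norm_ne_zero ha)]
    exact isRoot_norm_of_mem_zeros hP
  have hfib : ∀ r : K, {P ∈ zeros a | xc P = r}.Finite ∧ {P ∈ zeros a | xc P = r}.ncard ≤ 2 := by
    intro r
    rcases Set.eq_empty_or_nonempty {P ∈ zeros a | xc P = r} with he | ⟨P, hP, hPr⟩
    · simp [he]
    have hsub : {Q ∈ zeros a | xc Q = r} ⊆ {P, -P} := fun Q ⟨hQ, hQr⟩ =>
      eq_or_eq_neg_of_xc hQ.1 hP.1 (hQr.trans hPr.symm)
    exact ⟨(Set.toFinite _).subset hsub,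
      (Set.ncard_le_ncard hsub (Set.toFinite _)).trans
        ((Set.ncard_insert_le _ _).trans (by rw [Set.ncard_singleton]))⟩
  have hfin : (zeros a).Finite :=
    ((R.finite_toSet).biUnion fun r _ => (hfib r).1).subset fun P hP => by
      simp only [Set.mem_iUnion]
      exact ⟨xc P, hmaps P hP, hP, rfl⟩
  refine ⟨hfin, fun n hn => ?_⟩
  calc (zeros a).ncard = hfin.toFinset.card := Set.ncard_eq_toFinset_card _ hfin
    _ ≤ 2 * R.card := by
        refine Finset.card_le_mul_card_image_of_maps_to (f := xc)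
          (fun P hP => hmaps P (hfin.mem_toFinset.mp hP)) 2 fun r _ => ?_
        rw [← Set.ncard_coe_finset]
        refine le_trans (Set.ncard_le_ncard ?_ (hfib r).1) (hfib r).2
        intro P hP
        simpa using hP
    _ ≤ 2 * n := Nat.mul_le_mul_left _ ((Multiset.toFinset_card_le _).trans
        ((card_roots' _).trans (natDegree_norm_of_mem hn)))

theorem exists_zero_of_forall_ne_cA [IsAlgClosed K] {a : A} (h : ∀ c : K, a ≠ cA W c) :
    (zeros a).Nonempty := by
  have hdeg : (Algebra.norm K[X] a).degree ≠ 0 := fun h0 => by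
    obtain ⟨c, hc⟩ := exists_eq_cA_of_wdeg_le_zero (a := a) h0.le
    exact h c hc
  obtain ⟨x, hx⟩ := IsAlgClosed.exists_root _ hdeg
  obtain ⟨y, hy⟩ := exists_equation (W := W) x
  have h0 : evalAt hy (CoordinateRing.mk W (C (Algebra.norm K[X] a))) = 0 := by
    rw [evalAt_mk_C]; exact hx
  rw [mk_norm, map_mul, mul_eq_zero] at h0
  rcases h0 with h0 | h0
  · exact ⟨Point.some _ _ (nonsingular_of_equation hy), Point.some_ne_zero _, h0⟩
  · have hy' : W.Equation x (W.negY x y) := (equation_neg x y).mpr hy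
    refine ⟨Point.some _ _ (nonsingular_of_equation hy'), Point.some_ne_zero _, ?_⟩
    rw [ev_some]
    refine Eq.trans ?_ h0
    obtain ⟨p, q, rfl⟩ := exists_repr a
    simp only [map_add, map_mul, negA_mk_C, negA_yA, evalAt_mk_C, evalAt_yA]
    rw [show evalAt hy (CoordinateRing.mk W W.negPolynomial) = W.negY x y by
      rw [evalAt_mk, negPolynomial]; simp [evalEval, negY]; ring]

theorem infinite_point [IsAlgClosed K] : Infinite W.Point := by
  refine Infinite.of_surjective (β := K) xc fun x => ?_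
  obtain ⟨y, hy⟩ := exists_equation (W := W) x
  exact ⟨Point.some _ _ (nonsingular_of_equation hy), rfl⟩

theorem eventually_ne (Q : W.Point) : ∀ᶠ P in Filter.cofinite, P ≠ Q :=
  (Set.finite_singleton Q).eventually_cofinite_notMem

theorem eventually_ev_ne_zero {a : A} (ha : a ≠ 0) :
    ∀ᶠ P : W.Point in Filter.cofinite, ev P a ≠ 0 := by
  filter_upwards [((zeros_finite_and_ncard_le ha).1).eventually_cofinite_notMem,
    eventually_ne 0] with P h1 h2 h3
  exact h1 ⟨h2, h3⟩

theorem eq_of_eventually [IsAlgClosed K] {a b : A}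
    (h : ∀ᶠ P : W.Point in Filter.cofinite, ev P a = ev P b) : a = b := by
  by_contra hab
  have := infinite_point (W := W)
  obtain ⟨P, h1, h2⟩ := (h.and (eventually_ev_ne_zero (sub_ne_zero.mpr hab))).exists
  exact h2 (by rw [ev_sub, h1, sub_self])

theorem eventually_sub {p : W.Point → Prop} (U : W.Point)
    (h : ∀ᶠ P in Filter.cofinite, p P) : ∀ᶠ P in Filter.cofinite, p (P - U) :=
  (Function.Injective.tendsto_cofinite (sub_left_injective (b := U))).eventually h

end FLTA.Elliptic.Weil
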