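import Fermat.Agent.EllTorsion.WeilUnique
import Mathlib.RingTheory.RootsOfUnity.PrimitiveRoots
import Mathlib.LinearAlgebra.Matrix.NonsingularInverse
import Mathlib.LinearAlgebra.FiniteDimensional.Basic
import Mathlib.Algebra.Module.Torsion.Basic

set_option autoImplicit false
set_option linter.unusedSectionVars false

/-!
# The Weil pairing of prime level, as a commutator in the theta group
-/

open Polynomial
open scoped Polynomial.Bivariate
open WeierstrassCurve WeierstrassCurve.Affine

namespace FLTA.Elliptic.Weil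

universe v

variable {K : Type v} [Field K] [DecidableEq K] [IsAlgClosed K] {W : WeierstrassCurve.Affine K}
  [W.IsElliptic] {p : ℕ} [Fact p.Prime]

local notation "A" => CoordinateRing W
local notation "T" => Submodule.torsionBy ℤ W.Point (p : ℤ)

omit [Fact p.Prime] in
theorem nsmul_coe_torsion (U : T) : p • (U : W.Point) = 0 := by
  have h := U.2
  rw [Submodule.mem_torsionBy_iff, natCast_zsmul] at h
  exact h

omit [Fact p.Prime] in
theorem eq_of_smul_twist_eq {U : W.Point} {L : Module.End K (Lspace W p)} (hL : IsTwist U L)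
    {c d : K} (h : c • L = d • L) : c = d := by
  have hne : L (oneL W p) ≠ 0 := fun h0 => hL.coe_one_ne_zero (congrArg Subtype.val h0)
  exact smul_left_injective K hne (LinearMap.congr_fun h (oneL W p))

theorem exists_comm_scalar (hp2 : p ≠ 2) (U V : T) :
    ∃ e : K, e ≠ 0 ∧ ∀ L M : Module.End K (Lspace W p), IsTwist (U : W.Point) L →
      IsTwist (V : W.Point) M → L * M = e • (M * L) := by
  obtain ⟨L₀, hL₀⟩ := exists_isTwist (nsmul_coe_torsion U)
  obtain ⟨M₀, hM₀⟩ := exists_isTwist (nsmul_coe_torsion V)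
  have hUV : p • ((U : W.Point) + (V : W.Point)) = 0 := by
    rw [nsmul_add, nsmul_coe_torsion, nsmul_coe_torsion, add_zero]
  have h2 : IsTwist ((U : W.Point) + (V : W.Point)) (M₀ * L₀) := add_comm (V : W.Point) (U : W.Point) ▸ hM₀.mul hL₀
  obtain ⟨e, he0, he⟩ := h2.exists_eq_smul hp2 hUV (hL₀.mul hM₀)
  refine ⟨e, he0, fun L M hL hM => ?_⟩
  obtain ⟨a, -, rfl⟩ := hL₀.exists_eq_smul hp2 (nsmul_coe_torsion U) hL
  obtain ⟨b, -, rfl⟩ := hM₀.exists_eq_smul hp2 (nsmul_coe_torsion V) hM
  rw [smul_mul_smul_comm, smul_mul_smul_comm, he, smul_smul, smul_smul, mul_comm b a,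
    mul_comm (a * b)]

/-- The Weil pairing on the `p`-torsion, for an odd prime `p`. -/
noncomputable def weilPairing (hp2 : p ≠ 2) (U V : T) : K := (exists_comm_scalar hp2 U V).choose

theorem weilPairing_ne_zero (hp2 : p ≠ 2) (U V : T) : weilPairing hp2 U V ≠ 0 :=
  (exists_comm_scalar hp2 U V).choose_spec.1

theorem weilPairing_spec (hp2 : p ≠ 2) {U V : T} {L M : Module.End K (Lspace W p)}
    (hL : IsTwist (U : W.Point) L) (hM : IsTwist (V : W.Point) M) :
    L * M = weilPairing hp2 U V • (M * L) :=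
  (exists_comm_scalar hp2 U V).choose_spec.2 L M hL hM

theorem weilPairing_eq (hp2 : p ≠ 2) {U V : T} {L M : Module.End K (Lspace W p)}
    (hL : IsTwist (U : W.Point) L) (hM : IsTwist (V : W.Point) M) {c : K}
    (h : L * M = c • (M * L)) : weilPairing hp2 U V = c :=
  eq_of_smul_twist_eq (hM.mul hL) ((weilPairing_spec hp2 hL hM).symm.trans h)

theorem weilPairing_self (hp2 : p ≠ 2) (U : T) : weilPairing hp2 U U = 1 := by
  obtain ⟨L, hL⟩ := exists_isTwist (nsmul_coe_torsion U)
  exact weilPairing_eq hp2 hL hL (one_smul K _).symm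

theorem weilPairing_swap (hp2 : p ≠ 2) (U V : T) :
    weilPairing hp2 V U * weilPairing hp2 U V = 1 := by
  obtain ⟨L, hL⟩ := exists_isTwist (nsmul_coe_torsion U)
  obtain ⟨M, hM⟩ := exists_isTwist (nsmul_coe_torsion V)
  refine eq_of_smul_twist_eq (hM.mul hL) ?_
  rw [one_smul, ← smul_smul, ← weilPairing_spec hp2 hL hM, ← weilPairing_spec hp2 hM hL]

theorem weilPairing_add_left (hp2 : p ≠ 2) (U U' V : T) :
    weilPairing hp2 (U + U') V = weilPairing hp2 U V * weilPairing hp2 U' V := by
  obtain ⟨L, hL⟩ := exists_isTwist (nsmul_coe_torsion U)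
  obtain ⟨L', hL'⟩ := exists_isTwist (nsmul_coe_torsion U')
  obtain ⟨M, hM⟩ := exists_isTwist (nsmul_coe_torsion V)
  refine weilPairing_eq hp2 (L := L * L') (M := M) (hL.mul hL') hM ?_
  rw [mul_assoc, weilPairing_spec hp2 hL' hM, mul_smul_comm, ← mul_assoc,
    weilPairing_spec hp2 hL hM, smul_mul_assoc, smul_smul, mul_assoc M, mul_comm]

theorem weilPairing_add_right (hp2 : p ≠ 2) (U V V' : T) :
    weilPairing hp2 U (V + V') = weilPairing hp2 U V * weilPairing hp2 U V' := by
  have h := weilPairing_swap hp2 U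
  refine mul_left_cancel₀ (weilPairing_ne_zero hp2 (V + V') U) ?_
  rw [h (V + V'), weilPairing_add_left, mul_mul_mul_comm, h V, h V', one_mul]

theorem weilPairing_zero_left (hp2 : p ≠ 2) (V : T) : weilPairing hp2 0 V = 1 := by
  have h := weilPairing_add_left hp2 (0 : T) 0 V
  rw [add_zero] at h
  exact (mul_eq_left₀ (weilPairing_ne_zero hp2 0 V)).mp h.symm

theorem weilPairing_nsmul_left (hp2 : p ≠ 2) (n : ℕ) (U V : T) :
    weilPairing hp2 (n • U) V = weilPairing hp2 U V ^ n := by
  induction n with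
  | zero => rw [zero_smul, weilPairing_zero_left, pow_zero]
  | succ n ih => rw [succ_nsmul, weilPairing_add_left, ih, pow_succ]

theorem weilPairing_nsmul_right (hp2 : p ≠ 2) (n : ℕ) (U V : T) :
    weilPairing hp2 U (n • V) = weilPairing hp2 U V ^ n := by
  refine mul_left_cancel₀ (weilPairing_ne_zero hp2 (n • V) U) ?_
  rw [weilPairing_swap, weilPairing_nsmul_left, ← mul_pow, weilPairing_swap, one_pow]

theorem weilPairing_pow (hp2 : p ≠ 2) (U V : T) : weilPairing hp2 U V ^ p = 1 := by
  rw [← weilPairing_nsmul_left, show p • U = 0 from Subtype.ext (nsmul_coe_torsion U),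
    weilPairing_zero_left]

/-- Nondegeneracy: if two points span the `p`-torsion, and this has order `p ^ 2`, then their
pairing is nontrivial. -/
theorem weilPairing_ne_one (hp2 : p ≠ 2) (hcard : Nat.card T = p ^ 2) (U V : T)
    (hspan : ∀ X : T, ∃ i j : ℕ, X = i • U + j • V) : weilPairing hp2 U V ≠ 1 := by
  intro h1
  obtain ⟨L, hL⟩ := exists_isTwist (nsmul_coe_torsion U)
  obtain ⟨M, hM⟩ := exists_isTwist (nsmul_coe_torsion V)
  have hcomm : L * M = M * L := by rw [weilPairing_spec hp2 hL hM, h1, one_smul]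
  -- a common eigenvector
  haveI : Nontrivial (Lspace W p) :=
    nontrivial_of_ne (oneL W p) 0 fun h => one_ne_zero (α := A) (congrArg Subtype.val h)
  obtain ⟨μ, hμ⟩ := Module.End.exists_eigenvalue L
  have hst : ∀ a ∈ L.eigenspace μ, M a ∈ L.eigenspace μ := fun a ha => by
    rw [Module.End.mem_eigenspace_iff] at ha ⊢
    rw [← Module.End.mul_apply, hcomm, Module.End.mul_apply, ha, map_smul]
  haveI : Nontrivial (L.eigenspace μ) := Submodule.nontrivial_iff_ne_bot.mpr hμ
  let R₀ : Module.End K (L.eigenspace μ) := M.restrict hst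
  obtain ⟨ν, hν⟩ := Module.End.exists_eigenvalue (K := K) (V := L.eigenspace μ) R₀
  obtain ⟨a, ha, ha0⟩ := hν.exists_hasEigenvector
  rw [Module.End.mem_eigenspace_iff] at ha
  have hane : (a : Lspace W p) ≠ 0 := fun h => ha0 (Subtype.ext h)
  have hMa : M (a : Lspace W p) = ν • (a : Lspace W p) := congrArg Subtype.val ha
  have hLa : L (a : Lspace W p) = μ • (a : Lspace W p) :=
    Module.End.mem_eigenspace_iff.mp a.2
  -- the points whose lift fixes the line of `a` form a monoid
  let S : AddSubmonoid T :=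
    { carrier := {X | ∀ N : Module.End K (Lspace W p), IsTwist (X : W.Point) N →
        ∃ c : K, N (a : Lspace W p) = c • (a : Lspace W p)}
      zero_mem' := fun N hN => by
        obtain ⟨c, -, rfl⟩ := IsTwist.eq_smul_one_of_zero hN
        exact ⟨c, rfl⟩
      add_mem' := by
        intro X₁ Y₁ hX hY
        change ∀ N : Module.End K (Lspace W p), _ → _
        intro N hN
        obtain ⟨LX, hLX⟩ := exists_isTwist (nsmul_coe_torsion X₁)
        obtain ⟨LY, hLY⟩ := exists_isTwist (nsmul_coe_torsion Y₁)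
        obtain ⟨c, -, rfl⟩ := (hLX.mul hLY).exists_eq_smul hp2
          (nsmul_coe_torsion (X₁ + Y₁)) hN
        obtain ⟨cx, hcx⟩ := hX LX hLX
        obtain ⟨cy, hcy⟩ := hY LY hLY
        refine ⟨c * cy * cx, ?_⟩
        rw [LinearMap.smul_apply, Module.End.mul_apply, hcy, map_smul, hcx, smul_smul, smul_smul] }
  have hgen : ∀ (X : T) (N : Module.End K (Lspace W p)) (c : K), IsTwist (X : W.Point) N →
      N (a : Lspace W p) = c • (a : Lspace W p) → X ∈ S := by
    intro X N c hN hNa
    show ∀ N' : Module.End K (Lspace W p), _ → _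
    intro N' hN'
    obtain ⟨d, -, rfl⟩ := hN.exists_eq_smul hp2 (nsmul_coe_torsion X) hN'
    exact ⟨d * c, by rw [LinearMap.smul_apply, hNa, smul_smul]⟩
  refine no_common_eigenvector hp2 ((T : Submodule ℤ W.Point) : Set W.Point)
    (fun X hX => nsmul_coe_torsion ⟨X, hX⟩) ?_ hane fun X hX N hN => ?_
  · rw [← Nat.card_coe_set_eq]; exact hcard
  · obtain ⟨i, j, hij⟩ := hspan ⟨X, hX⟩
    have hmem : (⟨X, hX⟩ : T) ∈ S := hij ▸ S.add_mem (S.nsmul_mem (hgen U L μ hL hLa) i)
      (S.nsmul_mem (hgen V M ν hM hMa) j)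
    exact (show ∀ N' : Module.End K (Lspace W p), IsTwist X N' → _ from hmem) N hN

theorem weilPairing_isPrimitiveRoot (hp2 : p ≠ 2) (hcard : Nat.card T = p ^ 2) (U V : T)
    (hspan : ∀ X : T, ∃ i j : ℕ, X = i • U + j • V) :
    IsPrimitiveRoot (weilPairing hp2 U V) p := by
  have hord : orderOf (weilPairing hp2 U V) = p :=
    orderOf_eq_prime (weilPairing_pow hp2 U V) (weilPairing_ne_one hp2 hcard U V hspan)
  have h := IsPrimitiveRoot.orderOf (weilPairing hp2 U V)
  rwa [hord] at h

end FLTA.Elliptic.Weil
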