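import Fermat.Agent.EllTorsion.WeilIdeals

set_option autoImplicit false
set_option linter.unusedSectionVars false

/-!
# Translates of functions with a pole only at infinity

For a point `U = (x, y)` and `h` with pole order at most `k` at infinity, `(X - x) ^ k * h(P - U)`
is a regular function of pole order at most `2 k`, in the `k`-th power of the ideal of `-U`.
-/

open Polynomial
open scoped Polynomial.Bivariate
open WeierstrassCurve WeierstrassCurve.Affine

namespace FLTA.Elliptic.Weil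

universe v

variable {K : Type v} [Field K] [DecidableEq K] [IsAlgClosed K] {W : WeierstrassCurve.Affine K}
  [W.IsElliptic] {x y : K}

local notation "A" => CoordinateRing W

variable (W) in
/-- The numerator of the abscissa of `P - (x, y)`. -/
noncomputable def numX (x y : K) : A :=
  (yA W - cA W (W.negY x y)) ^ 2 + cA W W.a₁ * (yA W - cA W (W.negY x y)) * dA W x
    - (cA W W.a₂ + xA W + cA W x) * dA W x ^ 2

variable (W) in
/-- The numerator of the ordinate of `P - (x, y)`. -/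
noncomputable def numY (x y : K) : A :=
  -((yA W - cA W (W.negY x y)) * (numX W x y - xA W * dA W x ^ 2) + yA W * dA W x ^ 3)
    - cA W W.a₁ * numX W x y * dA W x - cA W W.a₃ * dA W x ^ 3

theorem numX_mem_pow (x y : K) : numX W x y ∈ ptIdeal W x (W.negY x y) ^ 2 := by
  have hu := yA_sub_mem_ptIdeal (W := W) x (W.negY x y)
  have hd := dA_mem_ptIdeal (W := W) x (W.negY x y)
  refine sub_mem (add_mem (Ideal.pow_mem_pow hu 2) ?_)
    (Ideal.mul_mem_left _ _ (Ideal.pow_mem_pow hd 2))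
  rw [mul_assoc, sq]
  exact Ideal.mul_mem_left _ _ (Ideal.mul_mem_mul hu hd)

theorem numY_mem_pow (x y : K) : numY W x y ∈ ptIdeal W x (W.negY x y) ^ 3 := by
  have hu := yA_sub_mem_ptIdeal (W := W) x (W.negY x y)
  have hd := dA_mem_ptIdeal (W := W) x (W.negY x y)
  have hN := numX_mem_pow (W := W) x y
  refine sub_mem (sub_mem (neg_mem (add_mem ?_ (Ideal.mul_mem_left _ _ (Ideal.pow_mem_pow hd 3))))
    ?_) (Ideal.mul_mem_left _ _ (Ideal.pow_mem_pow hd 3))
  · rw [pow_succ' _ 2]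
    exact Ideal.mul_mem_mul hu (sub_mem hN (Ideal.mul_mem_left _ _ (Ideal.pow_mem_pow hd 2)))
  · rw [mul_assoc, pow_succ]
    exact Ideal.mul_mem_left _ _ (Ideal.mul_mem_mul hN hd)

theorem numX_mem_Lspace (h : W.Nonsingular x y) : numX W x y ∈ Lspace W 4 := by
  set yb := W.negY x y
  have heq := equation_xA_yA (W := W)
  have key : numX W x y =
      (cA W x * xA W ^ 2
        + cA W (W.a₄ + 2 * W.a₂ * x + x ^ 2 - W.a₁ * yb) * xA W
        + cA W (W.a₆ - W.a₂ * x ^ 2 - x ^ 3 + yb ^ 2 + W.a₁ * yb * x))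
      + cA W (-W.a₃ - 2 * yb - W.a₁ * x) * yA W := by
    simp only [numX, dA, map_add, map_sub, map_neg, map_mul, map_pow, map_ofNat, yb]
    linear_combination heq
  have hx : xA W ∈ Lspace W 2 := (wdeg_xA).le
  have hy : yA W ∈ Lspace W 3 := (wdeg_yA).le
  rw [key]
  refine add_mem (add_mem (add_mem ?_ ?_) (cA_mem_Lspace 4 _)) ?_
  · rw [sq]
    exact mul_mem_Lspace (m := 0) (cA_mem_Lspace 0 _) (mul_mem_Lspace hx hx)
  · exact Lspace_mono (by omega) (mul_mem_Lspace (cA_mem_Lspace 2 _) hx)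
  · exact mul_mem_Lspace (cA_mem_Lspace 1 _) hy

theorem sub_some_eq {x' y' : K} (h : W.Nonsingular x y) (hP : W.Nonsingular x' y') (hne : x' ≠ x) :
    ∃ hn, Point.some _ _ hP - Point.some _ _ h =
      Point.some (W.addX x' x (W.slope x' x y' (W.negY x y)))
        (W.addY x' x y' (W.slope x' x y' (W.negY x y))) hn := by
  refine ⟨nonsingular_add hP ((nonsingular_neg ..).mpr h) fun e => hne e.1, ?_⟩
  rw [sub_eq_add_neg, Point.neg_some, Point.add_of_X_ne hne]

theorem ne_and_ne_neg {x' y' : K} {h : W.Nonsingular x y} {hP : W.Nonsingular x' y'}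
    (h1 : Point.some _ _ hP ≠ Point.some _ _ h) (h2 : Point.some _ _ hP ≠ -Point.some _ _ h) :
    x' ≠ x := fun e => (Point.X_eq_iff.mp e).elim h1 h2

theorem ev_numX (h : W.Nonsingular x y) {P : W.Point} (hP0 : P ≠ 0)
    (hP1 : P ≠ Point.some _ _ h) (hP2 : P ≠ -Point.some _ _ h) :
    ev P (numX W x y) = ev P (dA W x) ^ 2 * ev (P - Point.some _ _ h) (xA W) := by
  rcases P with _ | ⟨x', y', hP⟩
  · exact absurd rfl hP0
  have hne := ne_and_ne_neg hP1 hP2
  have hd : x' - x ≠ 0 := sub_ne_zero.mpr hne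
  obtain ⟨hn, e⟩ := sub_some_eq h hP hne
  rw [e]
  simp only [ev_some, numX, map_add, map_sub, map_mul, map_pow, evalAt_dA, evalAt_xA, evalAt_yA,
    evalAt_cA, addX, slope_of_X_ne hne]
  field_simp
  ring

theorem ev_numY (h : W.Nonsingular x y) {P : W.Point} (hP0 : P ≠ 0)
    (hP1 : P ≠ Point.some _ _ h) (hP2 : P ≠ -Point.some _ _ h) :
    ev P (numY W x y) = ev P (dA W x) ^ 3 * ev (P - Point.some _ _ h) (yA W) := by
  have hx := ev_numX h hP0 hP1 hP2
  rcases P with _ | ⟨x', y', hP⟩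
  · exact absurd rfl hP0
  have hne := ne_and_ne_neg hP1 hP2
  have hd : x' - x ≠ 0 := sub_ne_zero.mpr hne
  obtain ⟨hn, e⟩ := sub_some_eq h hP hne
  rw [e] at hx ⊢
  simp only [ev_some, evalAt_dA, evalAt_xA] at hx
  simp only [ev_some, numY, map_add, map_sub, map_neg, map_mul, map_pow, evalAt_dA, evalAt_xA,
    evalAt_yA, evalAt_cA, hx, addY, negAddY, negY]
  rw [slope_of_X_ne hne]
  field_simp

theorem numY_mem_Lspace (h : W.Nonsingular x y) : numY W x y ∈ Lspace W 6 := by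
  set N := numX W x y
  set d := dA W x
  set t := cA W W.a₁ * N * d + cA W W.a₃ * d ^ 3 with ht'
  set r := N ^ 3 + cA W W.a₂ * N ^ 2 * d ^ 2 + cA W W.a₄ * N * d ^ 4 + cA W W.a₆ * d ^ 6 with hr'
  have hNd : N ∈ Lspace W 4 := numX_mem_Lspace h
  have hdd : d ∈ Lspace W 2 := dA_mem_Lspace x
  have hd2 : d ^ 2 ∈ Lspace W 4 := by rw [sq]; exact mul_mem_Lspace hdd hdd
  have hd4 : d ^ 4 ∈ Lspace W 8 := by
    rw [show d ^ 4 = d ^ 2 * d ^ 2 by ring]; exact mul_mem_Lspace hd2 hd2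
  have hd3 : d ^ 3 ∈ Lspace W 6 := by rw [pow_succ d 2]; exact mul_mem_Lspace hd2 hdd
  have hN2 : N ^ 2 ∈ Lspace W 8 := by rw [sq]; exact mul_mem_Lspace hNd hNd
  have ht : t ∈ Lspace W 6 := add_mem
    (mul_mem_Lspace (mul_mem_Lspace (cA_mem_Lspace 0 _) hNd) hdd)
    (mul_mem_Lspace (cA_mem_Lspace 0 _) hd3)
  have hr : r ∈ Lspace W 12 := add_mem (add_mem (add_mem
      (by rw [show N ^ 3 = N * N * N by ring]; exact mul_mem_Lspace (mul_mem_Lspace hNd hNd) hNd)
      (mul_mem_Lspace (mul_mem_Lspace (cA_mem_Lspace 0 _) hN2) hd2))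
      (mul_mem_Lspace (mul_mem_Lspace (cA_mem_Lspace 0 _) hNd) hd4))
      (mul_mem_Lspace (cA_mem_Lspace 0 _) (show d ^ 6 ∈ Lspace W 12 by
        rw [show d ^ 6 = d ^ 4 * d ^ 2 by ring]; exact mul_mem_Lspace hd4 hd2))
  have heq : numY W x y * (numY W x y + t) = r := by
    refine eq_of_eventually ?_
    filter_upwards [eventually_ne 0, eventually_ne (Point.some _ _ h),
      eventually_ne (-Point.some _ _ h)] with P hP0 hP1 hP2
    have hx := ev_numX h hP0 hP1 hP2
    have hy := ev_numY h hP0 hP1 hP2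
    obtain ⟨hQ, hPe⟩ : P - Point.some _ _ h ≠ 0 ∧ True := ⟨sub_ne_zero.mpr hP1, trivial⟩
    have hE := congrArg (ev (P - Point.some _ _ h)) (equation_xA_yA (W := W))
    simp only [ev_zero', ev_add, ev_sub, ev_mul, ev_pow hQ, ev_cA hQ] at hE
    simp only [ht', hr', ev_mul, ev_add, ev_pow hP0, ev_cA hP0, N, d, hx, hy]
    linear_combination (ev P (dA W x)) ^ 6 * hE
  rw [mem_Lspace]
  by_contra hlt
  rw [not_le] at hlt
  have hs : wdeg (numY W x y + t) ≤ ((6 : ℕ) : WithBot ℕ) := by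
    by_contra hs
    rw [not_le] at hs
    have h12 : wdeg (numY W x y * (numY W x y + t)) ≤ ((12 : ℕ) : WithBot ℕ) := heq ▸ hr
    rw [wdeg_mul] at h12
    revert h12 hs hlt
    cases wdeg (numY W x y) <;> cases wdeg (numY W x y + t) <;> intro hlt hs h12
    all_goals first
      | exact absurd hlt (not_lt_bot)
      | exact absurd hs (not_lt_bot)
      | (rw [← WithBot.coe_add] at h12
         have := WithBot.coe_le_coe.mp h12
         have := WithBot.coe_lt_coe.mp hlt
         have := WithBot.coe_lt_coe.mp hs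
         omega)
  have := sub_mem (show numY W x y + t ∈ Lspace W 6 from hs) ht
  rw [add_sub_cancel_right] at this
  exact absurd this (not_le.mpr hlt)

/-- `a` translated by `(x, y)`, with the denominator cleared, in weight `k`. -/
def Rep (h : W.Nonsingular x y) (k : ℕ) (a : A) : Prop :=
  ∃ N : A, N ∈ ptIdeal W x (W.negY x y) ^ k ∧ N ∈ Lspace W (2 * k) ∧
    ∀ P : W.Point, P ≠ 0 → P ≠ Point.some _ _ h → P ≠ -Point.some _ _ h →
      ev P N = ev P (dA W x) ^ k * ev (P - Point.some _ _ h) a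

theorem rep_cA (h : W.Nonsingular x y) (c : K) : Rep h 0 (cA W c) :=
  ⟨cA W c, by simp, cA_mem_Lspace _ c, fun P hP0 hP1 _ => by
    rw [ev_cA hP0, ev_cA (sub_ne_zero.mpr hP1), pow_zero, one_mul]⟩

theorem rep_xA (h : W.Nonsingular x y) : Rep h 2 (xA W) :=
  ⟨numX W x y, numX_mem_pow x y, numX_mem_Lspace h, fun _ => ev_numX h⟩

theorem rep_yA (h : W.Nonsingular x y) : Rep h 3 (yA W) :=
  ⟨numY W x y, numY_mem_pow x y, numY_mem_Lspace h, fun _ => ev_numY h⟩

theorem Rep.mul {h : W.Nonsingular x y} {j k : ℕ} {a b : A} (ha : Rep h j a) (hb : Rep h k b) :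
    Rep h (j + k) (a * b) := by
  obtain ⟨M, hM1, hM2, hM3⟩ := ha
  obtain ⟨N, hN1, hN2, hN3⟩ := hb
  refine ⟨M * N, by rw [pow_add]; exact Ideal.mul_mem_mul hM1 hN1,
    by rw [mul_add]; exact mul_mem_Lspace hM2 hN2, fun P h0 h1 h2 => ?_⟩
  rw [ev_mul, ev_mul, hM3 P h0 h1 h2, hN3 P h0 h1 h2, pow_add]
  ring

theorem Rep.mono {h : W.Nonsingular x y} {j k : ℕ} {a : A} (ha : Rep h j a) (hjk : j ≤ k) :
    Rep h k a := by
  obtain ⟨M, hM1, hM2, hM3⟩ := ha
  obtain ⟨m, rfl⟩ := Nat.exists_eq_add_of_le hjk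
  have hd : dA W x ^ m ∈ Lspace W (2 * m) := by
    induction m with
    | zero => simp [one_mem_Lspace]
    | succ m ih => rw [pow_succ, mul_add, mul_one]; exact mul_mem_Lspace (ih (by omega)) (dA_mem_Lspace x)
  refine ⟨M * dA W x ^ m, by
      rw [pow_add]; exact Ideal.mul_mem_mul hM1 (Ideal.pow_mem_pow (dA_mem_ptIdeal _ _) m),
    by rw [mul_add]; exact mul_mem_Lspace hM2 hd, fun P h0 h1 h2 => ?_⟩
  rw [ev_mul, hM3 P h0 h1 h2, ev_pow h0, pow_add]
  ring

theorem Rep.add {h : W.Nonsingular x y} {k : ℕ} {a b : A} (ha : Rep h k a) (hb : Rep h k b) :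
    Rep h k (a + b) := by
  obtain ⟨M, hM1, hM2, hM3⟩ := ha
  obtain ⟨N, hN1, hN2, hN3⟩ := hb
  exact ⟨M + N, add_mem hM1 hN1, add_mem hM2 hN2, fun P h0 h1 h2 => by
    rw [ev_add, ev_add, hM3 P h0 h1 h2, hN3 P h0 h1 h2, mul_add]⟩

theorem rep_of_mem_Lspace (h : W.Nonsingular x y) {n : ℕ} {a : A} (ha : a ∈ Lspace W n) :
    Rep h n a := by
  obtain ⟨p, q, rfl⟩ := exists_repr a
  obtain ⟨hp, hq⟩ := degree_le_of_repr_mem ha
  have hpoly : ∀ r : K[X], Rep h (2 * r.natDegree) (CoordinateRing.mk W (C r)) := by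
    intro r
    have hpow : ∀ i : ℕ, Rep h (2 * i) (xA W ^ i) := by
      intro i
      induction i with
      | zero => simpa using rep_cA h 1
      | succ i ih => rw [pow_succ, mul_add, mul_one]; exact ih.mul (rep_xA h)
    conv => arg 3; rw [r.as_sum_range_C_mul_X_pow]
    simp only [map_sum]
    refine Finset.sum_induction _ (Rep h (2 * r.natDegree)) (fun _ _ => Rep.add)
      (by simpa using (rep_cA h 0).mono (Nat.zero_le _)) fun i hi => ?_
    rw [Finset.mem_range] at hi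
    have := ((rep_cA h (r.coeff i)).mul (hpow i)).mono (k := 2 * r.natDegree) (by omega)
    simpa [cA, xA] using this
  refine ((hpoly p).mono hp).add ?_
  rcases eq_or_ne q 0 with rfl | hq0
  · simpa using (rep_cA h 0).mono (Nat.zero_le _)
  · exact ((hpoly q).mul (rep_yA h)).mono (hq hq0)

end FLTA.Elliptic.Weil
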