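import Fermat.Agent.EllTorsion.WeilTranslate
import Mathlib.LinearAlgebra.Eigenspace.Triangularizable
import Mathlib.Algebra.Module.ZMod

set_option autoImplicit false
set_option linter.unusedSectionVars false

/-!
# The theta group of level `p`: lifts of translations to `L(p ∞)`
-/

open Polynomial
open scoped Polynomial.Bivariate
open WeierstrassCurve WeierstrassCurve.Affine

namespace FLTA.Elliptic.Weil

universe v

variable {K : Type v} [Field K] [DecidableEq K] [IsAlgClosed K] {W : WeierstrassCurve.Affine K}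
  [W.IsElliptic] {p : ℕ}

local notation "A" => CoordinateRing W

/-- `1` as an element of `L(n ∞)`. -/
noncomputable def oneL (W : WeierstrassCurve.Affine K) (n : ℕ) : Lspace W n :=
  ⟨1, one_mem_Lspace n⟩

@[simp] theorem coe_oneL (n : ℕ) : ((oneL W n : Lspace W n) : A) = 1 := rfl

/-- A bijective endomorphism of `L(n ∞)` of the shape `h ↦ g ⬝ (h ∘ (· - U))`. -/
def IsTwist {n : ℕ} (U : W.Point) (L : Module.End K (Lspace W n)) : Prop :=
  Function.Bijective L ∧ ∀ h : Lspace W n, ∀ᶠ P : W.Point in Filter.cofinite,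
    ev P (L h : A) = ev P (L (oneL W n) : A) * ev (P - U) (h : A)

theorem IsTwist.mul {n : ℕ} {U V : W.Point} {L M : Module.End K (Lspace W n)}
    (hL : IsTwist U L) (hM : IsTwist V M) : IsTwist (U + V) (L * M) := by
  refine ⟨hL.1.comp hM.1, fun h => ?_⟩
  filter_upwards [hL.2 (M h), hL.2 (M (oneL W n)), eventually_sub U (hM.2 h)] with P h1 h2 h3
  show ev P (L (M h) : A) = ev P (L (M (oneL W n)) : A) * ev (P - (U + V)) (h : A)
  rw [h1, h2, h3, mul_assoc, sub_sub]

theorem isTwist_one {n : ℕ} : IsTwist (0 : W.Point) (1 : Module.End K (Lspace W n)) := by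
  refine ⟨Function.bijective_id, fun h => ?_⟩
  filter_upwards [eventually_ne 0] with P hP
  rw [Module.End.one_apply, Module.End.one_apply, coe_oneL, ev_one hP, one_mul, sub_zero]

/-- The function with divisor `p (U) - p (∞)`. -/
theorem exists_span_eq_pow {x y : K} (h : W.Nonsingular x y) {n : ℕ}
    (hn : n • (Point.some _ _ h : W.Point) = 0) :
    ∃ f : A, f ≠ 0 ∧ Ideal.span {f} = ptIdeal W x y ^ n := by
  have hcl := congrArg Point.toClass hn
  rw [map_nsmul, Point.toClass_some, map_zero] at hcl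
  have hcl' : ClassGroup.mk W.FunctionField (CoordinateRing.XYIdeal' h ^ n) = 1 := by
    rw [map_pow]; exact hcl
  obtain ⟨f, hf0, hf⟩ := (ClassGroup.mk_eq_one_of_coe_ideal (I' := ptIdeal W x y ^ n) (by
    rw [Units.val_pow_eq_pow_val, CoordinateRing.XYIdeal'_eq, FractionalIdeal.coeIdeal_pow]
    rfl)).mp hcl'
  exact ⟨f, hf0, hf.symm⟩

theorem dA_pow_dvd_mul {x y : K} (h : W.Nonsingular x y) {n : ℕ} {f N : A}
    (hf : f ∈ ptIdeal W x y ^ n) (hN : N ∈ ptIdeal W x (W.negY x y) ^ n) :
    ∃ g : A, f * N = g * dA W x ^ n := by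
  have h1 := Ideal.mul_mem_mul hN hf
  rw [← mul_pow, ptIdeal_neg_mul h, Ideal.span_singleton_pow, Ideal.mem_span_singleton'] at h1
  obtain ⟨g, hg⟩ := h1
  exact ⟨g, by rw [hg, mul_comm]⟩

theorem wdeg_dA_pow (x : K) (m : ℕ) : wdeg (dA W x ^ m) = ((2 * m : ℕ) : WithBot ℕ) := by
  rw [wdeg, map_pow, degree_pow, ← wdeg, wdeg_dA, nsmul_eq_mul, mul_comm]
  push_cast
  rfl

theorem mem_Lspace_of_mul_dA {x : K} {n : ℕ} {f N g : A} (hf : f ∈ Lspace W n)
    (hN : N ∈ Lspace W (2 * n)) (hg : f * N = g * dA W x ^ n) : g ∈ Lspace W n := by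
  have h1 : wdeg (g * dA W x ^ n) ≤ ((n + 2 * n : ℕ) : WithBot ℕ) := hg ▸ mul_mem_Lspace hf hN
  rw [wdeg_mul, wdeg_dA_pow, Nat.cast_add] at h1
  exact WithBot.le_of_add_le_add_right WithBot.coe_ne_bot h1

theorem exists_isTwist_some [Fact p.Prime] {x y : K} (h : W.Nonsingular x y)
    (hU : p • (Point.some _ _ h : W.Point) = 0) :
    ∃ L : Module.End K (Lspace W p), IsTwist (Point.some _ _ h) L := by
  set U : W.Point := Point.some _ _ h with hUdef
  obtain ⟨f, hf0, hf⟩ := exists_span_eq_pow h hU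
  have hfI : f ∈ ptIdeal W x y ^ p := hf ▸ Ideal.mem_span_singleton_self f
  have hfL : f ∈ Lspace W p := (wdeg_eq_of_span_eq_pow h hf).le
  have hev : ∀ a : Lspace W p, ∃ g : Lspace W p, ∀ᶠ P : W.Point in Filter.cofinite,
      ev P (g : A) = ev P f * ev (P - U) (a : A) := by
    intro a
    obtain ⟨N, hN1, hN2, hN3⟩ := rep_of_mem_Lspace h a.2
    obtain ⟨g, hg⟩ := dA_pow_dvd_mul h hfI hN1
    refine ⟨⟨g, mem_Lspace_of_mul_dA hfL hN2 hg⟩, ?_⟩
    filter_upwards [eventually_ne 0, eventually_ne U, eventually_ne (-U),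
      eventually_ev_ne_zero (dA_ne_zero (W := W) x)] with P h0 h1 h2 hd
    have := congrArg (ev P) hg
    rw [ev_mul, ev_mul, hN3 P h0 h1 h2, ev_pow h0] at this
    refine mul_right_cancel₀ (pow_ne_zero p hd) ?_
    rw [← this]
    ring
  choose g hg using hev
  have huniq : ∀ a b : Lspace W p, (∀ᶠ P : W.Point in Filter.cofinite,
      ev P (a : A) = ev P (b : A)) → a = b := fun a b hab => Subtype.ext (eq_of_eventually hab)
  let L : Module.End K (Lspace W p) :=
    { toFun := g
      map_add' := fun a b => huniq _ _ (by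
        filter_upwards [hg a, hg b, hg (a + b)] with P ha hb hab
        rw [hab, Submodule.coe_add, Submodule.coe_add, ev_add, ev_add, ha, hb, mul_add])
      map_smul' := fun c a => huniq _ _ (by
        filter_upwards [hg a, hg (c • a)] with P ha hca
        rw [hca, RingHom.id_apply, Submodule.coe_smul, Submodule.coe_smul, ev_smul, ev_smul, ha]
        ring) }
  have hLspec : ∀ a, ∀ᶠ P : W.Point in Filter.cofinite,
      ev P (L a : A) = ev P f * ev (P - U) (a : A) := hg
  have hL1 : (L (oneL W p) : A) = f := by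
    refine eq_of_eventually ?_
    filter_upwards [hLspec (oneL W p), eventually_ne U] with P hP h1
    rw [hP, coe_oneL, ev_one (sub_ne_zero.mpr h1), mul_one]
  have hinj : Function.Injective L := by
    refine (injective_iff_map_eq_zero L).mpr fun a ha => Subtype.ext ?_
    have h1 : ∀ᶠ P : W.Point in Filter.cofinite, ev (P - U) (a : A) = 0 := by
      filter_upwards [hLspec a, eventually_ev_ne_zero hf0] with P hP hfP
      rw [ha, Submodule.coe_zero, ev_zero'] at hP
      exact (mul_eq_zero.mp hP.symm).resolve_left hfP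
    refine eq_of_eventually ?_
    filter_upwards [eventually_sub (-U) h1] with P hP
    rw [sub_neg_eq_add, add_sub_cancel_right] at hP
    rw [hP, Submodule.coe_zero, ev_zero']
  refine ⟨L, ⟨hinj, LinearMap.injective_iff_surjective.mp hinj⟩, fun a => ?_⟩
  filter_upwards [hLspec a] with P hP
  rw [hP, hL1]

end FLTA.Elliptic.Weil
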