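import Fermat.Agent.EllTorsion.WeilTwist

set_option autoImplicit false
set_option linter.unusedSectionVars false

/-!
# Uniqueness of lifts of translations, and their common eigenvectors
-/

open Polynomial
open scoped Polynomial.Bivariate
open WeierstrassCurve WeierstrassCurve.Affine

namespace FLTA.Elliptic.Weil

universe v

variable {K : Type v} [Field K] [DecidableEq K] [IsAlgClosed K] {W : WeierstrassCurve.Affine K}
  [W.IsElliptic] {p : ℕ} [Fact p.Prime]

local notation "A" => CoordinateRing W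

omit [Fact p.Prime] in
theorem IsTwist.identity {x y : K} {h : W.Nonsingular x y}
    {L : Module.End K (Lspace W p)} (hL : IsTwist (Point.some _ _ h) L) (a : Lspace W p) {N : A}
    (hN : ∀ P : W.Point, P ≠ 0 → P ≠ Point.some _ _ h → P ≠ -Point.some _ _ h →
      ev P N = ev P (dA W x) ^ p * ev (P - Point.some _ _ h) (a : A)) :
    (L a : A) * dA W x ^ p = (L (oneL W p) : A) * N := by
  refine eq_of_eventually ?_
  filter_upwards [hL.2 a, eventually_ne 0, eventually_ne (Point.some _ _ h),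
    eventually_ne (-Point.some _ _ h)] with P hP h0 h1 h2
  rw [ev_mul, ev_mul, hP, hN P h0 h1 h2, ev_pow h0]
  ring

omit [Fact p.Prime] in
theorem IsTwist.coe_one_ne_zero {U : W.Point} {L : Module.End K (Lspace W p)}
    (hL : IsTwist U L) : (L (oneL W p) : A) ≠ 0 := by
  intro h
  have h1 : oneL W p = 0 := hL.1.1 (by rw [map_zero]; exact Subtype.ext h)
  exact one_ne_zero (α := A) (congrArg Subtype.val h1)

theorem span_twist_one_eq {x y : K} {h : W.Nonsingular x y}
    (hp2 : p ≠ 2) (hU : p • (Point.some _ _ h : W.Point) = 0)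
    {L : Module.End K (Lspace W p)} (hL : IsTwist (Point.some _ _ h) L) :
    Ideal.span {(L (oneL W p) : A)} = ptIdeal W x y ^ p := by
  have hp : p.Prime := Fact.out
  set g : A := (L (oneL W p) : A)
  set I := ptIdeal W x y
  set I' := ptIdeal W x (W.negY x y)
  have hII : I' * I = Ideal.span {dA W x} := ptIdeal_neg_mul h
  obtain ⟨a, ha⟩ := hL.1.2 (oneL W p)
  obtain ⟨N, hN1, hN2, hN3⟩ := rep_of_mem_Lspace h a.2
  have hid := hL.identity a hN3
  rw [ha, coe_oneL, one_mul] at hid
  -- `(g) (N) = I ^ p I' ^ p`, and `I' ^ p` divides `(N)`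
  obtain ⟨J, hJ⟩ : ∃ J : Ideal A, Ideal.span {N} * I ^ p = Ideal.span {dA W x ^ p} * J := by
    refine ⟨(Ideal.span {N} * I ^ p).colon {dA W x ^ p}, le_antisymm (fun z hz => ?_)
      (Ideal.span_singleton_mul_le_iff.mpr fun z hz => ?_)⟩
    · have hle : Ideal.span {N} * I ^ p ≤ Ideal.span {dA W x ^ p} := by
        rw [← Ideal.span_singleton_pow, ← hII, mul_pow]
        exact Ideal.mul_mono_left ((Ideal.span_singleton_le_iff_mem _).mpr hN1)
      obtain ⟨t, rfl⟩ := Ideal.mem_span_singleton'.mp (hle hz)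
      rw [mul_comm t, Ideal.mem_span_singleton_mul]
      exact ⟨t, Submodule.mem_colon_singleton.mpr (by rwa [smul_eq_mul]), rfl⟩
    · rw [Submodule.mem_colon_singleton, smul_eq_mul] at hz
      rw [mul_comm (dA W x ^ p) z]; exact hz
  have hgJ : Ideal.span {g} * J = I ^ p := by
    refine (Ideal.span_singleton_mul_right_inj (pow_ne_zero p (dA_ne_zero x))).mp ?_
    calc Ideal.span {dA W x ^ p} * (Ideal.span {g} * J)
        = Ideal.span {g} * (Ideal.span {N} * I ^ p) := by rw [hJ]; ring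
      _ = Ideal.span {g * N} * I ^ p := by
          rw [← mul_assoc, Ideal.span_singleton_mul_span_singleton]
      _ = Ideal.span {dA W x ^ p} * I ^ p := by rw [← hid]
  obtain ⟨m, hm, hgm⟩ := exists_eq_pow_of_mul_eq_pow h p _ J hgJ
  have hmU : m • (Point.some _ _ h : W.Point) = 0 := by
    refine Point.toClass_injective ?_
    rw [map_nsmul, Point.toClass_some, map_zero]
    have h1 : ClassGroup.mk W.FunctionField (CoordinateRing.XYIdeal' h ^ m) = 1 :=
      (ClassGroup.mk_eq_one_of_coe_ideal (I' := ptIdeal W x y ^ m) (by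
        rw [Units.val_pow_eq_pow_val, CoordinateRing.XYIdeal'_eq, FractionalIdeal.coeIdeal_pow]
        rfl)).mpr ⟨g, hL.coe_one_ne_zero, hgm.symm⟩
    rw [map_pow] at h1
    exact h1
  have hord : addOrderOf (Point.some _ _ h : W.Point) = p :=
    addOrderOf_eq_prime hU (Point.some_ne_zero h)
  have hpm : p ∣ m := hord ▸ addOrderOf_dvd_iff_nsmul_eq_zero.mpr hmU
  rcases eq_or_ne m 0 with rfl | hm0
  · -- then `g` is a unit, and the image of `X` would not be regular at `U`
    exfalso
    rw [pow_zero, Ideal.one_eq_top, Ideal.span_singleton_eq_top] at hgm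
    have hxmem : xA W ∈ Lspace W p := Lspace_mono hp.two_le (wdeg_xA).le
    obtain ⟨c, hc0, hc⟩ := exists_eq_cA_of_isUnit hgm
    have hid' : (L ⟨xA W, hxmem⟩ : A) * dA W x ^ 2 = g * numX W x y := by
      refine eq_of_eventually ?_
      filter_upwards [hL.2 ⟨xA W, hxmem⟩, eventually_ne 0, eventually_ne (Point.some _ _ h),
        eventually_ne (-Point.some _ _ h)] with P hP h0 h1 h2
      rw [ev_mul, ev_mul, hP, ev_numX h h0 h1 h2, ev_pow h0]
      ring
    have := congrArg (evalAt h.1) hid'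
    rw [map_mul, map_mul, map_pow, evalAt_dA, sub_self, zero_pow two_ne_zero, mul_zero,
      show g = cA W c from hc, evalAt_cA] at this
    simp only [numX, map_add, map_sub, map_mul, map_pow, evalAt_dA, evalAt_xA, evalAt_yA,
      evalAt_cA, sub_self, mul_zero, add_zero, zero_pow two_ne_zero, sub_zero] at this
    have hy : y = W.negY x y := sub_eq_zero.mp
      (pow_eq_zero_iff two_ne_zero |>.mp ((mul_eq_zero.mp this.symm).resolve_left hc0))
    have h2 : (2 : ℕ) • (Point.some _ _ h : W.Point) = 0 := by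
      rw [two_nsmul]; exact Point.add_self_of_Y_eq hy
    have h2' : p ∣ 2 := hord ▸ addOrderOf_dvd_iff_nsmul_eq_zero.mpr h2
    exact hp2 ((Nat.prime_dvd_prime_iff_eq hp Nat.prime_two).mp h2')
  · rw [hgm, le_antisymm hm (Nat.le_of_dvd (Nat.pos_of_ne_zero hm0) hpm)]

/-- A lift of the trivial translation is a scalar. -/
theorem IsTwist.eq_smul_one_of_zero {n : ℕ} {L : Module.End K (Lspace W n)}
    (hL : IsTwist (0 : W.Point) L) : ∃ c : K, c ≠ 0 ∧ L = c • 1 := by
  obtain ⟨a, ha⟩ := hL.1.2 (oneL W n)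
  have hid : ∀ b : Lspace W n, (L b : A) = (L (oneL W n) : A) * (b : A) := fun b => by
    refine eq_of_eventually ?_
    filter_upwards [hL.2 b] with P hP
    rw [hP, ev_mul, sub_zero]
  have h1 := hid a
  rw [ha, coe_oneL] at h1
  obtain ⟨c, hc0, hc⟩ := exists_eq_cA_of_isUnit (IsUnit.of_mul_eq_one _ h1.symm)
  refine ⟨c, hc0, LinearMap.ext fun b => Subtype.ext ?_⟩
  rw [hid b, hc, LinearMap.smul_apply, Module.End.one_apply, Submodule.coe_smul, smul_def]

/-- Two lifts of a translation by a `p`-torsion point differ by a scalar. -/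
theorem IsTwist.exists_eq_smul (hp2 : p ≠ 2) {U : W.Point} (hU : p • U = 0)
    {L M : Module.End K (Lspace W p)} (hL : IsTwist U L) (hM : IsTwist U M) :
    ∃ c : K, c ≠ 0 ∧ M = c • L := by
  rcases U with _ | ⟨x, y, h⟩
  · obtain ⟨c, hc0, rfl⟩ := IsTwist.eq_smul_one_of_zero hL
    obtain ⟨d, hd0, rfl⟩ := IsTwist.eq_smul_one_of_zero hM
    exact ⟨d / c, div_ne_zero hd0 hc0, by rw [smul_smul, div_mul_cancel₀ d hc0]⟩
  obtain ⟨u, hu⟩ := Ideal.span_singleton_eq_span_singleton.mp
    ((span_twist_one_eq hp2 hU hL).trans (span_twist_one_eq hp2 hU hM).symm)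
  obtain ⟨c, hc0, hc⟩ := exists_eq_cA_of_isUnit u.isUnit
  refine ⟨c, hc0, LinearMap.ext fun a => Subtype.ext (eq_of_eventually ?_)⟩
  filter_upwards [hL.2 a, hM.2 a, eventually_ne 0] with P hLP hMP hP
  rw [LinearMap.smul_apply, Submodule.coe_smul, ev_smul, hLP, hMP, ← hu, ev_mul, hc, ev_cA hP]
  ring

theorem exists_isTwist {U : W.Point} (hU : p • U = 0) :
    ∃ L : Module.End K (Lspace W p), IsTwist U L := by
  rcases U with _ | ⟨x, y, h⟩
  · exact ⟨1, isTwist_one⟩
  · exact exists_isTwist_some h hU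

/-- An eigenvector of the lift of the translation by `U` vanishing at `P` vanishes at `P - U`. -/
theorem IsTwist.ev_sub_eq_zero (hp2 : p ≠ 2) {U : W.Point} (hU : p • U = 0)
    {L : Module.End K (Lspace W p)} (hL : IsTwist U L) {a : Lspace W p} {c : K}
    (ha : L a = c • a) {P : W.Point} (hP0 : P ≠ 0) (hP1 : P ≠ U) (hP2 : P ≠ -U)
    (hPa : ev P (a : A) = 0) : ev (P - U) (a : A) = 0 := by
  rcases U with _ | ⟨x, y, h⟩
  · exact (congrArg (fun Q => ev Q (a : A)) (sub_zero P)).trans hPa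
  obtain ⟨N, hN1, hN2, hN3⟩ := rep_of_mem_Lspace h a.2
  have := congrArg (ev P) (hL.identity a hN3)
  rw [ev_mul, ev_mul, ha, Submodule.coe_smul, ev_smul, hPa, mul_zero, zero_mul,
    hN3 P hP0 hP1 hP2] at this
  rcases P with _ | ⟨x', y', hP⟩
  · exact absurd rfl hP0
  have hg : ev (Point.some _ _ hP) (L (oneL W p) : A) ≠ 0 := by
    intro h0
    rw [ev_some, ← mem_ptIdeal_iff hP.1] at h0
    have hle : ptIdeal W x y ^ p ≤ ptIdeal W x' y' :=
      (span_twist_one_eq hp2 hU hL).ge.trans ((Ideal.span_singleton_le_iff_mem _).mpr h0)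
    have := (ptIdeal_isMaximal h.1).eq_of_le (ptIdeal_isMaximal hP.1).ne_top
      ((ptIdeal_isMaximal hP.1).isPrime.le_of_pow_le hle)
    refine ne_and_ne_neg hP1 hP2 ?_
    have h1 : evalAt hP.1 (dA W x) = 0 := by
      rw [← mem_ptIdeal_iff hP.1, ← this]; exact dA_mem_ptIdeal x y
    rwa [evalAt_dA, sub_eq_zero] at h1
  have hd : ev (Point.some _ _ hP) (dA W x) ≠ 0 := by
    rw [ev_some, evalAt_dA]; exact sub_ne_zero.mpr (ne_and_ne_neg hP1 hP2)
  exact (mul_eq_zero.mp ((mul_eq_zero.mp this.symm).resolve_left hg)).resolve_left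
    (pow_ne_zero p hd)

/-- There is no common eigenvector for all lifts of translations by `p`-torsion points. -/
theorem no_common_eigenvector (hp2 : p ≠ 2) (T : Set W.Point) (hT : ∀ U ∈ T, p • U = 0)
    (hcard : T.ncard = p ^ 2) {a : Lspace W p} (ha : a ≠ 0) :
    ¬ ∀ U ∈ T, ∀ L : Module.End K (Lspace W p), IsTwist U L → ∃ c : K, L a = c • a := by
  intro heig
  have hp : p.Prime := Fact.out
  have hp3 : 3 ≤ p := lt_of_le_of_ne hp.two_le (Ne.symm hp2)
  have hTfin : T.Finite := Set.finite_of_ncard_ne_zero (by rw [hcard]; positivity)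
  have hane : (a : A) ≠ 0 := fun h => ha (Subtype.ext h)
  by_cases hconst : ∀ c : K, (a : A) ≠ cA W c
  · obtain ⟨P, hP0, hPa⟩ := exists_zero_of_forall_ne_cA hconst
    have hsub : (fun U => P - U) '' (T \ {P, -P}) ⊆ zeros (a : A) := by
      rintro _ ⟨U, ⟨hU, hUP⟩, rfl⟩
      simp only [Set.mem_insert_iff, Set.mem_singleton_iff, not_or] at hUP
      obtain ⟨L, hL⟩ := exists_isTwist (hT U hU)
      obtain ⟨c, hc⟩ := heig U hU L hL
      refine ⟨sub_ne_zero.mpr (Ne.symm hUP.1), hL.ev_sub_eq_zero hp2 (hT U hU) hc hP0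
        (Ne.symm hUP.1) (fun e => hUP.2 ?_) hPa⟩
      rw [e, neg_neg]
    have h1 := Set.ncard_le_ncard hsub (zeros_finite_and_ncard_le hane).1
    rw [Set.ncard_image_of_injective _ sub_right_injective] at h1
    have h2 := (zeros_finite_and_ncard_le hane).2 p a.2
    have h3 : T.ncard ≤ (T \ {P, -P}).ncard + 2 :=
      (Set.ncard_le_ncard_diff_add_ncard T {P, -P} (Set.toFinite _)).trans
        (Nat.add_le_add_left ((Set.ncard_insert_le _ _).trans (by rw [Set.ncard_singleton])) _)
    rw [hcard] at h3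
    have : 3 * p ≤ p ^ 2 := by rw [sq]; exact Nat.mul_le_mul_right p hp3
    omega
  · push Not at hconst
    obtain ⟨c, hc⟩ := hconst
    obtain ⟨U, hU, hU0⟩ : ∃ U ∈ T, U ≠ 0 := by
      by_contra hcon
      push Not at hcon
      have h1 : T.ncard ≤ 1 := (Set.ncard_le_ncard (t := {0}) (fun U hU => hcon U hU)).trans
        (by rw [Set.ncard_singleton])
      rw [hcard] at h1
      nlinarith [hp.two_le]
    rcases U with _ | ⟨x, y, h⟩
    · exact hU0 rfl
    obtain ⟨L, hL⟩ := exists_isTwist (hT _ hU)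
    obtain ⟨d, hd⟩ := heig _ hU L hL
    have hc0 : c ≠ 0 := fun h0 => hane (by rw [hc, h0, map_zero])
    have hg : (L (oneL W p) : A) = cA W d := by
      have e : a = c • oneL W p :=
        Subtype.ext (by rw [hc, Submodule.coe_smul, coe_oneL, smul_def, mul_one])
      rw [e, map_smul, smul_smul] at hd
      have := congrArg Subtype.val hd
      rw [Submodule.coe_smul, Submodule.coe_smul, coe_oneL, smul_def, smul_def, mul_one, map_mul,
        mul_comm (cA W d)] at this
      exact mul_left_cancel₀ (fun h0 => hc0 (by simpa using congrArg (evalAt h.1) h0)) this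
    have h4 := wdeg_eq_of_span_eq_pow h (span_twist_one_eq hp2 (hT _ hU) hL)
    rw [hg] at h4
    have h5 : (p : WithBot ℕ) ≤ 0 := h4 ▸ wdeg_cA_le d
    exact absurd (Nat.le_zero.mp (by exact_mod_cast h5)) hp.ne_zero

end FLTA.Elliptic.Weil
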